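/-
U1: duality by Weil differentials, the genus of the repartitions, large degrees.
-/
import Fermat.Agent.MCurve.MW.Basic
import Fermat.Prelude.Def_AlgebraicCurve_IsCurveOver
import Mathlib.RingTheory.EssentialFiniteness
import Mathlib.LinearAlgebra.Dual.Lemmas
import Mathlib.FieldTheory.FinTrdeg
import Mathlib.RingTheory.Kaehler.Polynomial
import Mathlib.RingTheory.Etale.Kaehler
import Mathlib.RingTheory.Etale.Field
import Mathlib.RingTheory.Localization.Integral

set_option autoImplicit false
set_option linter.unusedSectionVars false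
set_option linter.style.haveILetI false

noncomputable section

namespace Fermat.Agent.MCurve.T27

open AlgebraicCurve RR MW
open scoped Classical

variable {K F : Type*} [Field K] [Field F] [Algebra K F]

/-- Constant repartitions. -/
def constRep : F →ₗ[K] repartitions K F :=
  (Algebra.linearMap F (repartitions K F)).restrictScalars K

theorem range_constRep : LinearMap.range (constRep (K := K) (F := F)) = principalRepartitions K F := by
  ext α
  rfl

theorem constRep_apply (f : F) (v : Place K F) :
    ((constRep f : repartitions K F) : Place K F → F) v = f := rfl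

/-- Multiplication of repartitions by a function. -/
def mulRep (x : F) : repartitions K F →ₗ[K] repartitions K F :=
  ((Algebra.lsmul F F (repartitions K F)) x).restrictScalars K

theorem mulRep_apply (x : F) (α : repartitions K F) (v : Place K F) :
    ((mulRep x α : repartitions K F) : Place K F → F) v = x * (α : Place K F → F) v := rfl

theorem mulRep_constRep (x f : F) :
    mulRep x (constRep f : repartitions K F) = constRep (x * f) :=
  Subtype.ext (funext fun v => by simp [mulRep_apply, constRep_apply])

theorem repartitionsOf_comap (D : Divisor K F) :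
    (repartitionsOf D).comap constRep = riemannRochSpace D := rfl

/-- A repartition supported at one place. -/
def singleRep (v : Place K F) (f : F) : repartitions K F :=
  ⟨Pi.single v f, mem_repartitions_of_finite_ord ((Set.finite_singleton v).subset fun w hw => by
    by_contra h
    simp [Pi.single_eq_of_ne (Set.notMem_singleton_iff.mp h)] at hw)⟩

theorem mulRep_mem {D E : Divisor K F} {x : F} (hx : x ∈ riemannRochSpace E)
    {α : repartitions K F} (hα : α ∈ repartitionsOf D) : mulRep x α ∈ repartitionsOf (D + E) := by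
  rw [mem_repartitionsOf_iff] at hα ⊢
  intro v
  rw [mulRep_apply]
  rcases eq_or_ne x 0 with rfl | hx0
  · exact Or.inl (zero_mul _)
  rcases hα v with h | h
  · exact Or.inl (by rw [h, mul_zero])
  rcases eq_or_ne ((α : Place K F → F) v) 0 with h0 | h0
  · exact Or.inl (by rw [h0, mul_zero])
  have := ((mem_space_iff.mp hx).resolve_left hx0) v
  exact Or.inr (by rw [v.ord_mul hx0 h0, Finsupp.add_apply]; omega)

theorem repartitionsOf_sup_le (D E : Divisor K F) :
    repartitionsOf (D ⊔ E) ≤ repartitionsOf D ⊔ repartitionsOf E := by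
  intro α hα
  rw [mem_repartitionsOf_iff] at hα
  let β : Place K F → F := fun v => if E v ≤ D v then (α : Place K F → F) v else 0
  have hβ : ∀ v, β v = 0 ∨ -D v ≤ v.ord (β v) := fun v => by
    simp only [β]
    split_ifs with h
    · exact (hα v).imp id fun h' => by rw [Finsupp.sup_apply, max_eq_left h] at h'; exact h'
    · exact Or.inl rfl
  let b : repartitions K F := ⟨β, mem_repartitions_of_forall_le_exp D β fun v =>
    v.adicValuation_le_exp_iff.mpr (hβ v)⟩
  have hb : b ∈ repartitionsOf D := mem_repartitionsOf_iff.mpr hβ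
  have hc : α - b ∈ repartitionsOf E := mem_repartitionsOf_iff.mpr fun v => by
    show (α : Place K F → F) v - β v = 0 ∨ -E v ≤ v.ord ((α : Place K F → F) v - β v)
    simp only [β]
    split_ifs with h
    · exact Or.inl (sub_self _)
    · rw [sub_zero]
      exact (hα v).imp id fun h' => by
        rw [Finsupp.sup_apply, max_eq_right (le_of_not_ge h)] at h'; exact h'
  exact Submodule.mem_sup.mpr ⟨b, hb, α - b, hc, add_sub_cancel b α⟩

/-- Weil differentials bounded by a divisor. -/
def weilDiff (D : Divisor K F) : Submodule K (Module.Dual K (repartitions K F)) :=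
  (repartitionsOf D ⊔ principalRepartitions K F).dualAnnihilator

theorem mem_weilDiff {D : Divisor K F} {w : Module.Dual K (repartitions K F)} :
    w ∈ weilDiff D ↔ (∀ α ∈ repartitionsOf D, w α = 0) ∧ ∀ f : F, w (constRep f) = 0 := by
  rw [weilDiff, Submodule.dualAnnihilator_sup_eq, Submodule.mem_inf, Submodule.mem_dualAnnihilator,
    Submodule.mem_dualAnnihilator, ← range_constRep]
  simp

/-- The action of functions on a functional. -/
def actRep (w : Module.Dual K (repartitions K F)) : F →ₗ[K] Module.Dual K (repartitions K F) where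
  toFun x := w.comp (mulRep x)
  map_add' x y := LinearMap.ext fun α => by
    simp only [LinearMap.comp_apply, LinearMap.add_apply, ← map_add]
    exact congrArg w (Subtype.ext (funext fun v => by simp [mulRep_apply, add_mul]))
  map_smul' a x := LinearMap.ext fun α => by
    simp only [LinearMap.comp_apply, LinearMap.smul_apply, RingHom.id_apply, ← map_smul]
    exact congrArg w (Subtype.ext (funext fun v => by simp [mulRep_apply]))

theorem actRep_apply (w : Module.Dual K (repartitions K F)) (x : F) (α : repartitions K F) :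
    actRep w x α = w (mulRep x α) := rfl

theorem actRep_actRep (w : Module.Dual K (repartitions K F)) (x y : F) :
    actRep (actRep w x) y = actRep w (x * y) := LinearMap.ext fun α => by
  simp only [actRep_apply]
  exact congrArg w (Subtype.ext (funext fun v => by simp [mulRep_apply, mul_assoc]))

theorem actRep_one (w : Module.Dual K (repartitions K F)) : actRep w 1 = w :=
  LinearMap.ext fun α => by
    rw [actRep_apply]
    exact congrArg w (Subtype.ext (funext fun v => by simp [mulRep_apply]))

theorem actRep_mem {D D' E : Divisor K F} {x : F} (hx : x ∈ riemannRochSpace E)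
    {w : Module.Dual K (repartitions K F)} (hw : w ∈ weilDiff D') (h : D + E ≤ D') :
    actRep w x ∈ weilDiff D := by
  rw [mem_weilDiff] at hw ⊢
  exact ⟨fun α hα => hw.1 _ (repartitionsOf_mono h (mulRep_mem hx hα)),
    fun f => by rw [actRep_apply, mulRep_constRep]; exact hw.2 _⟩

variable [IsAlgClosed K] [∀ v : Place K F, v.FiniteResidue] [HasPrincipalDivisors K F]
  [Nonempty (Place K F)]

theorem finite_ord_neg {α : Place K F → F} (hα : α ∈ repartitions K F) :
    {v : Place K F | v.ord (α v) < 0}.Finite := by
  let S : Subalgebra F (Place K F → F) :=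
    { carrier := {α | {v : Place K F | v.ord (α v) < 0}.Finite}
      mul_mem' := fun {α β} h h' => (h.union h').subset fun v hv => by
        by_contra hc
        simp only [Set.mem_union, Set.mem_ofPred_eq, not_or, not_lt] at hc hv
        rw [Pi.mul_apply] at hv
        rcases eq_or_ne (α v) 0 with h0 | h0
        · rw [h0, zero_mul] at hv; simp at hv
        rcases eq_or_ne (β v) 0 with h1 | h1
        · rw [h1, mul_zero] at hv; simp at hv
        rw [v.ord_mul h0 h1] at hv
        omega
      add_mem' := fun {α β} h h' => (h.union h').subset fun v hv => by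
        by_contra hc
        simp only [Set.mem_union, Set.mem_ofPred_eq, not_or, not_lt] at hc hv
        rw [Pi.add_apply] at hv
        rcases eq_or_ne (α v) 0 with h0 | h0
        · rw [h0, zero_add] at hv; exact hv.not_ge hc.2
        rcases eq_or_ne (β v) 0 with h1 | h1
        · rw [h1, add_zero] at hv; exact hv.not_ge hc.1
        rcases eq_or_ne (α v + β v) 0 with h2 | h2
        · rw [h2] at hv; simp at hv
        have := MCurve.ord_add_le v h0 h1 h2
        omega
      algebraMap_mem' := fun f => (divOf K f).support.finite_toSet.subset fun v hv => by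
        rw [Finset.mem_coe, Finsupp.mem_support_iff, divOf_apply]
        exact ne_of_lt hv }
  have hle : repartitions K F ≤ S := Algebra.adjoin_le fun α hα =>
    hα.subset fun v hv => v.not_adicValuation_le_one_iff.mpr hv
  exact hle hα

theorem exists_mem_repartitionsOf (α : repartitions K F) (D : Divisor K F) :
    ∃ E, D ≤ E ∧ α ∈ repartitionsOf E := by
  set S := (finite_ord_neg α.2).toFinset ∪ D.support
  let e : Place K F → ℤ := fun v => max (D v) (max (-v.ord ((α : Place K F → F) v)) 0)
  let E : Divisor K F := Finsupp.onFinset S e fun v hv => by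
    by_contra h
    simp only [S, Finset.mem_union, Set.Finite.mem_toFinset, Set.mem_ofPred_eq, not_or, not_lt,
      Finsupp.notMem_support_iff] at h
    apply hv
    simp only [e, h.2]
    omega
  refine ⟨E, Finsupp.le_def.mpr fun v => le_max_left _ _, mem_repartitionsOf_iff.mpr fun v => ?_⟩
  refine Or.inr ?_
  simp only [E, Finsupp.onFinset_apply, e]
  omega

/-- The image of the repartitions bounded by `E` modulo those bounded by `D`. -/
theorem finrank_repartitionsOf_map {D E : Divisor K F} (h : D ≤ E) :
    Module.Finite K ((repartitionsOf E).map (repartitionsOf D).mkQ) ∧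
      (Module.finrank K ((repartitionsOf E).map (repartitionsOf D).mkQ) : ℤ) =
        Divisor.degree E - Divisor.degree D := by
  suffices key : ∀ (n : ℕ) (E : Divisor K F), D ≤ E → Divisor.degree E - Divisor.degree D ≤ n →
      Module.Finite K ((repartitionsOf E).map (repartitionsOf D).mkQ) ∧
      (Module.finrank K ((repartitionsOf E).map (repartitionsOf D).mkQ) : ℤ) =
        Divisor.degree E - Divisor.degree D from
    key (Divisor.degree E - Divisor.degree D).toNat E h (Int.self_le_toNat _)
  clear h E
  intro n
  induction n with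
  | zero =>
    intro E hE hd
    rw [← eq_of_le_of_degree hE (by push_cast at hd; omega), Submodule.mkQ_map_self]
    exact ⟨inferInstance, by simp⟩
  | succ n ih =>
    intro E hE hd
    by_cases heq : D = E
    · rw [← heq, Submodule.mkQ_map_self]
      exact ⟨inferInstance, by simp⟩
    obtain ⟨v, hv⟩ : ∃ v, D v ≠ E v := by
      by_contra hne
      exact heq (Finsupp.ext fun v => not_not.mp (not_exists.mp hne v))
    set E' := E - Finsupp.single v 1 with hE'
    have hle : D ≤ E' := Finsupp.le_def.mpr fun w => by
      have := Finsupp.le_def.mp hE w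
      rw [hE', Finsupp.sub_apply, Finsupp.single_apply]
      split_ifs with h
      · subst h; omega
      · omega
    have hd' : Divisor.degree E' = Divisor.degree E - 1 := by
      rw [hE', map_sub, degree_single_one]
    obtain ⟨hfin, hrk⟩ := ih E' hle (by rw [hd']; push_cast at hd; omega)
    obtain ⟨π, hπ, hπv⟩ := exists_ord_eq_one v
    set f := π ^ (-E v) with hf
    have hf0 : f ≠ 0 := zpow_ne_zero _ hπ
    have hfv : v.ord f = -E v := by rw [hf, v.ord_zpow, hπv, mul_one]
    set β := singleRep (K := K) v f with hβ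
    have hβE : β ∈ repartitionsOf E := mem_repartitionsOf_iff.mpr fun w => by
      show (Pi.single v f : Place K F → F) w = 0 ∨ _
      rcases eq_or_ne w v with rfl | hwv
      · exact Or.inr (by
          show -E w ≤ w.ord ((Pi.single w f : Place K F → F) w)
          rw [Pi.single_eq_same, hfv])
      · exact Or.inl (Pi.single_eq_of_ne hwv _)
    have hβE' : (repartitionsOf D).mkQ β ∉ (repartitionsOf E').map (repartitionsOf D).mkQ := by
      intro hmem
      have h1 : β ∈ repartitionsOf D ⊔ repartitionsOf E' := by
        rw [← Submodule.comap_map_mkQ]; exact hmem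
      rw [sup_eq_right.mpr (repartitionsOf_mono hle), mem_repartitionsOf_iff] at h1
      have h2 := h1 v
      simp only [hβ, singleRep, Pi.single_eq_same] at h2
      rcases h2 with h2 | h2
      · exact hf0 h2
      · rw [hfv, hE', Finsupp.sub_apply, Finsupp.single_eq_same] at h2; omega
    have hsup : (repartitionsOf E).map (repartitionsOf D).mkQ =
        (repartitionsOf E').map (repartitionsOf D).mkQ ⊔ K ∙ (repartitionsOf D).mkQ β := by
      rw [← Set.image_singleton, ← Submodule.map_span, ← Submodule.map_sup]
      refine congrArg _ (le_antisymm (fun α hα => ?_)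
        (sup_le (repartitionsOf_mono (sub_le_self _ (Finsupp.single_nonneg.mpr zero_le_one)))
          ((Submodule.span_singleton_le_iff_mem _ _).mpr hβE)))
      rw [mem_repartitionsOf_iff] at hα
      have hval : ∃ a : K, (α : Place K F → F) v - a • f = 0 ∨
          -E' v ≤ v.ord ((α : Place K F → F) v - a • f) := by
        obtain ⟨a, ha_def⟩ : ∃ a, (α : Place K F → F) v = a := ⟨_, rfl⟩
        have hαv := hα v
        rw [ha_def] at hαv ⊢
        rcases hαv with h | h
        · exact ⟨0, Or.inl (by rw [zero_smul, sub_zero]; exact h)⟩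
        rcases eq_or_ne a 0 with ha | ha
        · exact ⟨0, Or.inl (by rw [zero_smul, sub_zero]; exact ha)⟩
        haveI : Module.Finite K v.ResidueField := Place.FiniteResidue.finite
        obtain ⟨k, hk⟩ := exists_value v (f := a / f) ((mem_iff_ord_nonneg v (div_ne_zero ha hf0)).mpr
          (by rw [div_eq_mul_inv, v.ord_mul ha (inv_ne_zero hf0), v.ord_inv, hfv]; omega))
        refine ⟨k, ?_⟩
        have e : a - k • f = (a / f - algebraMap K F k) * f := by
          rw [sub_mul, div_mul_cancel₀ _ hf0, Algebra.smul_def]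
        rcases eq_or_ne (a / f - algebraMap K F k) 0 with h0 | h0
        · exact Or.inl (by rw [e, h0, zero_mul])
        rcases hk with hk | hk
        · exact absurd (sub_eq_zero.mpr hk) h0
        · exact Or.inr (by
            rw [e, v.ord_mul h0 hf0, hfv, hE', Finsupp.sub_apply, Finsupp.single_eq_same]
            omega)
      obtain ⟨a, ha⟩ := hval
      refine Submodule.mem_sup.mpr ⟨α - a • β, mem_repartitionsOf_iff.mpr fun w => ?_, a • β,
        Submodule.smul_mem _ a (Submodule.mem_span_singleton_self β), sub_add_cancel _ _⟩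
      show (α : Place K F → F) w - a • (Pi.single v f : Place K F → F) w = 0 ∨
        -E' w ≤ w.ord ((α : Place K F → F) w - a • (Pi.single v f : Place K F → F) w)
      rcases eq_or_ne w v with rfl | hwv
      · rwa [Pi.single_eq_same]
      · rw [Pi.single_eq_of_ne hwv, smul_zero, sub_zero, hE', Finsupp.sub_apply,
          Finsupp.single_eq_of_ne hwv, sub_zero]
        exact hα w
    haveI := hfin
    refine ⟨hsup ▸ inferInstance, ?_⟩
    have h3 := Submodule.finrank_sup_add_finrank_inf_eq
      ((repartitionsOf E').map (repartitionsOf D).mkQ) (K ∙ (repartitionsOf D).mkQ β)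
    have hne : (repartitionsOf D).mkQ β ≠ 0 := fun h => hβE' (h ▸ zero_mem _)
    rw [← hsup, finrank_span_singleton hne, show (repartitionsOf E').map (repartitionsOf D).mkQ ⊓
        K ∙ (repartitionsOf D).mkQ β = ⊥ by
      rw [Submodule.eq_bot_iff]
      rintro z ⟨hz, hz'⟩
      obtain ⟨a, rfl⟩ := Submodule.mem_span_singleton.mp hz'
      by_contra ha
      have ha' : a ≠ 0 := fun h => ha (by rw [h, zero_smul])
      exact hβE' ((Submodule.smul_mem_iff _ ha').mp hz), finrank_bot] at h3
    omega

theorem finrank_space_map {D E : Divisor K F} (h : D ≤ E) :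
    (Module.finrank K ((riemannRochSpace E).map ((repartitionsOf D).mkQ.comp constRep)) : ℤ) =
      ell E - ell D := by
  have h1 := LinearMap.finrank_range_add_finrank_ker
    (((repartitionsOf D).mkQ.comp constRep).domRestrict (riemannRochSpace E))
  rw [LinearMap.range_domRestrict, LinearMap.ker_domRestrict, LinearMap.ker_comp, Submodule.ker_mkQ,
    repartitionsOf_comap, (Submodule.comapSubtypeEquivOfLe (space_mono h)).finrank_eq] at h1
  simp only [ell]
  omega

theorem map_inf_principal {D E : Divisor K F} (h : D ≤ E) :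
    (repartitionsOf E).map (repartitionsOf D).mkQ ⊓
      (principalRepartitions K F).map (repartitionsOf D).mkQ =
        (riemannRochSpace E).map ((repartitionsOf D).mkQ.comp constRep) := by
  refine le_antisymm ?_ ?_
  · rintro _ ⟨⟨α, hα, rfl⟩, p, hp, hpe⟩
    rw [← range_constRep] at hp
    obtain ⟨f, rfl⟩ := hp
    refine ⟨f, ?_, hpe⟩
    rw [SetLike.mem_coe, ← repartitionsOf_comap, Submodule.mem_comap]
    have h1 : constRep f - α ∈ repartitionsOf D := (Submodule.Quotient.eq _).mp hpe
    simpa using add_mem (repartitionsOf_mono h h1) hα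
  · rintro _ ⟨f, hf, rfl⟩
    refine ⟨⟨_, ?_, rfl⟩, _, ?_, rfl⟩
    · exact hf
    · rw [← range_constRep]; exact ⟨f, rfl⟩

theorem sup_principal_eq_top {g c : ℕ} (hR : IsRiemann K F g c) {E : Divisor K F}
    (hE : (c : ℤ) ≤ Divisor.degree E) : repartitionsOf E ⊔ principalRepartitions K F = ⊤ := by
  rw [eq_top_iff]
  intro α _
  obtain ⟨E', hEE', hα⟩ := exists_mem_repartitionsOf α E
  obtain ⟨hfin, hrk⟩ := finrank_repartitionsOf_map hEE'
  have hsub : (riemannRochSpace E').map ((repartitionsOf E).mkQ.comp constRep) ≤
      (repartitionsOf E').map (repartitionsOf E).mkQ := by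
    rw [← map_inf_principal hEE']; exact inf_le_left
  haveI := hfin
  have heq := Submodule.eq_of_le_of_finrank_le hsub (by
    have h1 := finrank_space_map hEE'
    have h2 := hR.eq E hE
    have h3 := hR.eq E' (hE.trans (degree_le_of_le hEE'))
    omega)
  obtain ⟨f, -, hf⟩ := heq.ge (Submodule.mem_map_of_mem hα)
  refine Submodule.mem_sup.mpr ⟨α - constRep f, ?_, constRep f, ?_, sub_add_cancel _ _⟩
  · exact (Submodule.Quotient.eq _).mp hf.symm
  · rw [← range_constRep]; exact ⟨f, rfl⟩

/-- The first cohomology of a divisor. -/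
theorem finrank_H1 {g c : ℕ} (hR : IsRiemann K F g c) (D : Divisor K F) :
    Module.Finite K (H1 D) ∧
      (Module.finrank K (H1 D) : ℤ) = ell D - (Divisor.degree D + 1 - g) := by
  obtain ⟨v⟩ := ‹Nonempty (Place K F)›
  set E := D + Finsupp.single v (((c : ℤ) - Divisor.degree D).toNat : ℤ) with hE
  have hDE : D ≤ E := le_add_of_nonneg_right (Finsupp.single_nonneg.mpr (Int.natCast_nonneg _))
  have hdeg : (c : ℤ) ≤ Divisor.degree E := by
    rw [hE, map_add, Divisor.degree_single, deg_one]
    have := Int.self_le_toNat ((c : ℤ) - Divisor.degree D)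
    push_cast
    omega
  obtain ⟨hfin, hrk⟩ := finrank_repartitionsOf_map hDE
  set Rb := (repartitionsOf E).map (repartitionsOf D).mkQ
  set Pb := (principalRepartitions K F).map (repartitionsOf D).mkQ with hPb
  have htop : Rb ⊔ Pb = ⊤ := by
    rw [← Submodule.map_sup, sup_principal_eq_top hR hdeg, Submodule.map_top, Submodule.range_mkQ]
  haveI := hfin
  let e : ((repartitions K F ⧸ repartitionsOf D) ⧸ Pb) ≃ₗ[K] H1 D :=
    Submodule.quotientQuotientEquivQuotientSup (repartitionsOf D) (principalRepartitions K F)
  have hsurj : Function.Surjective (Pb.mkQ.domRestrict Rb) := by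
    rw [← LinearMap.range_eq_top, LinearMap.range_domRestrict, eq_top_iff]
    intro z _
    obtain ⟨y, rfl⟩ := Submodule.mkQ_surjective Pb z
    obtain ⟨r, hr, p, hp, rfl⟩ := Submodule.mem_sup.mp (htop.ge (Submodule.mem_top (x := y)))
    exact ⟨r, hr, by simp [(Submodule.Quotient.mk_eq_zero Pb).mpr hp]⟩
  haveI : Module.Finite K ((repartitions K F ⧸ repartitionsOf D) ⧸ Pb) :=
    Module.Finite.of_surjective _ hsurj
  refine ⟨Module.Finite.equiv e, ?_⟩
  have h1 := LinearMap.finrank_range_add_finrank_ker (Pb.mkQ.domRestrict Rb)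
  rw [LinearMap.range_eq_top.mpr hsurj, finrank_top, e.finrank_eq, LinearMap.ker_domRestrict,
    Submodule.ker_mkQ, show Pb.comap Rb.subtype = (Rb ⊓ Pb).comap Rb.subtype by
      rw [Submodule.comap_inf, Submodule.comap_subtype_self, top_inf_eq],
    (Submodule.comapSubtypeEquivOfLe inf_le_left).finrank_eq, map_inf_principal hDE] at h1
  have h2 := finrank_space_map hDE
  have h3 := hR.eq E hdeg
  omega

theorem finrank_weilDiff {g c : ℕ} (hR : IsRiemann K F g c) (D : Divisor K F) :
    Module.Finite K (weilDiff D) ∧
      (Module.finrank K (weilDiff D) : ℤ) = ell D - (Divisor.degree D + 1 - g) := by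
  obtain ⟨hfin, hrk⟩ := finrank_H1 hR D
  let e : Module.Dual K (H1 D) ≃ₗ[K] weilDiff D :=
    Submodule.dualQuotEquivDualAnnihilator (repartitionsOf D ⊔ principalRepartitions K F)
  haveI := hfin
  exact ⟨Module.Finite.equiv e, by rw [← e.finrank_eq, Subspace.dual_finrank_eq]; exact hrk⟩

theorem ell_zero_one : ell (0 : Divisor K F) = 1 := by
  have h1 := ell_le_degree_succ (D := (0 : Divisor K F)) (by simp)
  rw [map_zero] at h1
  have h2 : 0 < ell (0 : Divisor K F) := by
    rw [ell, Module.finrank_pos_iff_exists_ne_zero]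
    exact ⟨⟨1, mem_space_iff.mpr (Or.inr fun v => by simp)⟩,
      fun h => one_ne_zero (congrArg Subtype.val h)⟩
  omega

theorem ell_eq_zero_of_neg {D : Divisor K F} (h : Divisor.degree D < 0) : ell D = 0 := by
  rw [ell, space_eq_bot_of_degree_neg h, finrank_bot]

/-- Weil differentials form a line over the function field. -/
theorem exists_actRep_eq {g c : ℕ} (hR : IsRiemann K F g c) {D₁ D₂ : Divisor K F}
    {w₁ w₂ : Module.Dual K (repartitions K F)} (h₁ : w₁ ∈ weilDiff D₁) (h0 : w₁ ≠ 0)
    (h₂ : w₂ ∈ weilDiff D₂) : ∃ x : F, actRep w₁ x = w₂ := by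
  by_contra hno
  push Not at hno
  obtain ⟨v⟩ := ‹Nonempty (Place K F)›
  obtain ⟨n, hn⟩ : ∃ n : ℕ, 0 < n ∧ 3 * (g : ℤ) ≤ Divisor.degree D₁ + Divisor.degree D₂ + n :=
    ⟨(3 * (g : ℤ) - Divisor.degree D₁ - Divisor.degree D₂).toNat + 1, Nat.succ_pos _, by
      have := Int.self_le_toNat (3 * (g : ℤ) - Divisor.degree D₁ - Divisor.degree D₂)
      push_cast
      omega⟩
  set P : Divisor K F := Finsupp.single v (n : ℤ) with hP
  have hdP : Divisor.degree P = n := by rw [hP, Divisor.degree_single, deg_one]; simp
  obtain ⟨hfin, hrk⟩ := finrank_weilDiff hR (-P)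
  rw [ell_eq_zero_of_neg (by rw [map_neg, hdP]; omega), map_neg, hdP] at hrk
  let Φ : riemannRochSpace (D₁ + P) × riemannRochSpace (D₂ + P) →ₗ[K] weilDiff (-P) :=
    LinearMap.codRestrict _
      (((actRep w₁).comp (Submodule.subtype _)).coprod ((actRep w₂).comp (Submodule.subtype _)))
      fun z => add_mem (actRep_mem z.1.2 h₁ (le_of_eq (by abel)))
        (actRep_mem z.2.2 h₂ (le_of_eq (by abel)))
  have hinj : Function.Injective Φ := by
    rw [injective_iff_map_eq_zero]
    rintro ⟨⟨x, hx⟩, ⟨y, hy⟩⟩ h
    have h' : actRep w₁ x + actRep w₂ y = 0 := congrArg Subtype.val h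
    have hy0 : y = 0 := by
      by_contra hy0
      refine hno (-(x / y)) ?_
      have h'' : actRep (actRep w₁ x + actRep w₂ y) y⁻¹ = 0 := by
        rw [h']
        exact LinearMap.ext fun α => rfl
      have h3 : actRep (actRep w₁ x + actRep w₂ y) y⁻¹ =
          actRep (actRep w₁ x) y⁻¹ + actRep (actRep w₂ y) y⁻¹ := LinearMap.ext fun α => rfl
      rw [h3, actRep_actRep, actRep_actRep, mul_inv_cancel₀ hy0, actRep_one,
        ← eq_neg_iff_add_eq_zero] at h''
      rw [map_neg, div_eq_mul_inv, h'', neg_neg]
    subst hy0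
    rw [map_zero, add_zero] at h'
    have hx0 : x = 0 := by
      by_contra hx0
      apply h0
      rw [← actRep_one w₁, ← mul_inv_cancel₀ hx0, ← actRep_actRep, h']
      exact LinearMap.ext fun α => rfl
    subst hx0
    rfl
  haveI := hfin
  have h1 := LinearMap.finrank_le_finrank_of_injective hinj
  rw [Module.finrank_prod] at h1
  have h2 := hR.le (D₁ + P)
  have h3 := hR.le (D₂ + P)
  rw [map_add, hdP] at h2 h3
  simp only [ell] at h2 h3
  omega

/-- A canonical divisor. -/
theorem exists_canonical (X : Setup K F) : ∃ W : Divisor K F, ∀ D : Divisor K F,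
    (ell D : ℤ) - ell (W - D) = Divisor.degree D + 1 - X.g := by
  obtain ⟨v⟩ := ‹Nonempty (Place K F)›
  obtain ⟨w, hw0, D₀, hwD₀⟩ : ∃ w : Module.Dual K (repartitions K F), w ≠ 0 ∧
      ∃ D₀, w ∈ weilDiff D₀ := by
    set D₀ : Divisor K F := Finsupp.single v (-2 : ℤ)
    obtain ⟨hfin, hrk⟩ := finrank_weilDiff X.hR D₀
    have hd : Divisor.degree D₀ = -2 := by
      rw [Divisor.degree_single, deg_one]; norm_num
    rw [ell_eq_zero_of_neg (by omega), hd] at hrk
    obtain ⟨w, hw, hw0⟩ := (weilDiff D₀).exists_mem_ne_zero_of_ne_bot fun h => by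
      rw [h, finrank_bot] at hrk; omega
    exact ⟨w, hw0, D₀, hw⟩
  have hbound : ∀ D, w ∈ weilDiff D → Divisor.degree D < X.c := fun D hD => by
    by_contra h
    push Not at h
    apply hw0
    refine LinearMap.ext fun α => ?_
    rw [weilDiff, sup_principal_eq_top X.hR h, Submodule.dualAnnihilator_top,
      Submodule.mem_bot] at hD
    rw [hD]
  obtain ⟨N, ⟨W, hW, rfl⟩, hmax⟩ := Int.exists_greatest_of_bdd
    (P := fun z => ∃ D : Divisor K F, w ∈ weilDiff D ∧ Divisor.degree D = z)
    ⟨X.c, fun z ⟨D, hD, hz⟩ => hz ▸ (hbound D hD).le⟩ ⟨_, D₀, hwD₀, rfl⟩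
  have hle : ∀ D, w ∈ weilDiff D → D ≤ W := fun D hD => by
    have hsup : w ∈ weilDiff (W ⊔ D) := by
      rw [mem_weilDiff] at hW hD ⊢
      refine ⟨fun α hα => ?_, hW.2⟩
      obtain ⟨β, hβ, γ, hγ, rfl⟩ := Submodule.mem_sup.mp (repartitionsOf_sup_le W D hα)
      rw [map_add, hW.1 β hβ, hD.1 γ hγ, add_zero]
    have := hmax _ ⟨_, hsup, rfl⟩
    rw [eq_of_le_of_degree (le_sup_left : W ≤ W ⊔ D) this]
    exact le_sup_right
  refine ⟨W, fun D => ?_⟩
  obtain ⟨hfin, hrk⟩ := finrank_weilDiff X.hR D
  let Φ : riemannRochSpace (W - D) →ₗ[K] weilDiff D :=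
    LinearMap.codRestrict _ ((actRep w).comp (Submodule.subtype _))
      fun x => actRep_mem x.2 hW (le_of_eq (add_sub_cancel _ _))
  have hinj : Function.Injective Φ := by
    rw [injective_iff_map_eq_zero]
    rintro ⟨x, hx⟩ h
    have h' : actRep w x = 0 := congrArg Subtype.val h
    refine Subtype.ext (by_contra fun hx0 => hw0 ?_)
    change x ≠ 0 at hx0
    rw [← actRep_one w, ← mul_inv_cancel₀ hx0, ← actRep_actRep, h']
    exact LinearMap.ext fun α => rfl
  have hsurj : Function.Surjective Φ := by
    rintro ⟨u, hu⟩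
    obtain ⟨x, hx⟩ := exists_actRep_eq X.hR hW hw0 hu
    refine ⟨⟨x, ?_⟩, Subtype.ext hx⟩
    rcases eq_or_ne x 0 with rfl | hx0
    · exact zero_mem _
    have hmem : w ∈ weilDiff (D - divOf K x) := by
      rw [mem_weilDiff] at hW hu ⊢
      refine ⟨fun α hα => ?_, hW.2⟩
      have h1 : mulRep x⁻¹ α ∈ repartitionsOf (D - divOf K x + divOf K x) :=
        mulRep_mem (mem_space_iff.mpr (Or.inr fun v => by
          rw [divOf_apply, v.ord_inv])) hα
      rw [sub_add_cancel] at h1
      have h2 := hu.1 _ h1
      rw [← hx, actRep_apply] at h2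
      rwa [show mulRep x (mulRep x⁻¹ α) = α from Subtype.ext (funext fun v => by
        simp [mulRep_apply, hx0])] at h2
    have := hle _ hmem
    refine (mem_space_iff_of_ne hx0).mpr (Finsupp.le_def.mpr fun v => ?_)
    have := Finsupp.le_def.mp this v
    rw [Finsupp.sub_apply] at this
    rw [Finsupp.zero_apply, Finsupp.add_apply, Finsupp.sub_apply]
    omega
  have e := (LinearEquiv.ofBijective Φ ⟨hinj, hsurj⟩).finrank_eq
  simp only [ell] at hrk ⊢
  omega

/-- Degrees from `2g - 1` on are large. -/
theorem ell_eq_of_degree (X : Setup K F) {D : Divisor K F}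
    (hD : 2 * (X.g : ℤ) - 1 ≤ Divisor.degree D) : (ell D : ℤ) = Divisor.degree D + 1 - X.g := by
  obtain ⟨W, hW⟩ := exists_canonical X
  have h0 := hW 0
  have h1 := hW W
  rw [sub_zero, ell_zero_one, map_zero] at h0
  rw [sub_self, ell_zero_one] at h1
  have h2 := hW D
  rw [ell_eq_zero_of_neg (D := W - D) (by rw [map_sub]; omega)] at h2
  omega

theorem genusFF_eq (X : Setup K F) : genusFF K F = X.g := by
  obtain ⟨-, h⟩ := finrank_H1 X.hR (0 : Divisor K F)
  rw [ell_zero_one, map_zero] at h
  rw [genusFF]
  omega

/-- A setup whose bound is as large as needed. -/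
theorem exists_setup_large {x : F} (hx : IsFinOver K x) :
    ∃ X : Setup K F, 2 * X.g ≤ X.c := by
  obtain ⟨g, c, hR⟩ := exists_isRiemann hx
  obtain ⟨v⟩ := ‹Nonempty (Place K F)›
  have hR' : IsRiemann K F g (max (2 * g) c) :=
    ⟨hR.le, fun D hD => hR.eq D (le_trans (by exact_mod_cast le_max_right _ c) hD)⟩
  obtain ⟨f, hf, hf0, hfi⟩ := hR'.exists_ord_eq
    (D := Finsupp.single v ((max (2 * g) c : ℕ) + 1 : ℤ))
    (by rw [Divisor.degree_single, deg_one]; simp) v
  rw [Finsupp.single_eq_same] at hfi
  have hft : Transcendental K f := fun ha => by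
    obtain ⟨a, rfl⟩ := exists_algebraMap_eq_of_isAlgebraic ha
    rw [MCurve.ord_algebraMap] at hfi
    omega
  exact ⟨⟨v, g, max (2 * g) c, hR', le_trans (by omega) (le_max_left (2 * g) c), f,
    hx.of_transcendental hft,
    fun u hu => by
      simpa [Finsupp.single_eq_of_ne hu] using ((mem_space_iff.mp hf).resolve_left hf0) u,
    hfi⟩, le_max_left _ _⟩

omit [∀ v : Place K F, v.FiniteResidue] [HasPrincipalDivisors K F] [Nonempty (Place K F)] in
/-- A curve in the sense of `IsCurveOver` is finite over a rational function field. -/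
theorem exists_isFinOver (K F : Type*) [Field K] [Field F] [Algebra K F] [IsAlgClosed K]
    [CharZero K] [IsCurveOver K F] [Algebra.EssFiniteType K F] : ∃ x : F, IsFinOver K x := by
  classical
  obtain ⟨s, hs⟩ := exists_isTranscendenceBasis K F
  haveI : Finite s := finite_of_isTranscendenceBasis hs
  letI := Fintype.ofFinite s
  let f : MvPolynomial s K →ₐ[K] F := MvPolynomial.aeval ((↑) : s → F)
  have hf : Function.Injective f := hs.1
  letI : Algebra (MvPolynomial s K) F := f.toRingHom.toAlgebra
  haveI : IsScalarTower K (MvPolynomial s K) F :=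
    IsScalarTower.of_algebraMap_eq fun a => (f.commutes a).symm
  let Q := FractionRing (MvPolynomial s K)
  let lift : Q →ₐ[K] F := IsFractionRing.liftAlgHom (A := MvPolynomial s K) (g := f) hf
  letI : Algebra Q F := lift.toRingHom.toAlgebra
  haveI : IsScalarTower (MvPolynomial s K) Q F :=
    IsScalarTower.of_algebraMap_eq fun p =>
      (IsFractionRing.lift_algebraMap (g := f.toRingHom) hf p).symm
  haveI : IsScalarTower K Q F := IsScalarTower.of_algebraMap_eq fun a => (lift.commutes a).symm
  haveI : Algebra.EssFiniteType Q F := Algebra.EssFiniteType.of_comp K Q F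
  haveI : Algebra.IsAlgebraic Q F := ⟨fun y => by
    haveI := hs.isAlgebraic
    obtain ⟨p, hp0, hp⟩ := Algebra.IsAlgebraic.isAlgebraic
      (R := Algebra.adjoin K (Set.range ((↑) : s → F))) y
    let g : MvPolynomial s K →+* Algebra.adjoin K (Set.range ((↑) : s → F)) :=
      (f.codRestrict _ fun q => by
        rw [Algebra.adjoin_range_eq_range_aeval]; exact ⟨q, rfl⟩).toRingHom
    have hg : Function.Surjective g := fun a => by
      obtain ⟨q, hq⟩ := (SetLike.ext_iff.mp
        (Algebra.adjoin_range_eq_range_aeval K ((↑) : s → F)) _).mp a.2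
      exact ⟨q, Subtype.ext hq⟩
    obtain ⟨q, rfl⟩ := Polynomial.map_surjective g hg p
    refine IsAlgebraic.extendScalars (R := MvPolynomial s K)
      (IsFractionRing.injective _ _) ⟨q, fun h => hp0 (by rw [h, Polynomial.map_zero]), ?_⟩
    rw [Polynomial.aeval_def, Polynomial.eval₂_map] at hp
    exact hp⟩
  haveI : Module.Finite Q F := Algebra.finite_of_essFiniteType_of_isAlgebraic
  haveI : CharZero Q := charZero_of_injective_algebraMap (algebraMap K Q).injective
  haveI : Algebra.FormallyEtale (MvPolynomial s K) F := by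
    haveI : Algebra.FormallyEtale (MvPolynomial s K) Q :=
      Algebra.FormallyEtale.of_isLocalization (nonZeroDivisors (MvPolynomial s K))
    haveI : Algebra.FormallyEtale Q F := Algebra.FormallyEtale.of_isSeparable _ _
    exact Algebra.FormallyEtale.comp (MvPolynomial s K) Q F
  have hcard : Fintype.card s = 1 := by
    rw [← IsCurveOver.finrank_kaehler (K := K) (F := F),
      ← (KaehlerDifferential.tensorKaehlerEquivOfFormallyEtale K (MvPolynomial s K) F).finrank_eq,
      Module.finrank_baseChange,
      Module.finrank_eq_card_basis (KaehlerDifferential.mvPolynomialBasis K s)]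
  obtain ⟨⟨x, hx⟩, hx'⟩ := Fintype.card_eq_one_iff.mp hcard
  have hsx : s = {x} := Set.eq_singleton_iff_unique_mem.mpr
    ⟨hx, fun y hy => congrArg Subtype.val (hx' ⟨y, hy⟩)⟩
  subst hsx
  refine ⟨x, hs.1.transcendental ⟨x, rfl⟩, ?_⟩
  haveI : Algebra.IsAlgebraic (IntermediateField.adjoin K ({x} : Set F)) F := by
    have h := hs.isAlgebraic
    rw [Subtype.range_coe] at h
    exact IntermediateField.isAlgebraic_adjoin_iff_top.mpr h
  haveI : Algebra.EssFiniteType (IntermediateField.adjoin K ({x} : Set F)) F :=
    Algebra.EssFiniteType.of_comp K _ F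
  exact Algebra.finite_of_essFiniteType_of_isAlgebraic

end Fermat.Agent.MCurve.T27
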