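/-
Definitions for the count of torsion classes of a curve: coordinates over the affine line, the
square system cutting out torsion classes, reductions and Frobenius data.
-/
import Fermat.Agent.MCurve.MW.Basic
import Mathlib.Algebra.Polynomial.Bivariate
import Mathlib.RingTheory.Valuation.LocalSubring
import Mathlib.Algebra.MvPolynomial.PDeriv

set_option autoImplicit false
set_option linter.unusedSectionVars false

noncomputable section

namespace Fermat.Agent.MCurve.T27

open AlgebraicCurve RR MW Polynomial
open scoped Classical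

universe u v

/-- A polynomial in two variables at two elements of an algebra. -/
def ev2 {S A : Type*} [CommRing S] [CommRing A] [Algebra S A] (a b : A) (H : S[X][X]) : A :=
  H.eval₂ (aeval a : S[X] →ₐ[S] A).toRingHom b

section Coordinate

variable {K F : Type*} [Field K] [Field F] [Algebra K F] [IsAlgClosed K]
  [∀ v : Place K F, v.FiniteResidue] [HasPrincipalDivisors K F] [Nonempty (Place K F)]

/-- A second coordinate, generating over the line: away from the zeros of `Δ` the affine ring is
`K[f][w]` and is unramified over `K[f]`. -/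
structure Coordinate (X : Setup K F) where
  /-- The second coordinate. -/
  w : F
  /-- Its equation. -/
  P : K[X][X]
  /-- The bad values of the first coordinate. -/
  Δ : K[X]
  w_mem : ∃ n, w ∈ X.L n
  monic : P.Monic
  natDegree_eq : P.natDegree = X.c + 1
  root : ev2 X.f w P = 0
  Δ_ne : Δ ≠ 0
  clear : ∀ n, ∀ a ∈ X.L n, ∃ (N : ℕ) (H : K[X][X]), aeval X.f (Δ ^ N) * a = ev2 X.f w H
  sep : ∀ c : K, Δ.eval c ≠ 0 → (P.map (evalRingHom c)).Separable

variable {X : Setup K F}

/-- A tuple over good values of the coordinate. -/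
def Coordinate.Good (Co : Coordinate X) (Q : X.Tup) : Prop :=
  ∀ i, Co.Δ.eval (X.fv Q i) ≠ 0

/-- The value of the second coordinate. -/
def Coordinate.wv (Co : Coordinate X) (Q : X.Tup) (i : Fin X.g) : K := valAt (Q i).1 Co.w

end Coordinate

section System

variable {g n m : ℕ}

/-- The unknowns: the polynomial of the values of the coordinate, the interpolation of the second
coordinate to order `n`, and the coefficients of the function. -/
abbrev Var (g n m : ℕ) : Type := (Fin g ⊕ Fin (n * g)) ⊕ Fin m

/-- The equations. -/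
abbrev Eqn (g n : ℕ) : Type := Fin (n * g) ⊕ Fin (n * g)

variable {S : Type*} [CommRing S]

/-- The polynomial of the values of the coordinate. -/
def chiPoly (y : Var g n m → S) : S[X] :=
  Polynomial.X ^ g + ∑ j : Fin g, C (y (.inl (.inl j))) * Polynomial.X ^ (j : ℕ)

/-- The interpolation of the second coordinate. -/
def rPoly (y : Var g n m → S) : S[X] :=
  ∑ j : Fin (n * g), C (y (.inl (.inr j))) * Polynomial.X ^ (j : ℕ)

/-- The function with the given coefficients. -/
def uPoly (H0 : S[X][X]) (H : Fin m → S[X][X]) (y : Var g n m → S) : S[X][X] :=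
  H0 + ∑ k, C (C (y (.inr k))) * H k

/-- The remainders at given values of the unknowns. -/
def remPair (P H0 : S[X][X]) (H : Fin m → S[X][X]) (y : Var g n m → S) : Eqn g n → S :=
  Sum.elim (fun j => (P.eval (rPoly y) %ₘ chiPoly y ^ n).coeff j)
    (fun j => ((uPoly H0 H y).eval (rPoly y) %ₘ chiPoly y ^ n).coeff j)

/-- Coefficients as constant polynomials in the unknowns. -/
def constXX (g n m : ℕ) (H : S[X][X]) : (MvPolynomial (Var g n m) S)[X][X] :=
  H.map (mapRingHom MvPolynomial.C)

theorem card_var_eq_card_eqn (hm : m + g = n * g) :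
    Fintype.card (Var g n m) = Fintype.card (Eqn g n) := by
  simp only [Fintype.card_sum, Fintype.card_fin]
  omega

/-- The square system of a torsion class. -/
def sys (hm : m + g = n * g) (P H0 : S[X][X]) (H : Fin m → S[X][X]) :
    Var g n m → MvPolynomial (Var g n m) S := fun i =>
  remPair (constXX g n m P) (constXX g n m H0) (fun k => constXX g n m (H k)) MvPolynomial.X
    (Fintype.equivOfCardEq (card_var_eq_card_eqn hm) i)

/-- The Jacobian matrix of a square system at a point. -/
def jacobianAt {ι : Type*} (E : ι → MvPolynomial ι S) (y : ι → S) : Matrix ι ι S :=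
  Matrix.of fun i j => MvPolynomial.eval y (MvPolynomial.pderiv j (E i))

end System

section Reduction

variable {K : Type u} {F : Type v} [Field K] [Field F] [Algebra K F] [IsAlgClosed K]
  [∀ v : Place K F, v.FiniteResidue] [HasPrincipalDivisors K F] [Nonempty (Place K F)]
  {k G : Type*} [Field k] [Field G] [Algebra k G] [IsAlgClosed k]
  [∀ v : Place k G, v.FiniteResidue] [HasPrincipalDivisors k G] [Nonempty (Place k G)]

/-- Good reduction of a curve along a valuation ring. -/
structure Model (X : Setup K F) (Co : Coordinate X) (Y : Setup k G) (Cy : Coordinate Y) where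
  /-- The valuation ring. -/
  V : ValuationSubring K
  /-- The reduction of constants. -/
  res : V →+* k
  res_surjective : Function.Surjective res
  res_eq_zero_iff : ∀ x : V, res x = 0 ↔ x ∈ IsLocalRing.maximalIdeal V
  /-- The integral affine ring. -/
  A : Subring F
  const_mem : ∀ x : V, algebraMap K F x ∈ A
  /-- The reduction of functions. -/
  red : A →+* G
  red_const : ∀ x : V, red ⟨algebraMap K F x, const_mem x⟩ = algebraMap k G (res x)
  g_eq : Y.g = X.g
  c_eq : Y.c = X.c
  f_mem : X.f ∈ A
  red_f : red ⟨X.f, f_mem⟩ = Y.f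
  w_mem : Co.w ∈ A
  red_w : red ⟨Co.w, w_mem⟩ = Cy.w
  /-- The integral equation. -/
  P : V[X][X]
  P_eq : P.map (mapRingHom V.subtype) = Co.P
  P_res : P.map (mapRingHom res) = Cy.P
  /-- The integral bad values. -/
  Δ : V[X]
  Δ_eq : Δ.map V.subtype = Co.Δ
  Δ_res : Δ.map res = Cy.Δ
  mem_L : ∀ a ∈ A, ∃ n, a ∈ X.L n
  red_L : ∀ (n : ℕ) (a : A), (a : F) ∈ X.L n → red a ∈ Y.L n
  lift : ∀ (n : ℕ), ∀ b ∈ Y.L n, ∃ a : A, (a : F) ∈ X.L n ∧ red a = b
  scale : ∀ (n : ℕ), ∀ a ∈ X.L n, a ≠ 0 → ∃ x : K, ∃ h : x • a ∈ A, red ⟨x • a, h⟩ ≠ 0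
  finrank_L : ∀ n, Module.finrank k (Y.L n) = Module.finrank K (X.L n)
  clear : ∀ a : A, ∃ (N : ℕ) (H : V[X][X]),
    aeval X.f (Co.Δ ^ N) * (a : F) = ev2 X.f Co.w (H.map (mapRingHom V.subtype))

end Reduction

section Frobenius

variable {k G : Type*} [Field k] [Field G] [Algebra k G] [IsAlgClosed k]
  [∀ v : Place k G, v.FiniteResidue] [HasPrincipalDivisors k G] [Nonempty (Place k G)]

/-- Frobenius data of a curve defined over a finite field. -/
structure Frob (Y : Setup k G) (q : ℕ) where
  /-- The characteristic. -/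
  p : ℕ
  prime : p.Prime
  charP : CharP k p
  pow : ∃ e, 0 < e ∧ q = p ^ e
  /-- The Frobenius of the coefficients. -/
  σ : G ≃+* G
  const : ∀ a : k, σ (algebraMap k G a) = algebraMap k G (a ^ q)
  f_fixed : σ Y.f = Y.f
  inf_fixed : ∀ x : G, σ x ∈ Y.inf.toValuationSubring ↔ x ∈ Y.inf.toValuationSubring
  periodic : ∀ x : G, ∃ r, 0 < r ∧ σ^[r] x = x

end Frobenius

end Fermat.Agent.MCurve.T27
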