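/-
U5: the count of torsion over a finite field.
-/
import Fermat.Agent.MCurve.T27.Canonical
import Fermat.Agent.MCurve.T27.Defs
import Fermat.Agent.MCurve.T27.Frobenius.Zeta
import Fermat.Agent.MCurve.T27.Frobenius.Rank

set_option autoImplicit false
set_option linter.unusedSectionVars false
set_option linter.style.haveILetI false

noncomputable section

namespace Fermat.Agent.MCurve.T27

open AlgebraicCurve RR MW
open scoped Classical

variable {k G : Type*} [Field k] [Field G] [Algebra k G] [IsAlgClosed k]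
  [∀ v : Place k G, v.FiniteResidue] [HasPrincipalDivisors k G] [Nonempty (Place k G)]
  {Y : Setup k G} {q : ℕ}

theorem Frob.one_lt (Fr : Frob Y q) : 1 < q := by
  obtain ⟨e, he, heq⟩ := Fr.pow
  rw [heq]
  exact Nat.one_lt_pow he.ne' Fr.prime.one_lt

theorem Frob.pow_bijective (Fr : Frob Y q) : Function.Bijective fun a : k => a ^ q := by
  refine ⟨fun a b h => (algebraMap k G).injective (Fr.σ.injective ?_),
    fun a => IsAlgClosed.exists_pow_nat_eq a (by have := Fr.one_lt; omega)⟩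
  rw [Fr.const, Fr.const, show a ^ q = b ^ q from h]

/-- The automorphism of the constants. -/
def Frob.baseEquiv (Fr : Frob Y q) : k ≃+* k :=
  RingEquiv.ofBijective
    ({ toFun := fun a => a ^ q
       map_one' := one_pow q
       map_mul' := fun a b => mul_pow a b q
       map_zero' := zero_pow (by have := Fr.one_lt; omega)
       map_add' := fun a b => (algebraMap k G).injective (by
         rw [map_add, ← Fr.const, ← Fr.const, ← Fr.const, map_add, map_add]) } : k →+* k)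
    Fr.pow_bijective

@[simp] theorem Frob.baseEquiv_apply (Fr : Frob Y q) (a : k) : Fr.baseEquiv a = a ^ q := rfl

/-- The semilinear automorphism of Frobenius data. -/
def Frob.toFiniteField (Fr : Frob Y q) : FiniteField.Frob Y q where
  g := ⟨(Fr.σ, Fr.baseEquiv), Fr.const⟩
  base := fun _ => rfl
  inf := by
    refine Place.ext (SetLike.ext fun x => ?_)
    rw [SemilinearAut.smul_toValuationSubring,
      ValuationSubring.mem_pointwise_smul_iff_inv_smul_mem]
    show Fr.σ.symm x ∈ _ ↔ _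
    conv_rhs => rw [← Fr.σ.apply_symm_apply x]
    exact (Fr.inf_fixed _).symm
  one_lt := Fr.one_lt
  cast_zero := by
    haveI := Fr.charP
    obtain ⟨e, he, heq⟩ := Fr.pow
    rw [heq, Nat.cast_pow, CharP.cast_eq_zero, zero_pow he.ne']

/-- Over a finite field there are at least `ℓ ^ (2g)` classes killed by `ℓ`. -/
theorem Frob.pow_le_card_torsion (Fr : Frob Y q) {ℓ : ℕ} (hℓ : ℓ.Prime) (hk : (ℓ : k) ≠ 0)
    (hfin : ∀ j : ℕ, Finite {t : Pic0 k G // ℓ ^ j • t = 0})
    (hdiv : Function.Surjective fun t : Pic0 k G => ℓ • t) :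
    ℓ ^ (2 * Y.g) ≤ Nat.card {t : Pic0 k G // ℓ • t = 0} := by
  haveI h1 : Finite {t : Pic0 k G // ℓ • t = 0} := by simpa using hfin 1
  haveI h2 : Finite {t : Pic0 k G // ℓ ^ 2 • t = 0} := hfin 2
  rcases Nat.eq_zero_or_pos Y.g with hg | hg
  · rw [hg, mul_zero, pow_zero]
    haveI : Nonempty {t : Pic0 k G // ℓ • t = 0} := ⟨⟨0, smul_zero _⟩⟩
    exact Nat.card_pos
  set Φ := Fr.toFiniteField
  obtain ⟨W, hW⟩ := exists_canonical Y
  obtain ⟨s, hcard, hint, hunit, hfix⟩ :=
    Φ.exists_roots_fixCls (fun D => ell_eq_of_degree Y) hW hg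
  have hcop : (q ^ Y.g).Coprime ℓ := by
    obtain ⟨e, he, heq⟩ := Fr.pow
    rw [heq]
    refine Nat.Coprime.pow_left _ (Nat.Coprime.pow_left _ ((Nat.coprime_primes Fr.prime hℓ).mpr
      fun h => hk ?_))
    haveI := Fr.charP
    rw [← h, CharP.cast_eq_zero]
  obtain ⟨m₁, hm₁, hcong⟩ := FiniteField.exists_pow_congr_one hℓ hcop hint hunit
  obtain ⟨m₂, hm₂, htriv⟩ := FiniteField.exists_pow_fix (A := Pic0 k G) Φ.g
    (MulAction.injective Φ.g) (n := ℓ ^ 2)
  set m := m₁ * m₂ with hm_def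
  have hm : 0 < m := Nat.mul_pos hm₁ hm₂
  have hml : 0 < m * ℓ := Nat.mul_pos hm hℓ.pos
  have hcong' : ∀ β ∈ s.map (fun x => x ^ m),
      ∃ z : ℂ, IsIntegral ℤ z ∧ β = 1 + (ℓ : ℂ) ^ 2 * z := by
    intro β hβ
    obtain ⟨x, hx, rfl⟩ := Multiset.mem_map.mp hβ
    obtain ⟨z, hz, e⟩ := hcong x hx
    have hi : IsIntegral ℤ ((1 : ℂ) + (ℓ : ℂ) ^ 2 * z) := e ▸ (hint x hx).pow _
    refine ⟨z * ∑ i ∈ Finset.range m₂, (1 + (ℓ : ℂ) ^ 2 * z) ^ i,
      hz.mul (IsIntegral.sum _ fun i _ => hi.pow i), ?_⟩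
    rw [hm_def, pow_mul, e]
    have := geom_sum_mul (1 + (ℓ : ℂ) ^ 2 * z) m₂
    linear_combination -this
  obtain ⟨Z, hZ, hstep⟩ := FiniteField.prod_one_sub_pow hcong'
  rw [Multiset.map_map, Multiset.map_map, Multiset.card_map, hcard] at hstep
  simp only [Function.comp_def, ← pow_mul] at hstep
  rw [← hfix m hm, ← hfix (m * ℓ) hml] at hstep
  have h0mem : ∀ g : SemilinearAut k G, g • (0 : Pic0 k G) = 0 := fun g =>
    smul_zero (M := SemilinearAut k G) (A := Pic0 k G) g
  have hpos : (Φ.pow m hm).fixCls.card ≠ 0 :=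
    (Finset.card_pos.mpr ⟨0, ((Φ.pow m hm).mem_fixCls).mpr (h0mem _)⟩).ne'
  have hv := FiniteField.factorization_step hℓ hpos hZ hstep
  -- the torsion side
  have hfin' : ∀ (i : ℕ) (hi : 0 < i),
      Nat.card (FiniteField.fixSub (A := Pic0 k G) (Φ.g ^ i)) = (Φ.pow i hi).fixCls.card := by
    intro i hi
    rw [← Nat.card_eq_finsetCard]
    exact Nat.card_congr (Equiv.subtypeEquivRight fun c => ((Φ.pow i hi).mem_fixCls).symm)
  have hinst : ∀ (i : ℕ) (hi : 0 < i), Finite (FiniteField.fixSub (A := Pic0 k G) (Φ.g ^ i)) :=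
    fun i hi => Nat.finite_of_card_ne_zero (by
      rw [hfin' i hi]
      exact (Finset.card_pos.mpr ⟨0, ((Φ.pow i hi).mem_fixCls).mpr (h0mem _)⟩).ne')
  haveI := hinst m hm
  haveI : Finite (FiniteField.fixSub (A := Pic0 k G) ((Φ.g ^ m) ^ ℓ)) := by
    rw [← pow_mul]; exact hinst (m * ℓ) hml
  have hgrow := FiniteField.natCard_primFix_pow (A := Pic0 k G) (ℓ := ℓ) (Φ.g ^ m) (fun x hx => by
      rw [hm_def, mul_comm m₁ m₂, pow_mul]
      have h := htriv x hx
      have hall : ∀ j : ℕ, (Φ.g ^ m₂) ^ j • x = x := fun j => by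
        induction j with
        | zero => simp
        | succ j ih => rw [pow_succ, mul_smul, h, ih]
      exact hall m₁) hdiv
  rw [FiniteField.natCard_primFix hℓ, FiniteField.natCard_primFix hℓ,
    show Nat.card (FiniteField.fixSub (A := Pic0 k G) ((Φ.g ^ m) ^ ℓ)) =
      (Φ.pow (m * ℓ) hml).fixCls.card by rw [← pow_mul]; exact hfin' _ hml,
    hfin' m hm, hv, pow_add, mul_comm (ℓ ^ _) (ℓ ^ (2 * Y.g))] at hgrow
  exact (Nat.eq_of_mul_eq_mul_right (pow_pos hℓ.pos _) hgrow).le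

end Fermat.Agent.MCurve.T27
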