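/-
U2a: the points over good values, and orders read off polynomials.
-/
import Fermat.Agent.MCurve.T27.Defs
import Fermat.Agent.MCurve.MW.Points

set_option autoImplicit false
set_option linter.unusedSectionVars false

noncomputable section

namespace Fermat.Agent.MCurve.T27

open AlgebraicCurve RR MW Polynomial
open scoped Classical

section Ev

variable {S A : Type*} [CommRing S] [CommRing A] [Algebra S A] (a b : A)

theorem ev2L_add (H H' : S[X][X]) : ev2 a b (H + H') = ev2 a b H + ev2 a b H' :=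
  eval₂_add _ _

theorem ev2L_mul (H H' : S[X][X]) : ev2 a b (H * H') = ev2 a b H * ev2 a b H' :=
  eval₂_mul _ _

theorem ev2L_sub (H H' : S[X][X]) : ev2 a b (H - H') = ev2 a b H - ev2 a b H' := eval₂_sub _

theorem ev2L_C (p : S[X]) : ev2 a b (Polynomial.C p) = aeval a p := eval₂_C _ _

theorem ev2L_X : ev2 a b (Polynomial.X : S[X][X]) = b := eval₂_X _ _

theorem ev2L_sum {ι : Type*} (s : Finset ι) (H : ι → S[X][X]) :
    ev2 a b (∑ i ∈ s, H i) = ∑ i ∈ s, ev2 a b (H i) := eval₂_finsetSum _ _ _ _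

/-- Splitting off a root in the second variable. -/
theorem exists_ev2_split (H : S[X][X]) (r : S[X]) : ∃ R : S[X][X],
    H = Polynomial.C (H.eval r) + (Polynomial.X - Polynomial.C r) * R ∧
      ev2 a b H = aeval a (H.eval r) + (b - aeval a r) * ev2 a b R := by
  obtain ⟨R, hR⟩ := Polynomial.X_sub_C_dvd_sub_C_eval (p := H) (a := r)
  have h : H = Polynomial.C (H.eval r) + (Polynomial.X - Polynomial.C r) * R := by
    rw [← hR]; ring
  refine ⟨R, h, ?_⟩
  conv_lhs => rw [h]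
  rw [ev2L_add, ev2L_mul, ev2L_sub, ev2L_C, ev2L_C, ev2L_X]

end Ev

variable {K F : Type*} [Field K] [Field F] [Algebra K F] [IsAlgClosed K]
  [∀ v : Place K F, v.FiniteResidue] [HasPrincipalDivisors K F] [Nonempty (Place K F)]

/-- The value of a bivariate polynomial in two regular functions. -/
theorem valAt_ev2 {v : Place K F} {a b : F} (ha : a ∈ v.toValuationSubring)
    (hb : b ∈ v.toValuationSubring) (H : K[X][X]) :
    ev2 a b H ∈ v.toValuationSubring ∧
      valAt v (ev2 a b H) = H.evalEval (valAt v a) (valAt v b) := by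
  have hp : ∀ p : K[X], aeval a p ∈ v.toValuationSubring ∧
      valAt v (aeval a p) = p.eval (valAt v a) := fun p => by
    induction p using Polynomial.induction_on' with
    | add p q hp hq =>
      exact ⟨by rw [map_add]; exact add_mem hp.1 hq.1,
        by rw [map_add, valAt_add hp.1 hq.1, hp.2, hq.2, eval_add]⟩
    | monomial n k =>
      have h : a ^ n ∈ v.toValuationSubring ∧ valAt v (a ^ n) = valAt v a ^ n := by
        induction n with
        | zero => exact ⟨by rw [pow_zero]; exact one_mem _, by simp [valAt_one]⟩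
        | succ n ih =>
          exact ⟨by rw [pow_succ]; exact mul_mem ih.1 ha,
            by rw [pow_succ, valAt_mul ih.1 ha, ih.2, pow_succ]⟩
      rw [aeval_monomial, eval_monomial]
      exact ⟨mul_mem (v.algebraMap_mem' k) h.1,
        by rw [valAt_mul (v.algebraMap_mem' k) h.1, valAt_algebraMap, h.2]⟩
  induction H using Polynomial.induction_on with
  | C p => rw [ev2L_C, evalEval_C]; exact hp p
  | add p q hp' hq =>
    rw [ev2L_add, evalEval_add]
    exact ⟨add_mem hp'.1 hq.1, by rw [valAt_add hp'.1 hq.1, hp'.2, hq.2]⟩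
  | monomial n p ih =>
    rw [pow_succ, ← mul_assoc, ev2L_mul, evalEval_mul, ev2L_X, evalEval_X]
    exact ⟨mul_mem ih.1 hb, by rw [valAt_mul ih.1 hb, ih.2]⟩

variable {X : Setup K F} (Co : Coordinate X)

theorem Coordinate.f_mem_ring (P : X.Pt) : X.f ∈ P.1.toValuationSubring :=
  Setup.mem_ring (n := X.c + 1) (by simpa using X.f_pow_mem 1 (n := X.c + 1) (by omega)) P.2

theorem Coordinate.w_mem_ring (P : X.Pt) : Co.w ∈ P.1.toValuationSubring := by
  obtain ⟨n, hn⟩ := Co.w_mem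
  exact Setup.mem_ring hn P.2

theorem Coordinate.valAt_ev2 (P : X.Pt) (H : K[X][X]) :
    ev2 X.f Co.w H ∈ P.1.toValuationSubring ∧
      valAt P.1 (ev2 X.f Co.w H) = H.evalEval (valAt P.1 X.f) (valAt P.1 Co.w) :=
  T27.valAt_ev2 (Coordinate.f_mem_ring P) (Co.w_mem_ring P) H

theorem Coordinate.isRoot (P : X.Pt) :
    (Co.P.map (evalRingHom (valAt P.1 X.f))).IsRoot (valAt P.1 Co.w) := by
  rw [IsRoot, map_evalRingHom_eval, ← (Co.valAt_ev2 P Co.P).2, Co.root]
  simpa using valAt_algebraMap P.1 (0 : K)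

theorem Coordinate.valAt_aeval_f (P : X.Pt) (p : K[X]) :
    aeval X.f p ∈ P.1.toValuationSubring ∧
      valAt P.1 (aeval X.f p) = p.eval (valAt P.1 X.f) := by
  have := T27.valAt_ev2 (b := (0 : F)) (Coordinate.f_mem_ring P) (zero_mem _) (Polynomial.C p)
  rwa [ev2L_C, evalEval_C] at this

theorem aeval_f_ne_zero {p : K[X]} (hp : p ≠ 0) : aeval X.f p ≠ 0 := fun h =>
  hp (transcendental_iff.mp X.f_fin.transcendental p h)

theorem ord_eq_zero_of_valAt {v : Place K F} {a : F} (ha : a ∈ v.toValuationSubring)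
    (h : valAt v a ≠ 0) : a ≠ 0 ∧ v.ord a = 0 := by
  have h0 := mt (valAt_eq_zero_iff ha).mpr h
  push Not at h0
  exact ⟨h0.1, le_antisymm h0.2 (ord_nonneg_of_mem' v ha)⟩

theorem Coordinate.ord_clear {P : X.Pt} (h : Co.Δ.eval (valAt P.1 X.f) ≠ 0) (N : ℕ) :
    aeval X.f (Co.Δ ^ N) ≠ 0 ∧ P.1.ord (aeval X.f (Co.Δ ^ N)) = 0 := by
  refine ord_eq_zero_of_valAt (Coordinate.valAt_aeval_f P _).1 ?_
  rw [(Coordinate.valAt_aeval_f P _).2, eval_pow]
  exact pow_ne_zero N h

theorem f_sub_ne_zero (t : K) : X.f - algebraMap K F t ≠ 0 := fun h =>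
  X.f_fin.transcendental (by rw [sub_eq_zero.mp h]; exact isAlgebraic_algebraMap t)

theorem Coordinate.one_le_ord_f_sub (P : X.Pt) :
    1 ≤ P.1.ord (X.f - algebraMap K F (valAt P.1 X.f)) := by
  rcases valAt_spec (Coordinate.f_mem_ring P) with h | h
  · exact absurd (sub_eq_zero.mpr h) (f_sub_ne_zero _)
  · omega

/-- Deviation of the second coordinate from an interpolation. -/
theorem Coordinate.le_ord_w_sub {P : X.Pt} (h : Co.Δ.eval (valAt P.1 X.f) ≠ 0) {n : ℕ} {r : K[X]}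
    (hr : r.eval (valAt P.1 X.f) = valAt P.1 Co.w)
    (hP : (Polynomial.X - C (valAt P.1 X.f)) ^ n ∣ Co.P.eval r) :
    Co.w - aeval X.f r = 0 ∨
      n * P.1.ord (X.f - algebraMap K F (valAt P.1 X.f)) ≤ P.1.ord (Co.w - aeval X.f r) := by
  obtain ⟨R, hR, hev⟩ := exists_ev2_split X.f Co.w Co.P r
  set t := valAt P.1 X.f with ht
  set w₀ := valAt P.1 Co.w with hw
  have hroot : (Co.P.map (evalRingHom t)).IsRoot w₀ := Co.isRoot P
  have hR0 : R.evalEval t w₀ ≠ 0 := by
    have hd := (Co.sep t h).eval₂_derivative_ne_zero (RingHom.id K)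
      (show eval₂ (RingHom.id K) w₀ (Co.P.map (evalRingHom t)) = 0 from hroot)
    rw [hR] at hd
    simpa [hr, evalEval, map_evalRingHom_eval] using hd
  have hRu := Co.valAt_ev2 P R
  obtain ⟨hRne, hRord⟩ := ord_eq_zero_of_valAt hRu.1 (by rw [hRu.2]; exact hR0)
  rw [Co.root] at hev
  rcases eq_or_ne (Co.w - aeval X.f r) 0 with h0 | h0
  · exact Or.inl h0
  refine Or.inr ?_
  obtain ⟨q, hq⟩ := hP
  have h1 : -((Co.w - aeval X.f r) * ev2 X.f Co.w R) =
      (X.f - algebraMap K F t) ^ n * aeval X.f q := by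
    rw [neg_eq_of_add_eq_zero_left hev.symm, hq, map_mul, map_pow, map_sub, aeval_X, aeval_C]
  have hq0 : aeval X.f q ≠ 0 := fun e => by
    rw [e, mul_zero, neg_eq_zero] at h1
    exact mul_ne_zero h0 hRne h1
  have h2 := congrArg P.1.ord h1
  rw [MCurve.ord_neg, P.1.ord_mul h0 hRne, hRord, add_zero,
    P.1.ord_mul (pow_ne_zero n (f_sub_ne_zero t)) hq0, MCurve.ord_pow] at h2
  have := ord_nonneg_of_mem' P.1 (Coordinate.valAt_aeval_f P q).1
  omega

theorem Van.le_add {v : Place K F} {a b : F} {n : ℤ} (ha : a = 0 ∨ n ≤ v.ord a)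
    (hb : b = 0 ∨ n ≤ v.ord b) : a + b = 0 ∨ n ≤ v.ord (a + b) := by
  rcases eq_or_ne (a + b) 0 with h | h
  · exact Or.inl h
  rcases eq_or_ne a 0 with rfl | ha'
  · simpa using hb
  rcases eq_or_ne b 0 with rfl | hb'
  · simpa using ha
  have := MCurve.ord_add_le v ha' hb' h
  have := ha.resolve_left ha'
  have := hb.resolve_left hb'
  exact Or.inr (by omega)

/-- The order of a cleared function against the order of its restriction to the interpolation. -/
theorem Coordinate.sub_mem_order {P : X.Pt} (h : Co.Δ.eval (valAt P.1 X.f) ≠ 0) {n N : ℕ} {a : F}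
    {H : K[X][X]} (ha : aeval X.f (Co.Δ ^ N) * a = ev2 X.f Co.w H) {r : K[X]}
    (hr : r.eval (valAt P.1 X.f) = valAt P.1 Co.w)
    (hP : (Polynomial.X - C (valAt P.1 X.f)) ^ n ∣ Co.P.eval r) :
    aeval X.f (Co.Δ ^ N) * a - aeval X.f (H.eval r) = 0 ∨
      n * P.1.ord (X.f - algebraMap K F (valAt P.1 X.f)) ≤
        P.1.ord (aeval X.f (Co.Δ ^ N) * a - aeval X.f (H.eval r)) := by
  obtain ⟨R, -, hev⟩ := exists_ev2_split X.f Co.w H r
  rw [ha, hev, add_sub_cancel_left]
  rcases Co.le_ord_w_sub h hr hP with h0 | h0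
  · exact Or.inl (by rw [h0, zero_mul])
  rcases eq_or_ne (Co.w - aeval X.f r) 0 with e | e
  · exact Or.inl (by rw [e, zero_mul])
  rcases eq_or_ne (ev2 X.f Co.w R) 0 with e' | e'
  · exact Or.inl (by rw [e', mul_zero])
  refine Or.inr ?_
  have := ord_nonneg_of_mem' P.1 (Co.valAt_ev2 P R).1
  rw [P.1.ord_mul e e']
  omega

theorem Coordinate.ord_f_sub {P : X.Pt} (h : Co.Δ.eval (valAt P.1 X.f) ≠ 0) :
    P.1.ord (X.f - algebraMap K F (valAt P.1 X.f)) = 1 := by
  set t := valAt P.1 X.f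
  obtain ⟨a, haL, ha0, hord⟩ := X.hR.exists_ord_eq
    (D := Finsupp.single X.inf ((X.c + 2 : ℕ) : ℤ) - Finsupp.single P.1 1)
    (by rw [map_sub, X.degree_L, degree_single_one]; push_cast; omega) P.1
  rw [Finsupp.sub_apply, Finsupp.single_eq_of_ne P.2, Finsupp.single_eq_same] at hord
  have haL' : a ∈ X.L (X.c + 2) := space_mono (sub_le_self _ (Finsupp.le_def.mpr fun v => by
    simp only [Finsupp.zero_apply, Finsupp.single_apply]; split_ifs <;> simp)) haL
  obtain ⟨N, H, hH⟩ := Co.clear _ a haL'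
  obtain ⟨hN0, hNord⟩ := Co.ord_clear h N
  have hr : (C (valAt P.1 Co.w)).eval t = valAt P.1 Co.w := eval_C
  have hP1 : (Polynomial.X - C t) ^ 1 ∣ Co.P.eval (C (valAt P.1 Co.w)) := by
    rw [pow_one, dvd_iff_isRoot, IsRoot]
    exact (map_evalRingHom_eval _ _ _).symm.trans (Co.isRoot P)
  have hz : (H.eval (C (valAt P.1 Co.w))).eval t = 0 := by
    show H.evalEval t _ = 0
    rw [← (Co.valAt_ev2 P H).2, ← hH,
      valAt_mul (Coordinate.valAt_aeval_f P _).1 (Setup.mem_ring haL' P.2),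
      (valAt_eq_zero_iff (Setup.mem_ring haL' P.2)).mpr (Or.inr (by omega)), mul_zero]
  obtain ⟨q, hq⟩ := (dvd_iff_isRoot (p := H.eval (C (valAt P.1 Co.w)))).mpr hz
  have h2 : aeval X.f (H.eval (C (valAt P.1 Co.w))) = 0 ∨ P.1.ord (X.f - algebraMap K F t) ≤
      P.1.ord (aeval X.f (H.eval (C (valAt P.1 Co.w)))) := by
    rcases eq_or_ne (aeval X.f q) 0 with e | e
    · exact Or.inl (by rw [hq, map_mul, e, mul_zero])
    refine Or.inr ?_
    have := ord_nonneg_of_mem' P.1 (Coordinate.valAt_aeval_f P q).1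
    rw [hq, map_mul, map_sub, aeval_X, aeval_C, P.1.ord_mul (f_sub_ne_zero t) e]
    omega
  have h3 := Co.sub_mem_order h hH hr hP1
  rw [Nat.cast_one, one_mul] at h3
  have h4 := Van.le_add h3 h2
  rw [sub_add_cancel, or_iff_right (mul_ne_zero hN0 ha0), P.1.ord_mul hN0 ha0, hNord, zero_add]
    at h4
  have h5 : 1 ≤ P.1.ord (X.f - algebraMap K F t) := Coordinate.one_le_ord_f_sub P
  change P.1.ord (X.f - algebraMap K F t) ≤ _ at h4
  omega

/-- The order at a good point, from a clearing polynomial. -/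
theorem Coordinate.le_ord_iff {P : X.Pt} (h : Co.Δ.eval (valAt P.1 X.f) ≠ 0) {n N : ℕ} {a : F}
    {H : K[X][X]} (ha : aeval X.f (Co.Δ ^ N) * a = ev2 X.f Co.w H) {r : K[X]}
    (hr : r.eval (valAt P.1 X.f) = valAt P.1 Co.w)
    (hP : (Polynomial.X - C (valAt P.1 X.f)) ^ n ∣ Co.P.eval r) :
    (a = 0 ∨ (n : ℤ) ≤ P.1.ord a) ↔
      (Polynomial.X - C (valAt P.1 X.f)) ^ n ∣ H.eval r := by
  set t := valAt P.1 X.f with ht
  set p := H.eval r
  obtain ⟨hN0, hNord⟩ := Co.ord_clear h N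
  have h1 := Co.sub_mem_order h ha hr hP
  rw [Co.ord_f_sub h, mul_one] at h1
  have hiff : (a = 0 ∨ (n : ℤ) ≤ P.1.ord a) ↔
      (aeval X.f p = 0 ∨ (n : ℤ) ≤ P.1.ord (aeval X.f p)) := by
    have e : (a = 0 ∨ (n : ℤ) ≤ P.1.ord a) ↔ (aeval X.f (Co.Δ ^ N) * a = 0 ∨
        (n : ℤ) ≤ P.1.ord (aeval X.f (Co.Δ ^ N) * a)) := by
      rcases eq_or_ne a 0 with rfl | ha0
      · simp
      · rw [P.1.ord_mul hN0 ha0, hNord, zero_add, mul_eq_zero, or_iff_right hN0]
    rw [e]
    refine ⟨fun h2 => ?_, fun h2 => ?_⟩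
    · have h3 := Van.le_add h2 (b := -(aeval X.f (Co.Δ ^ N) * a - aeval X.f p))
        (by rwa [neg_eq_zero, MCurve.ord_neg])
      rwa [show aeval X.f (Co.Δ ^ N) * a + -(aeval X.f (Co.Δ ^ N) * a - aeval X.f p) =
        aeval X.f p by ring] at h3
    · have h3 := Van.le_add h1 h2
      rwa [sub_add_cancel] at h3
  rw [hiff]
  rcases eq_or_ne p 0 with hp | hp
  · simp [hp]
  rw [or_iff_right (aeval_f_ne_zero hp), ← le_rootMultiplicity_iff hp]
  obtain ⟨q, hq, hqt⟩ := exists_eq_pow_rootMultiplicity_mul_and_not_dvd p hp t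
  obtain ⟨hq0, hqord⟩ := ord_eq_zero_of_valAt (Coordinate.valAt_aeval_f P q).1 (by
    rw [(Coordinate.valAt_aeval_f P q).2]
    exact fun e => hqt (dvd_iff_isRoot.mpr e))
  conv_lhs => rw [hq, map_mul, map_pow, map_sub, aeval_X, aeval_C,
    P.1.ord_mul (pow_ne_zero _ (f_sub_ne_zero t)) hq0, MCurve.ord_pow, Co.ord_f_sub h, hqord]
  push_cast
  omega

theorem Coordinate.pt_ext {P P' : X.Pt} (h : Co.Δ.eval (valAt P.1 X.f) ≠ 0)
    (hf : valAt P.1 X.f = valAt P'.1 X.f) (hw : valAt P.1 Co.w = valAt P'.1 Co.w) : P = P' := by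
  refine X.pt_ext fun k => ?_
  obtain ⟨N, H, hH⟩ := Co.clear _ _ (X.gen_mem k)
  have e : ∀ P : X.Pt, Co.Δ.eval (valAt P.1 X.f) ^ N * valAt P.1 (X.gen k) =
      H.evalEval (valAt P.1 X.f) (valAt P.1 Co.w) := fun P => by
    rw [← (Co.valAt_ev2 P H).2, ← hH,
      valAt_mul (Coordinate.valAt_aeval_f P _).1 (Setup.mem_ring (X.gen_mem k) P.2),
      (Coordinate.valAt_aeval_f P _).2, eval_pow]
  exact mul_left_cancel₀ (pow_ne_zero N h) ((e P).trans (by rw [hf, hw, ← e P']))

theorem Coordinate.exists_pt {c w₀ : K} (hc : Co.Δ.eval c ≠ 0)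
    (hw : (Co.P.map (evalRingHom c)).IsRoot w₀) :
    ∃ P : X.Pt, valAt P.1 X.f = c ∧ valAt P.1 Co.w = w₀ := by
  set u := X.f - algebraMap K F c
  have hu : u ≠ 0 := f_sub_ne_zero c
  set T := (divOf K u).support.erase X.inf
  have hpos : ∀ v ∈ T, v ≠ X.inf ∧ 0 < v.ord u := fun v hv => by
    obtain ⟨h1, h2⟩ := Finset.mem_erase.mp hv
    rw [Finsupp.mem_support_iff, divOf_apply] at h2
    refine ⟨h1, lt_of_le_of_ne (ord_nonneg_of_mem' v ?_) (Ne.symm h2)⟩
    exact sub_mem (Coordinate.f_mem_ring (⟨v, h1⟩ : X.Pt)) (v.algebraMap_mem' c)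
  have hval : ∀ v ∈ T, valAt v X.f = c := fun v hv => valAt_eq (Or.inr (hpos v hv).2)
  have hone : ∀ v ∈ T, v.ord u = 1 := fun v hv => by
    have := Co.ord_f_sub (P := ⟨v, (hpos v hv).1⟩) (by rw [hval v hv]; exact hc)
    rwa [hval v hv] at this
  have hinf : X.inf.ord u = -((X.c : ℤ) + 1) := by
    rcases eq_or_ne c 0 with rfl | hc0
    · simp only [u, map_zero, sub_zero]; exact X.f_inf
    have hf0 : X.f ≠ 0 := fun e => X.f_fin.transcendental (by rw [e]; exact isAlgebraic_zero)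
    have := ord_add_eq X.inf hf0 (neg_ne_zero.mpr (by simpa using hc0 : algebraMap K F c ≠ 0))
      (by rw [X.f_inf, MCurve.ord_neg, MCurve.ord_algebraMap]; omega)
    rwa [← sub_eq_add_neg, X.f_inf] at this
  have hcard : T.card = X.c + 1 := by
    have hd := degree_divOf (K := K) u
    rw [degree_eq_sum, Finsupp.sum, ← Finset.sum_erase_add (a := X.inf) _ _ (by
      rw [Finsupp.mem_support_iff, divOf_apply, hinf]; omega)] at hd
    rw [Finset.sum_congr rfl fun v hv => (divOf_apply (K := K) u v).trans (hone v hv),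
      divOf_apply, hinf, Finset.sum_const, nsmul_eq_mul, mul_one] at hd
    omega
  have hroots : (Co.P.map (evalRingHom c)).roots.toFinset.card = X.c + 1 := by
    rw [Multiset.toFinset_card_of_nodup (nodup_roots (Co.sep c hc)),
      ← (IsAlgClosed.splits _).natDegree_eq_card_roots, Co.monic.natDegree_map, Co.natDegree_eq]
  have himg : T.image (fun v => valAt v Co.w) = (Co.P.map (evalRingHom c)).roots.toFinset := by
    refine Finset.eq_of_subset_of_card_le (fun x hx => ?_) (le_of_eq ?_)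
    · obtain ⟨v, hv, rfl⟩ := Finset.mem_image.mp hx
      rw [Multiset.mem_toFinset, mem_roots (Co.monic.map _).ne_zero, ← hval v hv]
      exact Co.isRoot ⟨v, (hpos v hv).1⟩
    · rw [hroots, ← hcard]
      refine (Finset.card_image_of_injOn fun v hv v' hv' e => ?_).symm
      exact congrArg Subtype.val (Co.pt_ext (P := ⟨v, (hpos v hv).1⟩) (P' := ⟨v', (hpos v' hv').1⟩)
        (by rw [hval v hv]; exact hc) ((hval v hv).trans (hval v' hv').symm) e)
  have : w₀ ∈ T.image (fun v => valAt v Co.w) := by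
    rw [himg, Multiset.mem_toFinset, mem_roots (Co.monic.map _).ne_zero]; exact hw
  obtain ⟨v, hv, rfl⟩ := Finset.mem_image.mp this
  exact ⟨⟨v, (hpos v hv).1⟩, hval v hv, rfl⟩

/-- One step of Newton's approximation. -/
theorem exists_root_mod_pow {P : K[X][X]} {c w₀ : K} (hroot : (P.map (evalRingHom c)).IsRoot w₀)
    (hsep : (P.map (evalRingHom c)).Separable) (n : ℕ) :
    ∃ r : K[X], r.eval c = w₀ ∧ (Polynomial.X - C c) ^ n ∣ P.eval r := by
  induction n with
  | zero => exact ⟨C w₀, eval_C, by simp⟩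
  | succ n ih =>
    obtain ⟨r, hr, q, hq⟩ := ih
    rcases Nat.eq_zero_or_pos n with rfl | hn
    · refine ⟨C w₀, eval_C, ?_⟩
      rw [pow_one, dvd_iff_isRoot, IsRoot]
      exact (map_evalRingHom_eval _ _ _).symm.trans hroot
    have hd : (P.derivative.eval r).eval c ≠ 0 := by
      have := hsep.eval₂_derivative_ne_zero (RingHom.id K)
        (show eval₂ (RingHom.id K) w₀ (P.map (evalRingHom c)) = 0 from hroot)
      rw [eval₂_id, derivative_map, map_evalRingHom_eval, evalEval] at this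
      obtain ⟨z, hz⟩ := sub_dvd_eval_sub r (C w₀) P.derivative
      have h2 := congrArg (Polynomial.eval c) hz
      rw [eval_sub, eval_mul, eval_sub, hr, eval_C, sub_self, zero_mul, sub_eq_zero] at h2
      rwa [h2]
    set a := -q.eval c / (P.derivative.eval r).eval c
    refine ⟨r + C a * (Polynomial.X - C c) ^ n, by simp [hr, hn.ne'], ?_⟩
    obtain ⟨k, hk⟩ := Polynomial.binomExpansion P r (C a * (Polynomial.X - C c) ^ n)
    rw [hk, hq]
    have h1 : (Polynomial.X - C c) ^ (n + 1) ∣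
        (Polynomial.X - C c) ^ n * (q + P.derivative.eval r * C a) := by
      rw [pow_succ]
      refine mul_dvd_mul_left _ (dvd_iff_isRoot.mpr ?_)
      simp only [IsRoot, eval_add, eval_mul, eval_C, a]
      field_simp
      ring
    have h2 : (Polynomial.X - C c) ^ (n + 1) ∣ k * (C a * (Polynomial.X - C c) ^ n) ^ 2 := by
      rw [mul_pow, ← pow_mul]
      exact dvd_mul_of_dvd_right (dvd_mul_of_dvd_right (pow_dvd_pow _ (by omega)) _) _
    have := dvd_add h1 h2
    refine (dvd_of_eq rfl).trans (this.trans (dvd_of_eq ?_))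
    ring

/-- Interpolation of the second coordinate to order `n`. -/
theorem Coordinate.exists_interp {Q : X.Tup} (hV : X.V Q ≠ 0) (hQ : Co.Good Q) {n : ℕ}
    (hn : 0 < n) : ∃ r : K[X], r.degree < (n * X.g : ℕ) ∧
      (∀ i, r.eval (X.fv Q i) = Co.wv Q i) ∧
      (∏ i, (Polynomial.X - C (X.fv Q i))) ^ n ∣ Co.P.eval r := by
  choose r hr hP using fun i : Fin X.g =>
    exists_root_mod_pow (Co.isRoot (Q i)) (Co.sep _ (hQ i)) n
  have hinj := Setup.V_ne_zero_iff.mp hV
  set lin : Fin X.g → K[X] := fun i => (Polynomial.X - C (X.fv Q i)) ^ n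
  have hco : Pairwise (Function.onFun IsCoprime lin) := fun i j hij =>
    (isCoprime_X_sub_C_of_isUnit_sub (sub_ne_zero.mpr (hinj.ne hij)).isUnit).pow
  obtain ⟨s, hs⟩ := Ideal.exists_forall_sub_mem_ideal
    (I := fun i => Ideal.span {lin i})
    (fun i j hij => (Ideal.isCoprime_span_singleton_iff _ _).mpr (hco hij)) r
  set χ := (∏ i, (Polynomial.X - C (X.fv Q i))) ^ n with hχ
  have hm : χ.Monic := (monic_prod_of_monic _ _ fun i _ => monic_X_sub_C _).pow n
  have hdeg : χ.natDegree = n * X.g := by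
    rw [hχ, natDegree_pow, natDegree_prod_of_monic _ _ fun i _ => monic_X_sub_C _]
    simp
  have hdvd : ∀ i, lin i ∣ χ := fun i => by
    simp only [hχ, lin, ← Finset.prod_pow]
    exact Finset.dvd_prod_of_mem _ (Finset.mem_univ i)
  have hmod : ∀ i, lin i ∣ s %ₘ χ - r i := fun i => by
    have h1 : lin i ∣ s - r i := Ideal.mem_span_singleton.mp (hs i)
    rw [modByMonic_eq_sub_mul_div s χ, sub_right_comm]
    exact dvd_sub h1 ((hdvd i).mul_right _)
  refine ⟨s %ₘ χ, ?_, fun i => ?_, ?_⟩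
  · rw [← hdeg, ← degree_eq_natDegree hm.ne_zero]
    exact degree_modByMonic_lt _ hm
  · have h1 : (Polynomial.X - C (X.fv Q i)) ∣ s %ₘ χ - r i :=
      (dvd_pow_self _ hn.ne').trans (hmod i)
    rw [dvd_iff_isRoot, IsRoot, eval_sub, sub_eq_zero] at h1
    exact h1.trans (hr i)
  · rw [hχ, ← Finset.prod_pow]
    refine Finset.prod_dvd_of_coprime (fun i _ j _ hij => hco hij) fun i _ => ?_
    have := dvd_add ((hmod i).trans (Polynomial.sub_dvd_eval_sub (s %ₘ χ) (r i) Co.P)) (hP i)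
    simpa [lin, hχ, ← Finset.prod_pow] using this

end Fermat.Agent.MCurve.T27
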