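/-
Polynomials over dual numbers, split into value and deviation.
-/
import Mathlib.Algebra.DualNumber
import Mathlib.Algebra.Polynomial.Identities
import Mathlib.Algebra.Polynomial.Derivative

set_option autoImplicit false

noncomputable section

namespace Fermat.Agent.MCurve.T27

open Polynomial TrivSqZeroExt
open scoped DualNumber

variable {K : Type*} [CommRing K]

/-- Constant polynomials over dual numbers. -/
abbrev dι (K : Type*) [CommRing K] : K[X] →+* (DualNumber K)[X] :=
  mapRingHom (algebraMap K (DualNumber K))

/-- The infinitesimal as a polynomial. -/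
abbrev dE (K : Type*) [CommRing K] : (DualNumber K)[X] := Polynomial.C DualNumber.eps

theorem dE_mul_dE : dE K * dE K = 0 := by rw [← C_mul, DualNumber.eps_mul_eps, C_0]

theorem dual_coeff (a b : K[X]) (j : ℕ) :
    (dι K a + dE K * dι K b).coeff j = inl (a.coeff j) + inr (b.coeff j) := by
  simp only [coeff_add, coe_mapRingHom, coeff_C_mul, coeff_map]
  apply TrivSqZeroExt.ext <;> simp [TrivSqZeroExt.algebraMap_eq_inl]

theorem dual_ext {a b a' b' : K[X]} (h : dι K a + dE K * dι K b = dι K a' + dE K * dι K b') :
    a = a' ∧ b = b' := by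
  constructor <;> ext j <;> have h1 := congrArg (fun p => Polynomial.coeff p j) h <;>
    simp only [dual_coeff] at h1
  · simpa using congrArg TrivSqZeroExt.fst h1
  · simpa using congrArg TrivSqZeroExt.snd h1

theorem dual_split (p : (DualNumber K)[X]) : ∃ a b : K[X], p = dι K a + dE K * dι K b := by
  induction p using Polynomial.induction_on' with
  | add p q hp hq =>
    obtain ⟨a, b, rfl⟩ := hp
    obtain ⟨a', b', rfl⟩ := hq
    exact ⟨a + a', b + b', by rw [map_add, map_add]; ring⟩
  | monomial j x =>
    refine ⟨monomial j x.fst, monomial j x.snd, Polynomial.ext fun i => ?_⟩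
    rw [dual_coeff, coeff_monomial, coeff_monomial, coeff_monomial]
    split_ifs
    · exact (inl_fst_add_inr_snd_eq x).symm
    · simp

theorem dual_C (a b : K) :
    Polynomial.C (inl a + inr b : DualNumber K) =
      dι K (Polynomial.C a) + dE K * dι K (Polynomial.C b) := by
  refine Polynomial.ext fun j => ?_
  rw [dual_coeff, coeff_C, coeff_C, coeff_C]
  split_ifs <;> simp

theorem dual_mul (a b a' b' : K[X]) :
    (dι K a + dE K * dι K b) * (dι K a' + dE K * dι K b') =
      dι K (a * a') + dE K * dι K (a * b' + b * a') := by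
  rw [map_mul, map_add, map_mul, map_mul]
  linear_combination (dι K b * dι K b') * (dE_mul_dE (K := K))

theorem dual_pow (a b : K[X]) (n : ℕ) :
    (dι K a + dE K * dι K b) ^ n = dι K (a ^ n) + dE K * dι K ((n : K[X]) * a ^ (n - 1) * b) := by
  induction n with
  | zero => simp
  | succ n ih =>
    rw [pow_succ, ih, dual_mul, ← pow_succ, Nat.add_sub_cancel]
    congr 3
    rcases n with _ | n
    · simp
    · rw [Nat.add_sub_cancel, pow_succ a n]; push_cast; ring

theorem dual_eval (P : K[X][X]) (r dr : K[X]) :
    (P.map (dι K)).eval (dι K r + dE K * dι K dr) =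
      dι K (P.eval r) + dE K * dι K (P.derivative.eval r * dr) := by
  obtain ⟨k, hk⟩ := Polynomial.binomExpansion (P.map (dι K)) (dι K r) (dE K * dι K dr)
  rw [hk, derivative_map, eval_map, eval₂_at_apply, eval_map, eval₂_at_apply, map_mul]
  linear_combination (k * dι K dr ^ 2) * (dE_mul_dE (K := K))

end Fermat.Agent.MCurve.T27
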