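/-
U4a: valuation rings with algebraic residue field, zeros of square systems with nonzero Jacobian.
-/
import Fermat.Agent.MCurve.T27.Defs
import Mathlib.Algebra.DualNumber
import Mathlib.RingTheory.Valuation.LocalSubring
import Mathlib.RingTheory.Smooth.StandardSmoothCotangent
import Mathlib.RingTheory.Smooth.Flat
import Mathlib.RingTheory.Ideal.GoingDown
import Mathlib.RingTheory.Etale.Field
import Mathlib.RingTheory.RootsOfUnity.AlgebraicallyClosed

set_option autoImplicit false
set_option linter.unusedSectionVars false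
set_option linter.style.haveILetI false

noncomputable section

namespace Fermat.Agent.MCurve.T27

open MvPolynomial
open scoped Classical

variable {K : Type*} [Field K] [IsAlgClosed K] {k : Type*} [Field k] [IsAlgClosed k]

/-- A subring of pairs is the graph of a homomorphism. -/
def IsGraph (G : Subring (K × k)) : Prop := ∀ p ∈ G, p.1 = 0 → p.2 = 0

theorem IsGraph.snd_eq {G : Subring (K × k)} (hG : IsGraph G) {p q : K × k} (hp : p ∈ G)
    (hq : q ∈ G) (h : p.1 = q.1) : p.2 = q.2 :=
  sub_eq_zero.mp (hG (p - q) (sub_mem hp hq) (sub_eq_zero.mpr h))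

/-- A maximal graph is the graph of a valuation subring. -/
theorem IsGraph.exists_valuation {G : Subring (K × k)} (hG : IsGraph G)
    (hmax : ∀ G', IsGraph G' → G ≤ G' → G' ≤ G) :
    ∃ (V : ValuationSubring K) (ψ : V →+* k), (∀ p ∈ G, ∃ h : p.1 ∈ V, ψ ⟨p.1, h⟩ = p.2) ∧
      ∀ x : V, ψ x = 0 ↔ x ∈ IsLocalRing.maximalIdeal V := by
  set S : Subring K := G.map (RingHom.fst K k)
  have hmem : ∀ {x : K}, x ∈ S ↔ ∃ a : k, (x, a) ∈ G := fun {x} => by
    constructor
    · rintro ⟨⟨x', a⟩, h, rfl⟩; exact ⟨a, h⟩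
    · rintro ⟨a, h⟩; exact ⟨(x, a), h, rfl⟩
  choose val hval using fun x : S => hmem.mp x.2
  have huniq : ∀ (x : S) (a : k), ((x : K), a) ∈ G → val x = a := fun x a h =>
    hG.snd_eq (hval x) h rfl
  let φ : S →+* k :=
    { toFun := val
      map_one' := huniq 1 1 (one_mem G)
      map_mul' := fun x y => huniq (x * y) _ (mul_mem (hval x) (hval y))
      map_zero' := huniq 0 0 (zero_mem G)
      map_add' := fun x y => huniq (x + y) _ (add_mem (hval x) (hval y)) }
  have hinv : ∀ x : S, φ x ≠ 0 → ((x : K)⁻¹, (φ x)⁻¹) ∈ G := by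
    intro x hx
    let G' : Subring (K × k) :=
      { carrier := {p | ∃ q ∈ G, q.2 ≠ 0 ∧ p * q ∈ G}
        one_mem' := ⟨1, one_mem G, one_ne_zero, by rw [mul_one]; exact one_mem G⟩
        zero_mem' := ⟨1, one_mem G, one_ne_zero, by rw [mul_one]; exact zero_mem G⟩
        mul_mem' := by
          rintro p p' ⟨q, hq, hq0, hpq⟩ ⟨q', hq', hq0', hpq'⟩
          exact ⟨q * q', mul_mem hq hq', mul_ne_zero hq0 hq0', by
            rw [mul_mul_mul_comm]; exact mul_mem hpq hpq'⟩
        add_mem' := by
          rintro p p' ⟨q, hq, hq0, hpq⟩ ⟨q', hq', hq0', hpq'⟩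
          refine ⟨q * q', mul_mem hq hq', mul_ne_zero hq0 hq0', ?_⟩
          rw [show (p + p') * (q * q') = p * q * q' + q * (p' * q') by ring]
          exact add_mem (mul_mem hpq hq') (mul_mem hq hpq')
        neg_mem' := by
          rintro p ⟨q, hq, hq0, hpq⟩
          exact ⟨q, hq, hq0, by rw [neg_mul]; exact neg_mem hpq⟩ }
    have hG' : IsGraph G' := by
      rintro p ⟨q, -, hq0, hpq⟩ hp
      have := hG _ hpq (by rw [Prod.fst_mul, hp, zero_mul])
      rw [Prod.snd_mul, mul_eq_zero] at this
      exact this.resolve_right hq0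
    refine hmax G' hG' (fun p hp => ⟨1, one_mem G, one_ne_zero, by rwa [mul_one]⟩)
      ⟨((x : K), φ x), hval x, hx, ?_⟩
    have hx0 : (x : K) ≠ 0 := fun h => hx (hG _ (hval x) h)
    rw [Prod.mk_mul_mk, inv_mul_cancel₀ hx0, inv_mul_cancel₀ hx]
    exact one_mem G
  have hunit : ∀ x : S, φ x ≠ 0 → IsUnit x := fun x hx =>
    .of_mul_eq_one ⟨(x : K)⁻¹, hmem.mpr ⟨_, hinv x hx⟩⟩
      (Subtype.ext (mul_inv_cancel₀ fun h => hx (hG _ (hval x) h)))
  have hker : ∀ x : S, φ x = 0 ↔ x ∈ nonunits S := fun x =>
    ⟨fun h hu => not_isUnit_zero (h ▸ hu.map φ), fun h => by_contra fun h0 => h (hunit x h0)⟩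
  haveI : IsLocalRing S := .of_nonunits_add fun a b ha hb => by
    rw [← hker, map_add, (hker a).mpr ha, (hker b).mpr hb, add_zero]
  haveI : IsLocalHom φ := ⟨fun a ha => hunit a ha.ne_zero⟩
  obtain ⟨T, hT, hloc⟩ := LocalSubring.exists_le_valuationSubring (LocalSubring.mk S)
  have hST : ∀ x ∈ T, x ∈ S := by
    intro x hx
    let κ := IsLocalRing.ResidueField S
    let φκ : κ →+* k := IsLocalRing.ResidueField.lift φ
    have hsurj : Function.Surjective (Polynomial.mapRingHom (IsLocalRing.residue S)) :=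
      Polynomial.map_surjective _ IsLocalRing.residue_surjective
    set ev : Polynomial S →+* K := Polynomial.eval₂RingHom S.subtype x
    set J := Ideal.map (Polynomial.mapRingHom (IsLocalRing.residue S)) (RingHom.ker ev)
    have hJ : J ≠ ⊤ := by
      rw [Ne, Ideal.eq_top_iff_one, Ideal.mem_map_iff_of_surjective _ hsurj]
      rintro ⟨p, hp, hp1⟩
      have hp0 : p.eval₂ S.subtype x = 0 := hp
      let toT : S →+* T := Subring.inclusion hT
      have e : (p.map toT).eval (⟨x, hx⟩ : T) = 0 := by
        apply Subtype.ext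
        rw [Polynomial.eval_map]
        have := Polynomial.hom_eval₂ p toT T.subtype ⟨x, hx⟩
        exact this.trans hp0
      have e2 : (p.map toT).eval (⟨x, hx⟩ : T) - 1 ∈ IsLocalRing.maximalIdeal T := by
        rw [← Ideal.Quotient.eq_zero_iff_mem, map_sub, map_one, Polynomial.eval_map,
          Polynomial.hom_eval₂, sub_eq_zero]
        have hfac : ∀ a : S, IsLocalRing.residue S a = 0 →
            Ideal.Quotient.mk (IsLocalRing.maximalIdeal T) (toT a) = 0 := fun a ha => by
          rw [Ideal.Quotient.eq_zero_iff_mem, IsLocalRing.mem_maximalIdeal, mem_nonunits_iff]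
          rw [IsLocalRing.residue_eq_zero_iff, IsLocalRing.mem_maximalIdeal, mem_nonunits_iff] at ha
          exact fun hu => ha (hloc.map_nonunit a hu)
        have hcoef : ∀ i, ((Ideal.Quotient.mk (IsLocalRing.maximalIdeal T)).comp toT) (p.coeff i) =
            (1 : Polynomial (T ⧸ IsLocalRing.maximalIdeal T)).coeff i := fun i => by
          have h1 := congrArg (fun q => Polynomial.coeff q i) hp1
          simp only [Polynomial.coe_mapRingHom, Polynomial.coeff_map, Polynomial.coeff_one] at h1
          rcases eq_or_ne i 0 with rfl | hi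
          · rw [if_pos rfl, ← map_one (IsLocalRing.residue S), ← sub_eq_zero, ← map_sub] at h1
            have := hfac _ h1
            rw [map_sub, map_one, map_sub, map_one, sub_eq_zero] at this
            simpa using this
          · rw [if_neg hi] at h1
            simpa [Polynomial.coeff_one, hi] using hfac _ h1
        rw [← Polynomial.eval_map, show p.map ((Ideal.Quotient.mk _).comp toT) = 1 from
          Polynomial.ext fun i => by rw [Polynomial.coeff_map]; exact hcoef i, Polynomial.eval_one]
      rw [e, zero_sub, neg_mem_iff] at e2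
      exact (IsLocalRing.maximalIdeal.isMaximal T).ne_top ((Ideal.eq_top_iff_one _).mpr e2)
    obtain ⟨q, hq⟩ : ∃ q, J = Ideal.span {q} := (IsPrincipalIdealRing.principal J).principal
    obtain ⟨a, ha⟩ : ∃ a : k, (q.map φκ).IsRoot a := by
      rcases eq_or_ne q 0 with rfl | hq0
      · exact ⟨0, by simp⟩
      refine IsAlgClosed.exists_root _ fun h => hJ ?_
      rw [Polynomial.degree_map] at h
      rw [hq, Ideal.span_singleton_eq_top]
      exact Polynomial.isUnit_iff_degree_eq_zero.mpr h
    let Φ : Polynomial S →+* K × k :=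
      RingHom.prod ev (Polynomial.eval₂RingHom φ a)
    have hΦ : IsGraph Φ.range := by
      rintro _ ⟨p, rfl⟩ hp
      have hmemJ : p.map (IsLocalRing.residue S) ∈ J := Ideal.mem_map_of_mem _ hp
      obtain ⟨r, hr⟩ := Ideal.mem_span_singleton.mp (hq ▸ hmemJ)
      show p.eval₂ φ a = 0
      rw [show φ = φκ.comp (IsLocalRing.residue S) from RingHom.ext fun s =>
        (IsLocalRing.ResidueField.lift_residue_apply φ s).symm, ← Polynomial.eval₂_map, hr,
        Polynomial.eval₂_mul, ← Polynomial.eval_map, ha.eq_zero, zero_mul]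
    have hle : G ≤ Φ.range := fun p hp => by
      have hp' : p.1 ∈ S := hmem.mpr ⟨p.2, hp⟩
      exact ⟨Polynomial.C ⟨p.1, hp'⟩, Prod.ext (by simp [Φ, ev])
        (by simpa [Φ, φ] using huniq ⟨p.1, hp'⟩ p.2 hp)⟩
    exact hmem.mpr ⟨a, hmax _ hΦ hle ⟨Polynomial.X, by simp [Φ, ev]⟩⟩
  have hTS : ∀ x : T, (x : K) ∈ S := fun x => hST x x.2
  refine ⟨T, φ.comp (T.subtype.codRestrict S hTS), fun p hp => ?_, fun x => ?_⟩
  · exact ⟨hT (hmem.mpr ⟨p.2, hp⟩), huniq _ _ hp⟩
  · show φ ⟨x, hTS x⟩ = 0 ↔ _
    rw [hker, IsLocalRing.mem_maximalIdeal, mem_nonunits_iff, mem_nonunits_iff]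
    refine not_congr ⟨fun h => ?_, fun h => ?_⟩
    · have := h.map (Subring.inclusion hT : S →+* T)
      exact this
    · exact hloc.map_nonunit _ h

/-- A homomorphism to an algebraically closed field of roots of unity extends to a valuation ring,
onto that field. -/
theorem exists_valuation (R : Subring K) (φ : R →+* k)
    (hk : ∀ a : k, a ≠ 0 → ∃ m : ℕ, (m : k) ≠ 0 ∧ a ^ m = 1) :
    ∃ (V : ValuationSubring K) (h : R ≤ V.toSubring) (ψ : V →+* k),
      (∀ x : R, ψ ⟨x, h x.2⟩ = φ x) ∧ Function.Surjective ψ ∧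
        ∀ x : V, ψ x = 0 ↔ x ∈ IsLocalRing.maximalIdeal V := by
  set G₀ : Subring (K × k) := (RingHom.prod R.subtype φ).range
  have hG₀ : IsGraph G₀ := by
    rintro _ ⟨x, rfl⟩ hx
    show φ x = 0
    rw [show x = 0 from Subtype.ext hx, map_zero]
  obtain ⟨G, hle, hG⟩ := zorn_le_nonempty₀ {G : Subring (K × k) | IsGraph G}
    (fun c hc hchain y hy => by
      refine ⟨⨆ G : c, (G : Subring (K × k)), ?_, fun G hG => le_iSup (fun G : c => (G : Subring (K × k))) ⟨G, hG⟩⟩
      intro p hp hp0
      haveI : Nonempty c := ⟨⟨y, hy⟩⟩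
      obtain ⟨G, hG⟩ := (Subring.mem_iSup_of_directed hchain.directed).mp hp
      exact hc G.2 p hG hp0) G₀ hG₀
  obtain ⟨V, ψ, hV, hker⟩ := hG.prop.exists_valuation fun G' h h' => hG.2 h h'
  have hR : R ≤ V.toSubring := fun x hx => (hV _ (hle ⟨⟨x, hx⟩, rfl⟩)).1
  refine ⟨V, hR, ψ, fun x => (hV _ (hle ⟨x, rfl⟩)).2, fun a => ?_, hker⟩
  rcases eq_or_ne a 0 with rfl | ha
  · exact ⟨0, map_zero ψ⟩
  obtain ⟨m, hm, ham⟩ := hk a ha
  have hm0 : 0 < m := Nat.pos_of_ne_zero fun h => hm (by rw [h, Nat.cast_zero])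
  haveI : NeZero (m : K) := ⟨fun h => hm (by
    rw [← map_natCast ψ, show (m : V) = 0 from Subtype.ext (by simpa using h), map_zero])⟩
  haveI : NeZero m := ⟨hm0.ne'⟩
  obtain ⟨ζ, hζ⟩ := HasEnoughRootsOfUnity.exists_primitiveRoot K m
  have hint : ∀ x : K, x ^ m = 1 → x ∈ V := fun x hx => by
    rcases V.mem_or_inv_mem x with h | h
    · exact h
    have : x = x⁻¹ ^ (m - 1) := by
      rw [inv_pow]
      refine eq_inv_of_mul_eq_one_left ?_
      rw [← pow_succ', Nat.sub_add_cancel hm0, hx]
    rw [this]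
    exact pow_mem h _
  set ζ' : V := ⟨ζ, hint ζ hζ.pow_eq_one⟩
  have hζ' : IsPrimitiveRoot ζ' m := IsPrimitiveRoot.of_map_of_injective (f := V.subtype) hζ
    Subtype.val_injective
  have hprod := congrArg (Polynomial.map ψ) (Polynomial.X_pow_sub_one_eq_prod hm0 hζ')
  rw [Polynomial.map_prod] at hprod
  have hev := congrArg (Polynomial.eval a) hprod
  simp only [Polynomial.map_sub, Polynomial.map_pow, Polynomial.map_X, Polynomial.map_one,
    Polynomial.eval_sub, Polynomial.eval_pow, Polynomial.eval_X, Polynomial.eval_one, ham, sub_self,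
    Polynomial.eval_prod, Polynomial.map_C, Polynomial.eval_C] at hev
  obtain ⟨z, -, hz⟩ := Finset.prod_eq_zero_iff.mp hev.symm
  exact ⟨z, (sub_eq_zero.mp hz).symm⟩

section Jacobian

variable {R : Type*} [CommRing R] {ι : Type} [Fintype ι] [DecidableEq ι]

/-- The equations together with the inverse of the Jacobian. -/
def etEqns (E : ι → MvPolynomial ι R) : Option ι → MvPolynomial (Option ι) R
  | some i => rename some (E i)
  | none => X none * rename some (Matrix.of fun i j => pderiv j (E i)).det - 1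

/-- The algebra of zeros with invertible Jacobian. -/
abbrev EtAlg (E : ι → MvPolynomial ι R) : Type _ :=
  MvPolynomial (Option ι) R ⧸ Ideal.span (Set.range (etEqns E))

theorem eval_det (E : ι → MvPolynomial ι R) (x : ι → R) :
    eval x (Matrix.of fun i j => pderiv j (E i)).det = (jacobianAt E x).det := by
  rw [RingHom.map_det]; rfl

theorem isStandardSmooth_etAlg (E : ι → MvPolynomial ι R) :
    Algebra.IsStandardSmoothOfRelativeDimension 0 R (EtAlg E) := by
  let P : Algebra.PreSubmersivePresentation R (EtAlg E) (Option ι) (Option ι) :=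
    Algebra.PreSubmersivePresentation.naive (v := etEqns E) id Function.injective_id
  set d := rename (some : ι → Option ι) (Matrix.of fun i j => pderiv j (E i)).det
  have hdet : P.jacobiMatrix.det = d * d := by
    rw [← Matrix.det_submatrix_equiv_self (Equiv.optionEquivSumPUnit.{0, 0} ι).symm]
    have e : P.jacobiMatrix.submatrix (Equiv.optionEquivSumPUnit.{0, 0} ι).symm
        (Equiv.optionEquivSumPUnit.{0, 0} ι).symm = Matrix.fromBlocks
        (Matrix.of fun i j => rename some (pderiv i (E j)))
        (Matrix.of fun i _ => pderiv (some i) (X none * d - 1)) 0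
        (Matrix.of fun (_ : PUnit) (_ : PUnit) => d) := by
      refine Matrix.ext fun i j => ?_
      rcases i with i | i <;> rcases j with j | j <;>
        simp only [P, Matrix.submatrix_apply, Equiv.optionEquivSumPUnit_symm_inl,
          Equiv.optionEquivSumPUnit_symm_inr, Algebra.PreSubmersivePresentation.jacobiMatrix_naive,
          id, etEqns, Matrix.fromBlocks_apply₁₁, Matrix.fromBlocks_apply₁₂,
          Matrix.fromBlocks_apply₂₁, Matrix.fromBlocks_apply₂₂, Matrix.of_apply, Matrix.zero_apply]
      · exact pderiv_rename (Option.some_injective ι) _ _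
      · rfl
      · exact pderiv_eq_zero_of_notMem_vars fun h => by
          obtain ⟨a, -, ha⟩ := Finset.mem_image.mp (vars_rename _ _ h)
          exact Option.some_ne_none a ha
      · have h0 : pderiv none d = 0 := pderiv_eq_zero_of_notMem_vars fun h => by
          obtain ⟨a, -, ha⟩ := Finset.mem_image.mp (vars_rename _ _ h)
          exact Option.some_ne_none a ha
        rw [map_sub, pderiv_mul, pderiv_X_self, h0, pderiv_one, mul_zero, add_zero, sub_zero,
          one_mul]
    rw [e, Matrix.det_fromBlocks_zero₂₁, Matrix.det_unique (Matrix.of fun (_ : PUnit) _ => d)]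
    congr 1
    show (Matrix.map (Matrix.of fun i j => pderiv i (E j))
      (rename (R := R) (some : ι → Option ι))).det = d
    rw [← AlgHom.mapMatrix_apply, ← AlgHom.map_det, ← Matrix.det_transpose]
    rfl
  let Q : Algebra.SubmersivePresentation R (EtAlg E) (Option ι) (Option ι) :=
    { toPreSubmersivePresentation := P
      jacobian_isUnit := by
        rw [P.jacobian_eq_jacobiMatrix_det, hdet, map_mul]
        have hu : IsUnit (algebraMap P.Ring (EtAlg E) d) := by
          refine IsUnit.of_mul_eq_one_right (Ideal.Quotient.mk _ (X none)) ?_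
          show Ideal.Quotient.mk _ (X none) * Ideal.Quotient.mk (Ideal.span (Set.range (etEqns E))) d = 1
          rw [← map_mul, ← map_one (Ideal.Quotient.mk (Ideal.span (Set.range (etEqns E)))),
            Ideal.Quotient.mk_eq_mk_iff_sub_mem]
          exact Ideal.subset_span ⟨none, rfl⟩
        exact hu.mul hu }
  refine ⟨⟨Option ι, Option ι, inferInstance, inferInstance, Q, ?_⟩⟩
  show Nat.card (Option ι) - Nat.card (Option ι) = 0
  exact Nat.sub_self _

variable {A : Type*} [CommRing A] [Algebra R A]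

/-- The point of a zero with invertible Jacobian. -/
theorem exists_etHom (E : ι → MvPolynomial ι R) (y : ι → A) (hy : ∀ i, aeval y (E i) = 0)
    {w : A} (hw : w * aeval y (Matrix.of fun i j => pderiv j (E i)).det = 1) :
    ∃ f : EtAlg E →ₐ[R] A, ∀ i, f (Ideal.Quotient.mk _ (X (some i))) = y i := by
  refine ⟨Ideal.Quotient.liftₐ _ (aeval fun o : Option ι => o.elim w y) ?_, fun i => ?_⟩
  · intro p hp
    induction hp using Submodule.span_induction with
    | mem p hp =>
      obtain ⟨o, rfl⟩ := hp
      cases o with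
      | none => simp [etEqns, aeval_rename, Function.comp_def, hw]
      | some i => simpa [etEqns, aeval_rename, Function.comp_def] using hy i
    | zero => exact map_zero _
    | add p q _ _ hp hq => rw [map_add, hp, hq, add_zero]
    | smul a p _ hp => rw [smul_eq_mul, map_mul, hp, mul_zero]
  · show (aeval fun o : Option ι => o.elim w y) (X (some i)) = y i
    simp

end Jacobian

variable {ι : Type} [Fintype ι] [DecidableEq ι]

/-- Nondegenerate zeros lift. -/
theorem exists_zero_lift (V : ValuationSubring K) (res : V →+* k) (hsurj : Function.Surjective res)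
    (hker : ∀ x : V, res x = 0 ↔ x ∈ IsLocalRing.maximalIdeal V)
    (E : ι → MvPolynomial ι V) (y : ι → k) (hy : ∀ i, MvPolynomial.eval y (MvPolynomial.map res (E i)) = 0)
    (hJ : (jacobianAt (fun i => MvPolynomial.map res (E i)) y).det ≠ 0) :
    ∃ x : ι → V, (∀ i, MvPolynomial.eval x (E i) = 0) ∧ ∀ i, res (x i) = y i := by
  letI : Algebra V k := res.toAlgebra
  haveI := isStandardSmooth_etAlg E
  have hy' : ∀ i, aeval y (E i) = 0 := fun i => by
    rw [aeval_def, ← eval_map]; exact hy i
  have hdet : aeval y (Matrix.of fun i j => pderiv j (E i)).det ≠ 0 := by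
    rw [aeval_def, ← eval_map, RingHom.map_det, RingHom.map_det]
    convert hJ using 2
    ext i j
    show eval y (MvPolynomial.map res (pderiv j (E i))) = eval y (pderiv j (MvPolynomial.map res (E i)))
    rw [pderiv_map]
  obtain ⟨f, hf⟩ := exists_etHom E y hy' (inv_mul_cancel₀ hdet)
  set Q := RingHom.ker f.toRingHom
  haveI : Q.IsPrime := RingHom.ker_isPrime _
  haveI : Q.LiesOver (IsLocalRing.maximalIdeal V) := ⟨by
    ext v
    rw [← hker, Ideal.under_def, Ideal.mem_comap, RingHom.mem_ker]
    exact (f.commutes v).symm ▸ Iff.rfl⟩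
  obtain ⟨P, hPQ, hPprime, hPover⟩ :=
    Ideal.exists_ideal_le_liesOver_of_le (p := (⊥ : Ideal V)) (q := IsLocalRing.maximalIdeal V) Q bot_le
  haveI := hPprime
  let L := FractionRing (EtAlg E ⧸ P)
  let π : EtAlg E →ₐ[V] L := (IsScalarTower.toAlgHom V (EtAlg E ⧸ P) L).comp (Ideal.Quotient.mkₐ V P)
  have hπ : ∀ b, π b = 0 ↔ b ∈ P := fun b => by
    show algebraMap (EtAlg E ⧸ P) L (Ideal.Quotient.mk P b) = 0 ↔ _
    rw [IsFractionRing.to_map_eq_zero_iff, Ideal.Quotient.eq_zero_iff_mem]
  have hinj : Function.Injective (algebraMap V L) := (injective_iff_map_eq_zero _).mpr fun v hv => by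
    rw [← π.commutes v, hπ] at hv
    have : v ∈ P.under V := hv
    rwa [← hPover.over, Ideal.mem_bot] at this
  letI : Algebra K L := (IsFractionRing.lift hinj).toAlgebra
  haveI : IsScalarTower V K L := .of_algebraMap_eq fun v =>
    (IsFractionRing.lift_algebraMap hinj v).symm
  haveI : Module.Finite K (TensorProduct V K (EtAlg E)) :=
    Algebra.FormallyUnramified.finite_of_free (R := K) (S := TensorProduct V K (EtAlg E))
  let Φ : TensorProduct V K (EtAlg E) →ₐ[K] L :=
    Algebra.TensorProduct.lift (Algebra.ofId K L) π fun _ _ => Commute.all _ _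
  have halg : ∀ b, ∃ c : K, algebraMap K L c = π b := fun b => by
    have hint : IsIntegral K (π b) := by
      have : π b = Φ (1 ⊗ₜ b) := by simp [Φ]
      rw [this]
      exact (Algebra.IsIntegral.isIntegral _).map Φ
    exact minpoly.mem_range_of_degree_eq_one K _
      (IsAlgClosed.degree_eq_one_of_irreducible K (minpoly.irreducible hint))
  choose c hc using halg
  let X' : ι → EtAlg E := fun j => Ideal.Quotient.mk _ (X (some j))
  have hV : ∀ j, c (X' j) ∈ V := fun j => by
    rcases V.mem_or_inv_mem (c (X' j)) with h | h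
    · exact h
    by_contra hn
    have hc0 : c (X' j) ≠ 0 := fun e => hn (e ▸ zero_mem V)
    have hm : (⟨_, h⟩ : V) ∈ IsLocalRing.maximalIdeal V := fun hu => hn (by
      obtain ⟨w, hw⟩ := isUnit_iff_exists_inv.mp hu
      have hw' : (c (X' j))⁻¹ * (w : K) = 1 := congrArg Subtype.val hw
      rw [inv_mul_eq_one₀ hc0] at hw'
      exact hw' ▸ w.2)
    have h1 : algebraMap V (EtAlg E) ⟨_, h⟩ * X' j - 1 ∈ Q := hPQ ((hπ _).mp (by
      rw [map_sub, map_mul, map_one, π.commutes, ← hc, IsScalarTower.algebraMap_apply V K L,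
        ← map_mul, show algebraMap V K ⟨_, h⟩ = (c (X' j))⁻¹ from rfl, inv_mul_cancel₀ hc0,
        map_one, sub_self]))
    have h2 : res ⟨_, h⟩ * y j - 1 = 0 := by
      rw [RingHom.mem_ker, map_sub, map_mul, map_one, AlgHom.toRingHom_eq_coe, RingHom.coe_coe,
        f.commutes, hf] at h1
      exact h1
    rw [(hker _).mpr hm, zero_mul, zero_sub, neg_eq_zero] at h2
    exact one_ne_zero h2
  have hx : ∀ j, algebraMap V L ⟨_, hV j⟩ = π (X' j) := fun j => by
    rw [IsScalarTower.algebraMap_apply V K L]; exact hc _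
  refine ⟨fun j => ⟨_, hV j⟩, fun i => hinj ?_, fun j => ?_⟩
  · have e1 : aeval X' (E i) = 0 := by
      have := (comp_aeval_apply (f := fun j => (X (some j) : MvPolynomial (Option ι) V))
        (Ideal.Quotient.mkₐ V (Ideal.span (Set.range (etEqns E)))) (E i)).symm
      refine this.trans ?_
      show Ideal.Quotient.mk _ _ = 0
      rw [Ideal.Quotient.eq_zero_iff_mem]
      exact Ideal.subset_span ⟨some i, by simp [etEqns, rename_eq_aeval, Function.comp_def]⟩
    have e2 : (fun j => π (X' j)) = fun j => algebraMap V L ⟨_, hV j⟩ := funext fun j => (hx j).symm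
    rw [map_zero, ← map_zero π, ← e1, comp_aeval_apply, e2]
    exact (aeval_algebraMap_apply L (fun j => (⟨_, hV j⟩ : V)) (E i)).symm
  · have h1 : X' j - algebraMap V (EtAlg E) ⟨_, hV j⟩ ∈ Q :=
      hPQ ((hπ _).mp (by rw [map_sub, π.commutes, hx, sub_self]))
    rw [RingHom.mem_ker, map_sub, AlgHom.toRingHom_eq_coe, RingHom.coe_coe, f.commutes, hf,
      sub_eq_zero] at h1
    exact h1.symm

/-- Nondegenerate zeros are finitely many. -/
theorem finite_zeros (E : ι → MvPolynomial ι K) :
    {y : ι → K | (∀ i, MvPolynomial.eval y (E i) = 0) ∧ (jacobianAt E y).det ≠ 0}.Finite := by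
  haveI := isStandardSmooth_etAlg E
  haveI : Module.Finite K (EtAlg E) := Algebra.FormallyUnramified.finite_of_free (R := K) (S := EtAlg E)
  refine (Set.Finite.pi fun j => Polynomial.finite_setOfPred_isRoot
    (p := minpoly K (Ideal.Quotient.mk _ (X (some j)) : EtAlg E))
    (minpoly.ne_zero (Algebra.IsIntegral.isIntegral _))).subset ?_
  rintro y ⟨hy, hJ⟩
  obtain ⟨f, hf⟩ := exists_etHom E y (fun i => by rw [aeval_eq_eval]; exact hy i)
    (w := ((jacobianAt E y).det)⁻¹)
    (by rw [aeval_eq_eval, eval_det, inv_mul_cancel₀ hJ])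
  intro j _
  show (minpoly K (Ideal.Quotient.mk _ (X (some j)) : EtAlg E)).IsRoot (y j)
  rw [Polynomial.IsRoot, ← Polynomial.coe_aeval_eq_eval, ← hf j, Polynomial.aeval_algHom_apply,
    minpoly.aeval, map_zero]

/-- Without infinitesimal deformations the Jacobian is nonzero. -/
theorem det_jacobianAt_ne_zero (E : ι → MvPolynomial ι K) (y : ι → K)
    (h : ∀ z : ι → K, (∀ i, TrivSqZeroExt.snd (MvPolynomial.aeval
      (fun j => (TrivSqZeroExt.inl (y j) + TrivSqZeroExt.inr (z j) : DualNumber K)) (E i)) = 0) →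
      z = 0) :
    (jacobianAt E y).det ≠ 0 := by
  intro hdet
  obtain ⟨z, hz0, hz⟩ := Matrix.exists_mulVec_eq_zero_iff.mpr hdet
  refine hz0 (h z fun i => ?_)
  have key : ∀ (D : ι → DualNumber K), (∀ j, TrivSqZeroExt.fst (D j) = y j) →
      (∀ j, TrivSqZeroExt.snd (D j) = z j) → ∀ p : MvPolynomial ι K,
      TrivSqZeroExt.fst (aeval D p) = eval y p ∧
        TrivSqZeroExt.snd (aeval D p) = ∑ j, eval y (pderiv j p) * z j := by
    intro D hf hs p
    induction p using MvPolynomial.induction_on with
    | C a => simp [TrivSqZeroExt.algebraMap_eq_inl]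
    | add p q hp hq => simp [hp.1, hp.2, hq.1, hq.2, add_mul, Finset.sum_add_distrib]
    | mul_X p l hp =>
      refine ⟨by simp [hp.1, hf], ?_⟩
      simp [hp.1, hp.2, hf, hs, pderiv_X, Pi.single_apply, Finset.mul_sum, apply_ite (eval y),
        mul_comm, add_comm]
      simp only [mul_add, Finset.sum_add_distrib, mul_ite, mul_zero, Finset.sum_ite_eq,
        Finset.mem_univ, if_true]
      congr 1
      exact Finset.sum_congr rfl fun j _ => by ring
  rw [(key _ (fun j => by simp) (fun j => by simp) _).2]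
  exact congrFun hz i

end Fermat.Agent.MCurve.T27
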