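/-
U2b: the square system of the torsion classes near a translate, and its Jacobian.
-/
import Fermat.Agent.MCurve.T27.Local
import Fermat.Agent.MCurve.T27.Hensel
import Fermat.Agent.MCurve.T27.Canonical
import Fermat.Agent.MCurve.T27.DualPoly
import Fermat.Agent.MCurve.MW.Formulas

set_option autoImplicit false
set_option linter.unusedSectionVars false

noncomputable section

namespace Fermat.Agent.MCurve.T27

open AlgebraicCurve RR MW Polynomial
open scoped Classical

section Sys

variable {S : Type*} [CommRing S] {g n m : ℕ} (hm : m + g = n * g) (P H0 : S[X][X])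
  (H : Fin m → S[X][X])

theorem chiPoly_monic (y : Var g n m → S) : (chiPoly y).Monic :=
  monic_X_pow_add (degree_sum_fin_lt fun j : Fin g => y (.inl (.inl j)))

theorem natDegree_chiPoly [Nontrivial S] (y : Var g n m → S) : (chiPoly y).natDegree = g := by
  have h : (∑ j : Fin g, C (y (.inl (.inl j))) * Polynomial.X ^ (j : ℕ)).degree < (g : WithBot ℕ) :=
    degree_sum_fin_lt fun j : Fin g => y (.inl (.inl j))
  refine natDegree_eq_of_degree_eq_some ?_
  rw [chiPoly, degree_add_eq_left_of_degree_lt (by rwa [degree_X_pow]), degree_X_pow]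

variable {T : Type*} [CommRing T] (φ : S →+* T)

theorem map_chiPoly (y : Var g n m → S) : (chiPoly y).map φ = chiPoly (φ ∘ y) := by
  simp [chiPoly, Polynomial.map_sum]

theorem map_rPoly (y : Var g n m → S) : (rPoly y).map φ = rPoly (φ ∘ y) := by
  simp [rPoly, Polynomial.map_sum]

theorem map_uPoly (y : Var g n m → S) :
    (uPoly H0 H y).map (mapRingHom φ) =
      uPoly (H0.map (mapRingHom φ)) (fun k => (H k).map (mapRingHom φ)) (φ ∘ y) := by
  simp [uPoly, Polynomial.map_sum]

theorem map_eval_map (Q : S[X][X]) (r : S[X]) :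
    (Q.eval r).map φ = (Q.map (mapRingHom φ)).eval (r.map φ) := by
  rw [eval_map, ← coe_mapRingHom, eval₂_at_apply]

theorem map_remPair (y : Var g n m → S) (i : Eqn g n) :
    φ (remPair P H0 H y i) = remPair (P.map (mapRingHom φ)) (H0.map (mapRingHom φ))
      (fun k => (H k).map (mapRingHom φ)) (φ ∘ y) i := by
  rcases i with j | j <;>
    simp only [remPair, Sum.elim_inl, Sum.elim_inr] <;>
    rw [← coeff_map, map_modByMonic _ ((chiPoly_monic y).pow n), Polynomial.map_pow, map_chiPoly,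
      map_eval_map, map_rPoly]
  rw [map_uPoly]

theorem hom_sys (ψ : MvPolynomial (Var g n m) S →+* T) (i : Var g n m) :
    ψ (sys hm P H0 H i) = remPair (P.map (mapRingHom (ψ.comp MvPolynomial.C)))
      (H0.map (mapRingHom (ψ.comp MvPolynomial.C)))
      (fun k => (H k).map (mapRingHom (ψ.comp MvPolynomial.C))) (ψ ∘ MvPolynomial.X)
      (Fintype.equivOfCardEq (card_var_eq_card_eqn hm) i) := by
  rw [sys, map_remPair]
  simp only [constXX, Polynomial.map_map, mapRingHom_comp]

theorem map_sys (i : Var g n m) :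
    MvPolynomial.map φ (sys hm P H0 H i) = sys hm (P.map (mapRingHom φ)) (H0.map (mapRingHom φ))
      (fun k => (H k).map (mapRingHom φ)) i := by
  have hC : (MvPolynomial.map φ : MvPolynomial (Var g n m) S →+* _).comp MvPolynomial.C =
      MvPolynomial.C.comp φ := RingHom.ext fun x => MvPolynomial.map_C φ x
  have hX : (MvPolynomial.map φ ∘ MvPolynomial.X : Var g n m → MvPolynomial (Var g n m) T) =
      MvPolynomial.X := funext fun v => MvPolynomial.map_X φ v
  rw [hom_sys, sys, hC, hX]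
  simp only [constXX, Polynomial.map_map, mapRingHom_comp]

theorem forall_remPair_eq_zero [Nontrivial S] (y : Var g n m → S) :
    (∀ i, remPair P H0 H y i = 0) ↔
      chiPoly y ^ n ∣ P.eval (rPoly y) ∧ chiPoly y ^ n ∣ (uPoly H0 H y).eval (rPoly y) := by
  have key : ∀ Q : S[X], (∀ j : Fin (n * g), (Q %ₘ chiPoly y ^ n).coeff j = 0) ↔
      chiPoly y ^ n ∣ Q := fun Q => by
    rw [← modByMonic_eq_zero_iff_dvd ((chiPoly_monic y).pow n)]
    refine ⟨fun h => Polynomial.ext fun j => ?_, fun h j => by rw [h, coeff_zero]⟩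
    rw [coeff_zero]
    rcases lt_or_ge j (n * g) with hj | hj
    · exact h ⟨j, hj⟩
    · refine coeff_eq_zero_of_degree_lt ((degree_modByMonic_lt _ ((chiPoly_monic y).pow n)).trans_le ?_)
      refine degree_le_natDegree.trans ?_
      rw [(chiPoly_monic y).natDegree_pow, natDegree_chiPoly]
      exact_mod_cast hj
  rw [← key, ← key, Sum.forall]
  rfl

theorem sys_zero_iff [Nontrivial S] (y : Var g n m → S) :
    (∀ i, MvPolynomial.eval y (sys hm P H0 H i) = 0) ↔
      chiPoly y ^ n ∣ P.eval (rPoly y) ∧ chiPoly y ^ n ∣ (uPoly H0 H y).eval (rPoly y) := by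
  rw [← forall_remPair_eq_zero P H0 H y]
  have hC : (MvPolynomial.eval y).comp MvPolynomial.C = RingHom.id S :=
    RingHom.ext fun x => MvPolynomial.eval_C x
  have hX : (MvPolynomial.eval y ∘ MvPolynomial.X : Var g n m → S) = y :=
    funext fun v => MvPolynomial.eval_X v
  simp only [hom_sys, hC, hX, mapRingHom_id, Polynomial.map_id]
  exact (Fintype.equivOfCardEq (card_var_eq_card_eqn hm)).forall_congr_left.trans (by simp)

end Sys

section Tangent

variable {K : Type*} [Field K] {g n m : ℕ}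

/-- The coefficients of the deviation of `chiPoly`. -/
def dChi (z : Var g n m → K) : K[X] := ∑ j : Fin g, C (z (.inl (.inl j))) * Polynomial.X ^ (j : ℕ)

/-- The deviation of `uPoly`. -/
def dU (H : Fin m → K[X][X]) (z : Var g n m → K) : K[X][X] := ∑ k, C (C (z (.inr k))) * H k

/-- The equations for a tangent vector. -/
theorem tangent_eqs (hm : m + g = n * g) (P H0 : K[X][X]) (H : Fin m → K[X][X])
    (y z : Var g n m → K)
    (hz : ∀ i, TrivSqZeroExt.snd (MvPolynomial.aeval (fun j => (TrivSqZeroExt.inl (y j) +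
      TrivSqZeroExt.inr (z j) : DualNumber K)) (sys hm P H0 H i)) = 0)
    (hy : ∀ i, MvPolynomial.eval y (sys hm P H0 H i) = 0) :
    ∃ q q' qU qU' : K[X], P.eval (rPoly y) = chiPoly y ^ n * q ∧
      P.derivative.eval (rPoly y) * rPoly z =
        chiPoly y ^ n * q' + (n : K[X]) * chiPoly y ^ (n - 1) * dChi z * q ∧
      (uPoly H0 H y).eval (rPoly y) = chiPoly y ^ n * qU ∧
      (uPoly H0 H y).derivative.eval (rPoly y) * rPoly z + (dU H z).eval (rPoly y) =
        chiPoly y ^ n * qU' + (n : K[X]) * chiPoly y ^ (n - 1) * dChi z * qU := by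
  set yε : Var g n m → DualNumber K := fun j => TrivSqZeroExt.inl (y j) + TrivSqZeroExt.inr (z j)
  set ev : MvPolynomial (Var g n m) K →+* DualNumber K := (MvPolynomial.aeval yε).toRingHom
  have h0 : ∀ i, ev (sys hm P H0 H i) = 0 := fun i => by
    refine TrivSqZeroExt.ext ?_ (hz i)
    have e : ((TrivSqZeroExt.fstHom K K K).toRingHom.comp ev) = MvPolynomial.eval y :=
      MvPolynomial.ringHom_ext (fun x => by simp [ev, TrivSqZeroExt.algebraMap_eq_inl])
        (fun v => by simp [ev, yε])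
    exact (RingHom.congr_fun e _).trans (hy i)
  have hC : ev.comp MvPolynomial.C = algebraMap K (DualNumber K) :=
    RingHom.ext fun x => by simp [ev]
  have hX : (ev ∘ MvPolynomial.X : Var g n m → DualNumber K) = yε := funext fun v => by simp [ev]
  have h1 : ∀ i, remPair (P.map (dι K)) (H0.map (dι K)) (fun k => (H k).map (dι K)) yε i = 0 :=
    fun i => by
      obtain ⟨v, rfl⟩ := (Fintype.equivOfCardEq (card_var_eq_card_eqn hm)).surjective i
      have h2 := h0 v
      rw [hom_sys, hC, hX] at h2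
      exact h2
  obtain ⟨⟨c, hc⟩, ⟨c', hc'⟩⟩ := (forall_remPair_eq_zero _ _ _ yε).mp h1
  have eχ : chiPoly yε = dι K (chiPoly y) + dE K * dι K (dChi z) := by
    simp only [chiPoly, dChi, yε, dual_C]
    simp only [map_add, map_sum, map_pow, map_mul, coe_mapRingHom,
      Polynomial.map_X, Finset.mul_sum]
    rw [add_assoc, ← Finset.sum_add_distrib]
    exact congrArg _ (Finset.sum_congr rfl fun j _ => by ring)
  have er : rPoly yε = dι K (rPoly y) + dE K * dι K (rPoly z) := by
    simp only [rPoly, yε, dual_C, map_sum, map_mul, map_pow, coe_mapRingHom, Polynomial.map_X,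
      Finset.mul_sum]
    rw [← Finset.sum_add_distrib]
    exact Finset.sum_congr rfl fun j _ => by ring
  have eU : uPoly (H0.map (dι K)) (fun k => (H k).map (dι K)) yε =
      (uPoly H0 H y).map (dι K) + C (dE K) * (dU H z).map (dι K) := by
    simp only [uPoly, dU, yε, dual_C]
    simp only [C_add, C_mul, Polynomial.map_add, Polynomial.map_sum,
      Polynomial.map_mul, Polynomial.map_C, Finset.mul_sum]
    rw [add_assoc, ← Finset.sum_add_distrib]
    exact congrArg _ (Finset.sum_congr rfl fun k _ => by ring)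
  rw [eχ, er, dual_pow, dual_eval] at hc
  rw [eχ, er, eU, dual_pow, eval_add, eval_mul, eval_C, dual_eval, dual_eval, mul_add (dE K),
    ← mul_assoc (dE K) (dE K), dE_mul_dE, zero_mul, add_zero, add_assoc, ← mul_add (dE K),
    ← map_add] at hc'
  obtain ⟨q, q', rfl⟩ := dual_split c
  obtain ⟨qU, qU', rfl⟩ := dual_split c'
  rw [dual_mul] at hc hc'
  obtain ⟨e1, e2⟩ := dual_ext hc
  obtain ⟨e3, e4⟩ := dual_ext hc'
  exact ⟨q, q', qU, qU', e1, e2, e3, e4⟩

end Tangent

variable {K F : Type*} [Field K] [Field F] [Algebra K F] [IsAlgClosed K]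
  [∀ v : Place K F, v.FiniteResidue] [HasPrincipalDivisors K F] [Nonempty (Place K F)]

/-- The data of a system: a base tuple, a function `e` vanishing to order `n` on it, and the
functions `v e` with `v` having poles bounded by `n` on the tuple. -/
structure EqData {X : Setup K F} (Co : Coordinate X) (n : ℕ) where
  /-- The base tuple. -/
  Qa : X.Tup
  /-- The multiplier. -/
  e : F
  /-- The pole order of the multiplier. -/
  M : ℕ
  e_mem : e ∈ riemannRochSpace (Finsupp.single X.inf (M : ℤ) - n • X.divT Qa)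
  e_inf : X.inf.ord e = -(M : ℤ)
  e_ne : e ≠ 0
  /-- The number of free coefficients. -/
  m : ℕ
  hm : m + X.g = n * X.g
  /-- The function with coefficient one. -/
  u0 : F
  /-- The other functions. -/
  u : Fin m → F
  /-- The clearing exponent. -/
  N : ℕ
  /-- The polynomial of `u0`. -/
  H0 : K[X][X]
  /-- The polynomials of the other functions. -/
  H : Fin m → K[X][X]
  clear0 : aeval X.f (Co.Δ ^ N) * u0 = ev2 X.f Co.w H0
  clear : ∀ k, aeval X.f (Co.Δ ^ N) * u k = ev2 X.f Co.w (H k)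
  u0_mem : u0 / e ∈ riemannRochSpace (n • X.divT Qa)
  u_mem : ∀ k, u k / e ∈ riemannRochSpace (n • X.divT Qa)
  indep : LinearIndependent K fun o : Option (Fin m) => o.elim u0 u
  span : ∀ v ∈ riemannRochSpace (n • X.divT Qa),
    v * e ∈ Submodule.span K (Set.range fun o : Option (Fin m) => o.elim u0 u)

variable {X : Setup K F} {Co : Coordinate X} {n : ℕ}

/-- The system of the data. -/
def EqData.system (E : EqData Co n) : Var X.g n E.m → MvPolynomial (Var X.g n E.m) K :=
  sys E.hm Co.P E.H0 E.H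

/-- The multiplier has no further zero on the tuple. -/
def EqData.Off (E : EqData Co n) (Q : X.Tup) : Prop :=
  ∀ i, (Q i).1.ord E.e = n * X.divT E.Qa (Q i).1

theorem X_sub_C_pow_dvd_prod_pow {Q : X.Tup} (n : ℕ) (i : Fin X.g) :
    (Polynomial.X - C (X.fv Q i)) ^ n ∣ (∏ i, (Polynomial.X - C (X.fv Q i))) ^ n :=
  pow_dvd_pow_of_dvd (Finset.dvd_prod_of_mem _ (Finset.mem_univ i)) n

theorem prod_pow_dvd {Q : X.Tup} (hV : X.V Q ≠ 0) {n : ℕ} {p : K[X]}
    (h : ∀ i, (Polynomial.X - C (X.fv Q i)) ^ n ∣ p) :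
    (∏ i, (Polynomial.X - C (X.fv Q i))) ^ n ∣ p := by
  rw [← Finset.prod_pow]
  exact Finset.prod_dvd_of_coprime (fun i _ j _ hij => (isCoprime_X_sub_C_of_isUnit_sub
    (sub_ne_zero.mpr ((Setup.V_ne_zero_iff.mp hV).ne hij)).isUnit).pow) fun i _ => h i

/-- The combination with given coefficients. -/
def EqData.comb (E : EqData Co n) (x : Fin E.m → K) : F := E.u0 + ∑ k, x k • E.u k

theorem EqData.clear_sum (E : EqData Co n) (x : Fin E.m → K) :
    aeval X.f (Co.Δ ^ E.N) * ∑ k, x k • E.u k = ev2 X.f Co.w (∑ k, C (C (x k)) * E.H k) := by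
  rw [ev2L_sum, Finset.mul_sum]
  refine Finset.sum_congr rfl fun k _ => ?_
  rw [mul_smul_comm, E.clear k, ev2L_mul, ev2L_C, aeval_C, Algebra.smul_def]

theorem EqData.clear_comb (E : EqData Co n) (y : Var X.g n E.m → K) :
    aeval X.f (Co.Δ ^ E.N) * E.comb (fun k => y (.inr k)) =
      ev2 X.f Co.w (uPoly E.H0 E.H y) := by
  rw [EqData.comb, mul_add, E.clear0, E.clear_sum, uPoly, ev2L_add]

theorem EqData.comb_ne_zero (E : EqData Co n) (x : Fin E.m → K) : E.comb x ≠ 0 := fun h => by
  have := Fintype.linearIndependent_iff.mp E.indep (fun o => o.elim 1 x) (by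
    simpa [Fintype.sum_option, EqData.comb] using h) none
  exact one_ne_zero this

theorem EqData.comb_div_mem (E : EqData Co n) (x : Fin E.m → K) :
    E.comb x / E.e ∈ riemannRochSpace (n • X.divT E.Qa) := by
  rw [EqData.comb, add_div, Finset.sum_div]
  refine add_mem E.u0_mem (sum_mem fun k _ => ?_)
  rw [smul_div_assoc]
  exact Submodule.smul_mem _ _ (E.u_mem k)

theorem EqData.sum_div_mem (E : EqData Co n) (x : Fin E.m → K) :
    (∑ k, x k • E.u k) / E.e ∈ riemannRochSpace (n • X.divT E.Qa) := by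
  rw [Finset.sum_div]
  refine sum_mem fun k _ => ?_
  rw [smul_div_assoc]
  exact Submodule.smul_mem _ _ (E.u_mem k)

/-- With the orders at the tuple, the divisor of the quotient is exact. -/
theorem EqData.div_eq (E : EqData Co n) {Q : X.Tup} (hV : X.V Q ≠ 0) (hoff : E.Off Q)
    (x : Fin E.m → K) (hx : ∀ i, (n : ℤ) ≤ (Q i).1.ord (E.comb x)) :
    n • X.divT Q = n • X.divT E.Qa + divOf K (E.comb x / E.e) := by
  have hv0 : E.comb x / E.e ≠ 0 := div_ne_zero (E.comb_ne_zero x) E.e_ne
  have hmem := (mem_space_iff_of_ne hv0).mp (E.comb_div_mem x)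
  refine eq_of_le_of_degree (Finsupp.le_def.mpr fun w => ?_) ?_
  · rw [Finsupp.add_apply, divOf_apply, Finsupp.smul_apply, Finsupp.smul_apply]
    have h0 := Finsupp.le_def.mp hmem w
    rw [Finsupp.add_apply, divOf_apply, Finsupp.smul_apply, Finsupp.zero_apply] at h0
    by_cases hw : ∃ i, (Q i).1 = w
    · obtain ⟨i, rfl⟩ := hw
      have h1 : X.divT Q (Q i).1 = 1 := by
        rw [X.divT_apply, Nat.cast_eq_one, Finset.card_eq_one]
        exact ⟨i, Finset.ext fun j => by
          simp [← Subtype.ext_iff, (Setup.fv_injective hV).eq_iff]⟩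
      rw [h1, div_eq_mul_inv, Place.ord_mul _ (E.comb_ne_zero x) (inv_ne_zero E.e_ne),
        Place.ord_inv, hoff i]
      have := hx i
      simp only [nsmul_eq_mul, mul_one]
      omega
    · rw [X.divT_apply Q, Finset.filter_false_of_mem fun i _ h => hw ⟨i, h⟩]
      simpa using h0
  · rw [map_add, degree_divOf, map_nsmul, map_nsmul, X.degree_divT, X.degree_divT, add_zero]

theorem eval_of_eval_eq {r : K[X]} {c w : K} (hr : r.eval c = w) (H : K[X][X]) :
    (H.eval r).eval c = H.evalEval c w := by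
  obtain ⟨p, hp⟩ := sub_dvd_eval_sub r (C w) H
  have h2 := congrArg (Polynomial.eval c) hp
  rwa [eval_sub, eval_mul, eval_sub, hr, eval_C, sub_self, zero_mul, sub_eq_zero] at h2

theorem divT_self {Q : X.Tup} (hV : X.V Q ≠ 0) (i : Fin X.g) : X.divT Q (Q i).1 = 1 := by
  rw [X.divT_apply, Nat.cast_eq_one, Finset.card_eq_one]
  exact ⟨i, Finset.ext fun j => by
    simp [← Subtype.ext_iff, (Setup.fv_injective hV).eq_iff]⟩

/-- A deviation of the function vanishing to order `n - 1` on the tuple is zero. -/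
theorem EqData.deviation_eq_zero (E : EqData Co n) {Q : X.Tup} (hQ : X.IsRegT Q) (hoff : E.Off Q)
    (x z : Fin E.m → K) (hx : ∀ i, (n : ℤ) ≤ (Q i).1.ord (E.comb x))
    (hz : ∀ i, ∑ k, z k • E.u k = 0 ∨
      ((n - 1 : ℕ) : ℤ) ≤ (Q i).1.ord (∑ k, z k • E.u k)) : z = 0 := by
  set a := E.comb x with ha
  set da := ∑ k, z k • E.u k with hda
  have ha0 : a ≠ 0 := E.comb_ne_zero x
  have hdiv := E.div_eq hQ.1 hoff x hx
  have hq : da / a ∈ riemannRochSpace (X.divT Q) := by
    rcases eq_or_ne da 0 with h0 | h0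
    · rw [h0, zero_div]; exact zero_mem _
    have hdv : da / E.e ≠ 0 := div_ne_zero h0 E.e_ne
    have hm2 := Finsupp.le_def.mp ((mem_space_iff_of_ne hdv).mp (E.sum_div_mem z))
    refine (mem_space_iff_of_ne (div_ne_zero h0 ha0)).mpr (Finsupp.le_def.mpr fun w => ?_)
    have h1 := congrArg (fun D : Divisor K F => D w) hdiv
    have h2 := hm2 w
    simp only [Finsupp.add_apply, divOf_apply, Finsupp.smul_apply, Finsupp.zero_apply,
      nsmul_eq_mul] at h1 h2 ⊢
    rw [div_eq_mul_inv, Place.ord_mul _ h0 (inv_ne_zero ha0), Place.ord_inv]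
    rw [div_eq_mul_inv, Place.ord_mul _ ha0 (inv_ne_zero E.e_ne), Place.ord_inv] at h1
    rw [div_eq_mul_inv, Place.ord_mul _ h0 (inv_ne_zero E.e_ne), Place.ord_inv] at h2
    by_cases hw : ∃ i, (Q i).1 = w
    · obtain ⟨i, rfl⟩ := hw
      rw [divT_self hQ.1 i] at h1 ⊢
      have h4 := (hz i).resolve_left h0
      rw [hoff i] at h1
      omega
    · have h3 : X.divT Q w = 0 := by
        rw [X.divT_apply Q, Finset.filter_false_of_mem fun i _ h => hw ⟨i, h⟩]; simp
      rw [h3] at h1 ⊢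
      omega
  obtain ⟨κ, hκ⟩ : ∃ κ : K, da / a = algebraMap K F κ := by
    have h1 : (1 : F) ∈ riemannRochSpace (X.divT Q) :=
      (mem_space_iff_of_ne one_ne_zero).mpr (Finsupp.le_def.mpr fun w => by
        simpa [divOf_apply] using Finsupp.le_def.mp (X.divT_nonneg Q) w)
    obtain ⟨κ, hκ⟩ := exists_smul_eq_of_finrank_eq_one hQ.2
      (x := (⟨1, h1⟩ : riemannRochSpace (X.divT Q)))
      (fun h => one_ne_zero (congrArg Subtype.val h)) ⟨_, hq⟩
    exact ⟨κ, by rw [Algebra.algebraMap_eq_smul_one]; exact (congrArg Subtype.val hκ).symm⟩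
  have hlin := Fintype.linearIndependent_iff.mp E.indep
    (fun o => o.elim (-κ) fun k => z k - κ * x k) (by
      have h1 : da = κ • a := by rw [Algebra.smul_def, ← hκ, div_mul_cancel₀ _ ha0]
      simp only [Fintype.sum_option, Option.elim_none, Option.elim_some, sub_smul,
        Finset.sum_sub_distrib, mul_smul, ← Finset.smul_sum, neg_smul]
      rw [← hda, h1, ha, EqData.comb, smul_add]
      abel)
  have hκ0 : κ = 0 := by simpa using hlin none
  funext k
  simpa [hκ0] using hlin (some k)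

/-- The function has order exactly `n` on the tuple. -/
theorem EqData.value_ne_zero (E : EqData Co n) {Q : X.Tup} (hV : X.V Q ≠ 0) (hgood : Co.Good Q)
    (hoff : E.Off Q) (y : Var X.g n E.m → K)
    (hy : ∀ i, (n : ℤ) ≤ (Q i).1.ord (E.comb fun k => y (.inr k)))
    {r χ q qU : K[X]} (hχ : χ = ∏ i, (Polynomial.X - C (X.fv Q i)))
    (e1 : Co.P.eval r = χ ^ n * q) (e3 : (uPoly E.H0 E.H y).eval r = χ ^ n * qU)
    (i : Fin X.g) (hr : r.eval (X.fv Q i) = Co.wv Q i) :
    (qU * Co.P.derivative.eval r - q * (uPoly E.H0 E.H y).derivative.eval r).eval (X.fv Q i) ≠ 0 := by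
  intro hW0
  set U := uPoly E.H0 E.H y
  set a := E.comb (fun k => y (.inr k))
  set c := X.fv Q i
  set w₀ := Co.wv Q i
  obtain ⟨RU, hRU, hevU⟩ := exists_ev2_split X.f Co.w U r
  obtain ⟨RP, hRP, hevP⟩ := exists_ev2_split X.f Co.w Co.P r
  have hRd : ∀ (H R : K[X][X]), H = C (H.eval r) + (Polynomial.X - C r) * R →
      R.evalEval c w₀ = (H.derivative.eval r).eval c := fun H R hH => by
    rw [eval_of_eval_eq hr]
    conv_rhs => rw [hH]
    simp [evalEval, hr]
  have hder : (Co.P.derivative.eval r).eval c ≠ 0 := by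
    have hroot : eval₂ (RingHom.id K) w₀ (Co.P.map (evalRingHom c)) = 0 := Co.isRoot (Q i)
    have h := (Co.sep c (hgood i)).eval₂_derivative_ne_zero (RingHom.id K) hroot
    rwa [eval₂_id, derivative_map, map_evalRingHom_eval, ← eval_of_eval_eq hr] at h
  rw [Co.root, e1, map_mul, map_pow] at hevP
  rw [e3, map_mul, map_pow, ← E.clear_comb y] at hevU
  obtain ⟨hP1, hP2⟩ := Co.valAt_ev2 (Q i) RP
  obtain ⟨hU1, hU2⟩ := Co.valAt_ev2 (Q i) RU
  obtain ⟨hq1, hq2⟩ := Coordinate.valAt_aeval_f (Q i) (-q)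
  obtain ⟨hqU1, hqU2⟩ := Coordinate.valAt_aeval_f (Q i) qU
  set B := aeval X.f qU * ev2 X.f Co.w RP + aeval X.f (-q) * ev2 X.f Co.w RU with hB
  have hkey : aeval X.f (Co.Δ ^ E.N) * a * ev2 X.f Co.w RP = aeval X.f χ ^ n * B := by
    rw [hB, hevU, map_neg]
    linear_combination (ev2 X.f Co.w RU) * (-hevP)
  have hBm : B ∈ (Q i).1.toValuationSubring := add_mem (mul_mem hqU1 hP1) (mul_mem hq1 hU1)
  have hB0 : B = 0 ∨ 0 < (Q i).1.ord B := (valAt_eq_zero_iff hBm).mp (by
    rw [hB, valAt_add (mul_mem hqU1 hP1) (mul_mem hq1 hU1), valAt_mul hqU1 hP1,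
      valAt_mul hq1 hU1, hP2, hU2, hqU2, hq2]
    change qU.eval c * RP.evalEval c w₀ + (-q).eval c * RU.evalEval c w₀ = 0
    rw [hRd _ _ hRP, hRd _ _ hRU, eval_neg]
    simp only [eval_sub, eval_mul] at hW0
    linear_combination hW0)
  obtain ⟨hRPne, hRPord⟩ := ord_eq_zero_of_valAt hP1 (by
    rw [hP2]; change RP.evalEval c w₀ ≠ 0; rw [hRd _ _ hRP]; exact hder)
  obtain ⟨hN0, hNord⟩ := Co.ord_clear (hgood i) E.N
  have ha0 : a ≠ 0 := E.comb_ne_zero _
  have hB1 : B ≠ 0 := fun h => by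
    rw [h, mul_zero] at hkey
    exact mul_ne_zero (mul_ne_zero hN0 ha0) hRPne hkey
  have hB2 := hB0.resolve_left hB1
  have hchi0 : aeval X.f χ ≠ 0 := aeval_f_ne_zero (by
    rw [hχ]; exact (monic_prod_of_monic _ _ fun i _ => monic_X_sub_C _).ne_zero)
  have h1 : 1 ≤ (Q i).1.ord (aeval X.f χ) := by
    rcases (valAt_eq_zero_iff (Coordinate.valAt_aeval_f (Q i) χ).1).mp (by
      rw [(Coordinate.valAt_aeval_f (Q i) χ).2, hχ, eval_prod]
      exact Finset.prod_eq_zero (Finset.mem_univ i) (by simp [Setup.fv])) with h | h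
    · exact absurd h hchi0
    · exact h
  have h2 := congrArg (Q i).1.ord hkey
  rw [Place.ord_mul _ (mul_ne_zero hN0 ha0) hRPne, Place.ord_mul _ hN0 ha0, hNord, hRPord,
    Place.ord_mul _ (pow_ne_zero _ hchi0) hB1, MCurve.ord_pow] at h2
  have h3 : (n : ℤ) * 1 ≤ (n : ℤ) * (Q i).1.ord (aeval X.f χ) :=
    mul_le_mul_of_nonneg_left h1 (Int.natCast_nonneg n)
  have h4 := congrArg (fun D : Divisor K F => D (Q i).1) (E.div_eq hV hoff _ hy)
  simp only [Finsupp.add_apply, divOf_apply, Finsupp.smul_apply, nsmul_eq_mul] at h4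
  rw [divT_self hV i, div_eq_mul_inv, Place.ord_mul _ ha0 (inv_ne_zero E.e_ne), Place.ord_inv,
    hoff i] at h4
  omega

/-- A regular torsion tuple gives a nondegenerate zero. -/
theorem EqData.exists_zero (E : EqData Co n) (hn : (n : K) ≠ 0) {Q : X.Tup} (hQ : X.IsRegT Q)
    (hgood : Co.Good Q) (hoff : E.Off Q) (x : Fin E.m → K)
    (hx : ∀ i, (n : ℤ) ≤ (Q i).1.ord (E.u0 + ∑ k, x k • E.u k)) :
    ∃ y : Var X.g n E.m → K, (∀ i, MvPolynomial.eval y (E.system i) = 0) ∧
      (jacobianAt E.system y).det ≠ 0 ∧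
      chiPoly y = ∏ i, (Polynomial.X - C (X.fv Q i)) ∧
      (∀ i, (rPoly y).eval (X.fv Q i) = Co.wv Q i) ∧ ∀ k, y (.inr k) = x k := by
  have hn0 : 0 < n := Nat.pos_of_ne_zero fun h => hn (by rw [h, Nat.cast_zero])
  have hV := hQ.1
  obtain ⟨r, hrdeg, hrw, hrP⟩ := Co.exists_interp hV hgood hn0
  set χ : K[X] := ∏ i, (Polynomial.X - C (X.fv Q i)) with hχdef
  have hχm : χ.Monic := monic_prod_of_monic _ _ fun i _ => monic_X_sub_C _
  have hχd : χ.natDegree = X.g := by
    rw [hχdef, natDegree_prod_of_monic _ _ fun i _ => monic_X_sub_C _]; simp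
  set y : Var X.g n E.m → K :=
    Sum.elim (Sum.elim (fun j => χ.coeff j) fun j => r.coeff j) x with hy
  have hchi : chiPoly y = χ := by
    conv_rhs => rw [hχm.as_sum, hχd,
      ← Fin.sum_univ_eq_sum_range (fun i => C (χ.coeff i) * Polynomial.X ^ i)]
    simp only [chiPoly, hy, Sum.elim_inl]
  have hr : rPoly y = r := by
    rcases eq_or_ne r 0 with h0 | h0
    · simp [rPoly, hy, h0]
    conv_rhs => rw [as_sum_range' r _ ((natDegree_lt_iff_degree_lt h0).mpr hrdeg),
      ← Fin.sum_univ_eq_sum_range (fun i => monomial i (r.coeff i))]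
    simp [rPoly, hy, C_mul_X_pow_eq_monomial]
  have hxy : E.comb (fun k => y (.inr k)) = E.u0 + ∑ k, x k • E.u k := rfl
  have hzero : ∀ i, MvPolynomial.eval y (E.system i) = 0 := by
    refine (sys_zero_iff E.hm _ _ _ y).mpr ⟨by rw [hchi, hr]; exact hrP, ?_⟩
    rw [hchi, hr]
    exact prod_pow_dvd hV fun i => (Co.le_ord_iff (hgood i) (E.clear_comb y) (hrw i)
      ((X_sub_C_pow_dvd_prod_pow n i).trans hrP)).mp (Or.inr (hx i))
  refine ⟨y, hzero, det_jacobianAt_ne_zero _ _ fun z hz => ?_, hchi, fun i => hr ▸ hrw i,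
    fun k => rfl⟩
  obtain ⟨q, q', qU, qU', e1, e2, e3, e4⟩ := tangent_eqs E.hm Co.P E.H0 E.H y z hz hzero
  rw [hchi, hr] at e1 e2 e3 e4
  have hder : ∀ i, (Co.P.derivative.eval r).eval (X.fv Q i) ≠ 0 := fun i => by
    have hroot : eval₂ (RingHom.id K) (Co.wv Q i) (Co.P.map (evalRingHom (X.fv Q i))) = 0 :=
      Co.isRoot (Q i)
    have h := (Co.sep _ (hgood i)).eval₂_derivative_ne_zero (RingHom.id K) hroot
    rwa [eval₂_id, derivative_map, map_evalRingHom_eval, ← eval_of_eval_eq (hrw i)] at h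
  have hcop : ∀ (i : Fin X.g) (j : ℕ), IsCoprime ((Polynomial.X - C (X.fv Q i)) ^ j)
      (Co.P.derivative.eval r) := fun i j =>
    IsCoprime.pow_left ((irreducible_X_sub_C _).coprime_iff_not_dvd.mpr fun h =>
      hder i (dvd_iff_isRoot.mp h))
  have hχn : χ ^ n = χ ^ (n - 1) * χ := by rw [← pow_succ, Nat.sub_add_cancel hn0]
  have hsmall : ∀ (i : Fin X.g) (p p' : K[X]), (Polynomial.X - C (X.fv Q i)) ^ (n - 1) ∣
      χ ^ n * p + (n : K[X]) * χ ^ (n - 1) * dChi z * p' := fun i p p' => by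
    rw [hχn]
    exact dvd_add (((X_sub_C_pow_dvd_prod_pow (n - 1) i).mul_right χ).mul_right p)
      ((((X_sub_C_pow_dvd_prod_pow (n - 1) i).mul_left _).mul_right _).mul_right _)
  have hdr : ∀ i, (Polynomial.X - C (X.fv Q i)) ^ (n - 1) ∣ rPoly z := fun i =>
    (hcop i (n - 1)).dvd_of_dvd_mul_left (e2 ▸ hsmall i q' q)
  have hdU : ∀ i, (Polynomial.X - C (X.fv Q i)) ^ (n - 1) ∣ (dU E.H z).eval r := fun i => by
    have h1 := hsmall i qU' qU
    rw [← e4] at h1
    exact (dvd_add_right ((hdr i).mul_left _)).mp h1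
  have hzx : (fun k => z (.inr k)) = 0 := E.deviation_eq_zero hQ hoff x _ hx fun i =>
    (Co.le_ord_iff (hgood i) (H := dU E.H z) (E.clear_sum fun k => z (.inr k)) (hrw i)
      ((pow_dvd_pow _ (Nat.sub_le n 1)).trans ((X_sub_C_pow_dvd_prod_pow n i).trans hrP))).mpr
      (hdU i)
  have hdU0 : dU E.H z = 0 :=
    Finset.sum_eq_zero fun k _ => by rw [congrFun hzx k]; simp
  rw [hdU0, eval_zero, add_zero] at e4
  -- the polynomial of the values is rigid
  have hW := fun i => E.value_ne_zero hV hgood hoff y hx hχdef e1 e3 i (hrw i)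
  have hχ0 : χ ^ (n - 1) ≠ 0 := pow_ne_zero _ hχm.ne_zero
  have hdchi : dChi z = 0 := by
    have h1 : χ ^ (n - 1) * ((n : K[X]) * dChi z *
        (qU * Co.P.derivative.eval r - q * (uPoly E.H0 E.H y).derivative.eval r)) =
        χ ^ (n - 1) * (χ * ((uPoly E.H0 E.H y).derivative.eval r * q' -
          Co.P.derivative.eval r * qU')) := by
      rw [hχn] at e2 e4
      linear_combination ((uPoly E.H0 E.H y).derivative.eval r) * e2 -
        (Co.P.derivative.eval r) * e4
    have h2 := mul_left_cancel₀ hχ0 h1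
    refine eq_zero_of_degree_lt_of_eval_index_eq_zero Finset.univ
      (Setup.V_ne_zero_iff.mp hV).injOn
      (by simpa [dChi] using degree_sum_fin_lt fun j : Fin X.g => z (.inl (.inl j))) fun i _ => ?_
    have h3 := congrArg (Polynomial.eval (X.fv Q i)) h2
    rw [eval_mul, eval_mul, eval_natCast, eval_mul,
      show χ.eval (X.fv Q i) = 0 by
        rw [hχdef, eval_prod]; exact Finset.prod_eq_zero (Finset.mem_univ i) (by simp),
      zero_mul, mul_eq_zero, mul_eq_zero, or_iff_left (hW i), or_iff_right hn] at h3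
    exact h3
  rw [hdchi, mul_zero, zero_mul, add_zero] at e2
  have hdr0 : rPoly z = 0 := by
    by_contra h0
    have h1 : χ ^ n ∣ rPoly z := prod_pow_dvd hV fun i =>
      (hcop i n).dvd_of_dvd_mul_left (by
        rw [e2]; exact (X_sub_C_pow_dvd_prod_pow n i).mul_right _)
    have h2 := natDegree_le_of_dvd h1 h0
    have h3 : (rPoly z).degree < (n * X.g : ℕ) :=
      degree_sum_fin_lt fun j : Fin (n * X.g) => z (.inl (.inr j))
    rw [← natDegree_lt_iff_degree_lt h0] at h3
    rw [hχm.natDegree_pow, hχd] at h2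
    omega
  funext v
  rcases v with (j | j) | k
  · have := congrArg (fun p : K[X] => p.coeff j) hdchi
    simpa [dChi, coeff_X_pow, Fin.val_inj] using this
  · have := congrArg (fun p : K[X] => p.coeff j) hdr0
    simpa [rPoly, coeff_X_pow, Fin.val_inj] using this
  · exact congrFun hzx k

/-- A zero gives a tuple whose class is torsion over the base. -/
theorem EqData.of_zero (E : EqData Co n) (hn : 0 < n) (y : Var X.g n E.m → K)
    (hy : ∀ i, MvPolynomial.eval y (E.system i) = 0) (hsep : (chiPoly y).Separable)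
    (hΔ : ∀ c, (chiPoly y).IsRoot c → Co.Δ.eval c ≠ 0) :
    ∃ Q : X.Tup, X.V Q ≠ 0 ∧ Co.Good Q ∧
      chiPoly y = ∏ i, (Polynomial.X - C (X.fv Q i)) ∧
      (∀ i, (rPoly y).eval (X.fv Q i) = Co.wv Q i) ∧
      (E.Off Q → n • X.clT Q = n • X.clT E.Qa) := by
  obtain ⟨hP, hU⟩ := (sys_zero_iff E.hm _ _ _ y).mp hy
  set χ := chiPoly y with hχ
  have hroots : χ.roots.toFinset.card = X.g := by
    rw [Multiset.toFinset_card_of_nodup (nodup_roots hsep),
      ← (IsAlgClosed.splits χ).natDegree_eq_card_roots, hχ, natDegree_chiPoly]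
  let e := (Finset.equivFinOfCardEq hroots).symm
  have hroot : ∀ i, χ.IsRoot (e i).1 := fun i =>
    (mem_roots (chiPoly_monic y).ne_zero).mp (Multiset.mem_toFinset.mp (e i).2)
  choose Pt hPf hPw using fun i => Co.exists_pt (w₀ := (rPoly y).eval (e i).1) (hΔ _ (hroot i)) (by
    rw [IsRoot, map_evalRingHom_eval, evalEval]
    obtain ⟨p, hp⟩ := sub_dvd_eval_sub (rPoly y) (C ((rPoly y).eval (e i).1)) Co.P
    have h2 := congrArg (Polynomial.eval (e i).1) hp
    rw [eval_sub, eval_mul, eval_sub, eval_C, sub_self, zero_mul, sub_eq_zero] at h2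
    rw [← h2]
    exact dvd_iff_isRoot.mp (((dvd_iff_isRoot.mpr (hroot i)).trans (dvd_pow_self _ hn.ne')).trans hP))
  have hfv : ∀ i, X.fv Pt i = (e i).1 := hPf
  have hinj : Function.Injective (X.fv Pt) := fun i j h =>
    e.injective (Subtype.ext (by rw [← hfv i, ← hfv j, h]))
  have hV : X.V Pt ≠ 0 := Setup.V_ne_zero_iff.mpr hinj
  have hprod : χ = ∏ i, (Polynomial.X - C (X.fv Pt i)) := by
    rw [(IsAlgClosed.splits χ).eq_prod_roots_of_monic (chiPoly_monic y),
      show χ.roots = χ.roots.toFinset.val by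
        rw [Multiset.toFinset_val, (nodup_roots hsep).dedup],
      ← Finset.prod_eq_multiset_prod, ← Finset.prod_coe_sort]
    exact (Fintype.prod_equiv e _ (fun c => Polynomial.X - C c.1) fun i => by rw [hfv i]).symm
  have hgood : Co.Good Pt := fun i => by rw [hfv i]; exact hΔ _ (hroot i)
  have hw : ∀ i, (rPoly y).eval (X.fv Pt i) = Co.wv Pt i := fun i => by
    rw [hfv i, Coordinate.wv, hPw i]
  refine ⟨Pt, hV, hgood, hprod, hw, fun hoff => ?_⟩
  have hord : ∀ i, (n : ℤ) ≤ (Pt i).1.ord (E.comb fun k => y (.inr k)) := fun i => by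
    refine ((Co.le_ord_iff (hgood i) (E.clear_comb y) (hw i) ?_).mpr ?_).resolve_left
      (E.comb_ne_zero _)
    · exact ((X_sub_C_pow_dvd_prod_pow n i).trans (dvd_of_eq (by rw [← hprod]))).trans hP
    · exact ((X_sub_C_pow_dvd_prod_pow n i).trans (dvd_of_eq (by rw [← hprod]))).trans hU
  have hdiv := E.div_eq hV hoff _ hord
  rw [Setup.clT, Setup.clT, Pic0.mk, Pic0.mk, ← QuotientAddGroup.mk_nsmul,
    ← QuotientAddGroup.mk_nsmul, eq_comm, QuotientAddGroup.eq, AddSubgroup.mem_addSubgroupOf]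
  refine ⟨E.comb (fun k => y (.inr k)) / E.e, div_ne_zero (E.comb_ne_zero _) E.e_ne, fun w => ?_⟩
  rw [← divOf_apply (K := K), AddSubgroup.coe_add, AddSubgroup.coe_neg, AddSubgroup.coe_nsmul,
    AddSubgroup.coe_nsmul]
  refine congrArg (fun D : Divisor K F => D w) ?_
  show -(n • (X.divT E.Qa - _)) + n • (X.divT Pt - _) = _
  rw [nsmul_sub, nsmul_sub, hdiv]
  abel

/-- A family completing a vector of a subspace to a basis. -/
theorem exists_family_cons {k V : Type*} [Field k] [AddCommGroup V] [Module k V]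
    (W : Submodule k V) {v : V} (hv : v ∈ W) (hv0 : v ≠ 0) {m : ℕ}
    (hdim : Module.finrank k W = m + 1) : ∃ b : Fin m → V, (∀ i, b i ∈ W) ∧
      LinearIndependent k (fun o : Option (Fin m) => o.elim v b) ∧
      W ≤ Submodule.span k (Set.range fun o : Option (Fin m) => o.elim v b) := by
  haveI : FiniteDimensional k W := Module.finite_of_finrank_pos (by omega)
  have hv0' : (⟨v, hv⟩ : W) ≠ 0 := fun h => hv0 (congrArg Subtype.val h)
  obtain ⟨C₀, hC₀⟩ := (Submodule.span k {(⟨v, hv⟩ : W)}).exists_isCompl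
  have h1 := Submodule.finrank_add_eq_of_isCompl hC₀
  rw [finrank_span_singleton hv0'] at h1
  have bC : Module.Basis (Fin m) k C₀ := Module.finBasisOfFinrankEq k C₀ (by omega)
  have hli : LinearIndependent k fun o : Option (Fin m) =>
      o.elim (⟨v, hv⟩ : W) fun i => (bC i : W) := by
    refine linearIndependent_option.mpr
      ⟨bC.linearIndependent.map' C₀.subtype (Submodule.ker_subtype _), fun hmem => hv0' ?_⟩
    refine Submodule.disjoint_def.mp hC₀.disjoint _ (Submodule.mem_span_singleton_self _) ?_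
    refine Submodule.span_le.mpr ?_ hmem
    rintro _ ⟨i, rfl⟩
    exact (bC i).2
  have hspan := hli.span_eq_top_of_card_eq_finrank' (by
    rw [Fintype.card_option, Fintype.card_fin, hdim])
  have he : (fun o : Option (Fin m) => o.elim v fun i => ((bC i : W) : V)) =
      W.subtype ∘ fun o => o.elim (⟨v, hv⟩ : W) fun i => (bC i : W) :=
    funext fun o => by cases o <;> rfl
  refine ⟨fun i => ((bC i : W) : V), fun i => (bC i : W).2, ?_, ?_⟩
  · rw [he]; exact hli.map' _ (Submodule.ker_subtype _)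
  · rw [he, Set.range_comp, Submodule.span_image, hspan, Submodule.map_top,
      Submodule.range_subtype]

/-- Data with a prescribed first function. -/
theorem exists_eqData (Co : Coordinate X) {n : ℕ} (hn : 2 ≤ n) (Qa : X.Tup) {e : F} {M : ℕ}
    (he : e ∈ riemannRochSpace (Finsupp.single X.inf (M : ℤ) - n • X.divT Qa))
    (he' : X.inf.ord e = -(M : ℤ)) (he0 : e ≠ 0) {v : F}
    (hv : v ∈ riemannRochSpace (n • X.divT Qa)) (hv0 : v ≠ 0) :
    ∃ E : EqData Co n, E.Qa = Qa ∧ E.e = e ∧ E.u0 = v * e := by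
  have hdeg : Divisor.degree (n • X.divT Qa) = ((n * X.g : ℕ) : ℤ) := by
    rw [map_nsmul, X.degree_divT]; simp
  have h2 : 2 * X.g ≤ n * X.g := Nat.mul_le_mul_right _ hn
  have hdim := ell_eq_of_degree X (D := n • X.divT Qa) (by rw [hdeg]; omega)
  rw [hdeg] at hdim
  obtain ⟨b, hb, hli, hspan⟩ := exists_family_cons (riemannRochSpace (n • X.divT Qa)) hv hv0
    (m := n * X.g - X.g) (by change ell _ = _; omega)
  have hw : ∀ o : Option (Fin (n * X.g - X.g)),
      o.elim v b ∈ riemannRochSpace (n • X.divT Qa) := fun o => by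
    cases o
    · exact hv
    · exact hb _
  have hL : ∀ o : Option (Fin (n * X.g - X.g)), o.elim v b * e ∈ X.L M := fun o => by
    have := mul_mem_space (hw o) he
    rwa [add_sub_cancel] at this
  choose N₀ H₀ hH₀ using fun o : Option (Fin (n * X.g - X.g)) => Co.clear M _ (hL o)
  have hH : ∀ o, aeval X.f (Co.Δ ^ ∑ o, N₀ o) * (o.elim v b * e) =
      ev2 X.f Co.w (C (Co.Δ ^ ((∑ o, N₀ o) - N₀ o)) * H₀ o) := fun o => by
    rw [ev2L_mul, ev2L_C, ← hH₀ o]
    conv_lhs => rw [← Nat.sub_add_cancel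
      (Finset.single_le_sum (fun o _ => Nat.zero_le (N₀ o)) (Finset.mem_univ o)), pow_add, map_mul]
    ring
  have hmul : (fun o : Option (Fin (n * X.g - X.g)) => o.elim (v * e) fun k => b k * e) =
      LinearMap.mulRight K e ∘ fun o => o.elim v b :=
    funext fun o => by cases o <;> rfl
  refine ⟨{
    Qa := Qa
    e := e
    M := M
    e_mem := he
    e_inf := he'
    e_ne := he0
    m := n * X.g - X.g
    hm := by omega
    u0 := v * e
    u := fun k => b k * e
    N := ∑ o, N₀ o
    H0 := C (Co.Δ ^ ((∑ o, N₀ o) - N₀ none)) * H₀ none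
    H := fun k => C (Co.Δ ^ ((∑ o, N₀ o) - N₀ (some k))) * H₀ (some k)
    clear0 := hH none
    clear := fun k => hH (some k)
    u0_mem := by rw [mul_div_cancel_right₀ _ he0]; exact hv
    u_mem := fun k => by rw [mul_div_cancel_right₀ _ he0]; exact hb k
    indep := by
      rw [hmul]
      exact hli.map' _ (LinearMap.ker_eq_bot.mpr fun a a' h => mul_right_cancel₀ he0 h)
    span := fun a ha => by
      rw [hmul, Set.range_comp, Submodule.span_image]
      exact ⟨a, hspan ha, rfl⟩ }, rfl, rfl, rfl⟩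

end Fermat.Agent.MCurve.T27
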