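/-
U2c: every class has a good translate outside a hypersurface of bounded degree.
-/
import Fermat.Agent.MCurve.T27.Defs
import Fermat.Agent.MCurve.MW.DescentKey

set_option autoImplicit false
set_option linter.unusedSectionVars false

noncomputable section

namespace Fermat.Agent.MCurve.T27

open AlgebraicCurve RR MW
open scoped Classical

variable {K F : Type*} [Field K] [Field F] [Algebra K F] [IsAlgClosed K]
  [∀ v : Place K F, v.FiniteResidue] [HasPrincipalDivisors K F] [Nonempty (Place K F)]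
  {X : Setup K F} (Co : Coordinate X)

theorem exists_good_fun : ∃ n, ∃ Φ ∈ X.PF n, Φ ≠ 0 ∧ ∀ Q, Φ Q ≠ 0 → X.IsRegT Q ∧ Co.Good Q := by
  obtain ⟨n, ρ, hρ, hρ0, hρr⟩ := X.exists_regden
  obtain ⟨m, hm⟩ := X.exists_polyFv (∏ i : Fin X.g, Polynomial.aeval (MvPolynomial.X i) Co.Δ)
  have he : ∀ Q : X.Tup,
      MvPolynomial.eval (X.fv Q) (∏ i : Fin X.g, Polynomial.aeval (MvPolynomial.X i) Co.Δ) =
        ∏ i, Co.Δ.eval (X.fv Q i) := fun Q => by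
    rw [map_prod]
    refine Finset.prod_congr rfl fun i _ => ?_
    rw [← MvPolynomial.coe_aeval_eq_eval, AlgHom.coe_toRingHom, ← Polynomial.aeval_algHom_apply,
      MvPolynomial.aeval_X, Polynomial.coe_aeval_eq_eval]
  obtain ⟨c, hc⟩ : ∃ c : K, Co.Δ.eval c ≠ 0 := by
    by_contra hne
    push Not at hne
    exact Co.Δ_ne (Polynomial.zero_of_eval_zero _ hne)
  obtain ⟨P, hP⟩ := X.exists_fv_eq c
  refine ⟨n + m, _, Setup.mul_mem_PF hρ hm, X.mul_ne_zero_PF hρ hm hρ0 fun h => ?_,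
    fun Q hQ => ?_⟩
  · have h1 := congrFun h (fun _ => P)
    simp only [he, Setup.fv, hP, Pi.zero_apply, Finset.prod_eq_zero_iff] at h1
    obtain ⟨i, -, hi⟩ := h1
    exact hc hi
  · rw [Pi.mul_apply, mul_ne_zero_iff] at hQ
    refine ⟨hρr Q hQ.1, fun i h => hQ.2 ?_⟩
    rw [he]
    exact Finset.prod_eq_zero (Finset.mem_univ i) h

/-- A class translates a general good regular tuple to a good regular tuple. -/
theorem Coordinate.exists_translate_fun : ∃ D : ℕ, ∀ t : Pic0 K F, ∃ Φ ∈ X.PF D, Φ ≠ 0 ∧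
    ∀ Qa : X.Tup, Φ Qa ≠ 0 → X.IsRegT Qa ∧ Co.Good Qa ∧
      ∃ Q : X.Tup, X.IsRegT Q ∧ Co.Good Q ∧ X.clT Q = t + X.clT Qa := by
  obtain ⟨n₀, Φ₀, hΦ₀, hΦ₀0, hΦ₀g⟩ := exists_good_fun Co
  obtain ⟨Gd, hGd, hGdΦ⟩ := X.exists_good hΦ₀ hΦ₀0
  obtain ⟨κ, hκ⟩ := X.exists_formulas
  refine ⟨n₀ + (κ * (1 + 1) ^ 2 + Gd.totalDegree * (κ * (1 + 1) ^ 2)), fun t => ?_⟩
  obtain ⟨Fu⟩ := hκ t 1
  obtain ⟨su, Qu, hQu, hGu⟩ := X.exists_formula_good Fu Gd hGd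
  obtain ⟨Ψ', hΨ₁, hΨ₂⟩ := X.exists_cleared Gd le_rfl (fun i => Fu.num su i) (Fu.den su)
    (fun i => Fu.num_mem su i) (Fu.den_mem su)
  have hmem := Setup.mul_mem_PF (Fu.den_mem su) hΨ₁
  refine ⟨_, Setup.mul_mem_PF hΦ₀ hmem, X.mul_ne_zero_PF hΦ₀ hmem hΦ₀0 fun h => ?_,
    fun Qa hQa => ?_⟩
  · have h1 := congrFun h Qu
    rw [Pi.mul_apply, Pi.zero_apply, mul_eq_zero, hΨ₂ Qu hQu, mul_eq_zero] at h1
    exact h1.elim hQu fun h2 => h2.elim (fun h3 => pow_ne_zero _ hQu h3) hGu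
  · rw [Pi.mul_apply, Pi.mul_apply, mul_ne_zero_iff, mul_ne_zero_iff] at hQa
    obtain ⟨-, hreg, hx⟩ := Fu.sound su Qa hQa.2.1
    rw [one_nsmul] at hreg hx
    obtain ⟨R, hR, hRc⟩ := hreg
    refine ⟨(hΦ₀g Qa hQa.1).1, (hΦ₀g Qa hQa.1).2, R, hR, (hΦ₀g R (hGdΦ R hR ?_)).2, hRc⟩
    intro h0
    refine hQa.2.2 ?_
    rw [hΨ₂ Qa hQa.2.1, ← funext hx, ← hRc, Setup.xc_clT hR, h0, mul_zero]

/-- Finitely many classes have a common good translate. -/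
theorem Coordinate.exists_common_translate (T : Finset (Pic0 K F)) :
    ∃ Qa : X.Tup, X.IsRegT Qa ∧ Co.Good Qa ∧ ∀ t ∈ T,
      ∃ Q : X.Tup, X.IsRegT Q ∧ Co.Good Q ∧ X.clT Q = t + X.clT Qa := by
  obtain ⟨D, hD⟩ := Co.exists_translate_fun
  choose Φ hΦ hΦ0 hΦ' using hD
  obtain ⟨Qa, hQa⟩ := Function.ne_iff.mp
    (X.prod_ne_zero_PF (insert 0 T) (fun _ => D) Φ (fun t _ => hΦ t) fun t _ => hΦ0 t)
  rw [Pi.zero_apply, Finset.prod_apply, Finset.prod_ne_zero_iff] at hQa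
  exact ⟨Qa, (hΦ' 0 Qa (hQa 0 (Finset.mem_insert_self _ _))).1,
    (hΦ' 0 Qa (hQa 0 (Finset.mem_insert_self _ _))).2.1,
    fun t ht => (hΦ' t Qa (hQa t (Finset.mem_insert_of_mem ht))).2.2⟩

/-- Finitely many tuples serve all classes. -/
theorem Coordinate.exists_translates : ∃ S : Finset X.Tup, ∀ t : Pic0 K F,
    ∃ Qa ∈ S, X.IsRegT Qa ∧ Co.Good Qa ∧
      ∃ Q : X.Tup, X.IsRegT Q ∧ Co.Good Q ∧ X.clT Q = t + X.clT Qa := by
  obtain ⟨D, hD⟩ := Co.exists_translate_fun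
  haveI := X.infinite_Pt
  obtain ⟨S, hS⟩ := Infinite.exists_subset_card_eq X.Pt (D + 1)
  refine ⟨Fintype.piFinset fun _ => S, fun t => ?_⟩
  obtain ⟨Φ, hΦ, hΦ0, hΦ'⟩ := hD t
  obtain ⟨Qa, hQS, hQa⟩ := X.exists_grid hΦ hΦ0 S (by omega)
  exact ⟨Qa, Fintype.mem_piFinset.mpr hQS, hΦ' Qa hQa⟩

end Fermat.Agent.MCurve.T27
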