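/-
U2d: finiteness of torsion.
-/
import Fermat.Agent.MCurve.T27.System
import Fermat.Agent.MCurve.T27.Translates

set_option autoImplicit false
set_option linter.unusedSectionVars false

noncomputable section

namespace Fermat.Agent.MCurve.T27

open AlgebraicCurve RR MW
open scoped Classical

variable {K F : Type*} [Field K] [Field F] [Algebra K F] [IsAlgClosed K]
  [∀ v : Place K F, v.FiniteResidue] [HasPrincipalDivisors K F] [Nonempty (Place K F)]
  {X : Setup K F}

/-- The same data with the functions permuted. -/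
theorem EqData.exists_reindex {Co : Coordinate X} {n : ℕ} (E : EqData Co n)
    (σ : Equiv.Perm (Option (Fin E.m))) :
    ∃ E' : EqData Co n, E'.Qa = E.Qa ∧ E'.e = E.e ∧ ∃ h : E'.m = E.m, ∀ o : Option (Fin E'.m),
      o.elim E'.u0 E'.u = ((σ (o.map (Fin.cast h))).elim E.u0 E.u) := by
  have hmem : ∀ o : Option (Fin E.m),
      o.elim E.u0 E.u / E.e ∈ riemannRochSpace (n • X.divT E.Qa) := fun o => by
    cases o
    · exact E.u0_mem
    · exact E.u_mem _
  have hclear : ∀ o : Option (Fin E.m), Polynomial.aeval X.f (Co.Δ ^ E.N) * o.elim E.u0 E.u = ev2 X.f Co.w (o.elim E.H0 E.H) := fun o => by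
    cases o
    · exact E.clear0
    · exact E.clear _
  refine ⟨{ E with
    u0 := (σ none).elim E.u0 E.u
    u := fun k => (σ (some k)).elim E.u0 E.u
    H0 := (σ none).elim E.H0 E.H
    H := fun k => (σ (some k)).elim E.H0 E.H
    clear0 := hclear _
    clear := fun k => hclear _
    u0_mem := hmem _
    u_mem := fun k => hmem _
    indep := by
      have h := E.indep.comp σ σ.injective
      convert h using 1
      funext o
      cases o <;> rfl
    span := fun v hv => by
      have e : (fun o : Option (Fin E.m) => o.elim ((σ none).elim E.u0 E.u)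
          fun k => (σ (some k)).elim E.u0 E.u) = (fun o => o.elim E.u0 E.u) ∘ σ :=
        funext fun o => by cases o <;> rfl
      rw [e, σ.surjective.range_comp]
      exact E.span v hv }, rfl, rfl, rfl, fun o => by cases o <;> rfl⟩

/-- Finitely many multipliers serve all tuples. -/
theorem exists_multipliers (X : Setup K F) (n : ℕ) (Qa : X.Tup) :
    ∃ (M : ℕ) (Es : Finset F),
      (∀ e ∈ Es, e ≠ 0 ∧ e ∈ riemannRochSpace (Finsupp.single X.inf (M : ℤ) - n • X.divT Qa) ∧
        X.inf.ord e = -(M : ℤ)) ∧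
      ∀ Q : X.Tup, ∃ e ∈ Es, ∀ i, (Q i).1.ord e = n * X.divT Qa (Q i).1 := by
  set M := X.c + 1 + n * X.g with hM
  set A : Divisor K F := Finsupp.single X.inf (M : ℤ) - n • X.divT Qa with hA
  have hdA : (X.c : ℤ) + 1 ≤ Divisor.degree A := by
    rw [hA, map_sub, X.degree_L, map_nsmul, X.degree_divT, hM]
    push_cast
    simp
  obtain ⟨s, hs, t, ht, hs0, ht0, hst⟩ := X.hR.exists_pencil hdA
  obtain ⟨lams, hlams⟩ := Infinite.exists_subset_card_eq K (X.g + 2)
  -- each place spoils one coefficient at most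
  have hbad : ∀ (v : Place K F) (a b : K),
      (s + a • t = 0 ∨ v.ord (s + a • t) ≠ -A v) → (s + b • t = 0 ∨ v.ord (s + b • t) ≠ -A v) →
      a = b := by
    intro v a b h1 h2
    have hsub : ∀ c : K, (s + c • t = 0 ∨ v.ord (s + c • t) ≠ -A v) →
        s + c • t ∈ riemannRochSpace (A - Finsupp.single v 1) := fun c hc => by
      rcases eq_or_ne (s + c • t) 0 with h0 | h0
      · rw [h0]; exact zero_mem _
      have hin : s + c • t ∈ riemannRochSpace A := add_mem hs (Submodule.smul_mem _ c ht)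
      refine mem_space_iff.mpr (Or.inr fun w => ?_)
      have h3 := ((mem_space_iff.mp hin).resolve_left h0) w
      rw [Finsupp.sub_apply, Finsupp.single_apply]
      split_ifs with hw
      · subst hw; have := hc.resolve_left h0; omega
      · omega
    by_contra hne
    have h3 := sub_mem (hsub a h1) (hsub b h2)
    rw [show s + a • t - (s + b • t) = (a - b) • t by rw [sub_smul]; abel] at h3
    have ht' : t ∈ riemannRochSpace (A - Finsupp.single v 1) := by
      have := Submodule.smul_mem _ (a - b)⁻¹ h3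
      rwa [inv_smul_smul₀ (sub_ne_zero.mpr hne)] at this
    have hs' : s ∈ riemannRochSpace (A - Finsupp.single v 1) := by
      have := sub_mem (hsub a h1) (Submodule.smul_mem _ a ht')
      rwa [add_sub_cancel_right] at this
    have hlt : ∀ z ∈ riemannRochSpace (A - Finsupp.single v 1), z ≠ 0 → v.ord z ≠ -A v := by
      intro z hz hz0 e
      have := ((mem_space_iff.mp hz).resolve_left hz0) v
      rw [Finsupp.sub_apply, Finsupp.single_eq_same] at this
      omega
    rcases hst v with e | e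
    · exact hlt s hs' hs0 e
    · exact hlt t ht' ht0 e
  have hinfA : A X.inf = M := by
    rw [hA, Finsupp.sub_apply, Finsupp.smul_apply, X.divT_inf, Finsupp.single_eq_same]
    simp
  refine ⟨M, (lams.image fun a => s + a • t).filter fun e => e ≠ 0 ∧ X.inf.ord e = -(M : ℤ),
    fun e he => ?_, fun Q => ?_⟩
  · obtain ⟨hmem, h0, h1⟩ := Finset.mem_filter.mp he
    obtain ⟨a, -, rfl⟩ := Finset.mem_image.mp hmem
    exact ⟨h0, add_mem hs (Submodule.smul_mem _ a ht), h1⟩
  · let pts : Option (Fin X.g) → Place K F := fun o => o.elim X.inf fun i => (Q i).1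
    let bad : Option (Fin X.g) → Finset K := fun o => lams.filter fun a =>
      s + a • t = 0 ∨ (pts o).ord (s + a • t) ≠ -A (pts o)
    have hcard : (Finset.univ.biUnion bad).card ≤ X.g + 1 := by
      refine (Finset.card_biUnion_le).trans ((Finset.sum_le_card_nsmul _ _ 1 fun o _ => ?_).trans
        (by simp))
      exact Finset.card_le_one.mpr fun a ha b hb =>
        hbad _ a b (Finset.mem_filter.mp ha).2 (Finset.mem_filter.mp hb).2
    obtain ⟨a, ha, hagood⟩ := Finset.exists_mem_notMem_of_card_lt_card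
      (s := Finset.univ.biUnion bad) (t := lams) (by omega)
    have hgood : ∀ o, s + a • t ≠ 0 ∧ (pts o).ord (s + a • t) = -A (pts o) := fun o => by
      by_contra hcon
      refine hagood (Finset.mem_biUnion.mpr ⟨o, Finset.mem_univ o, Finset.mem_filter.mpr ⟨ha, ?_⟩⟩)
      tauto
    refine ⟨s + a • t, Finset.mem_filter.mpr ⟨Finset.mem_image.mpr ⟨a, ha, rfl⟩, (hgood none).1,
      ?_⟩, fun i => ?_⟩
    · have := (hgood none).2
      simp only [pts, Option.elim_none] at this
      rw [this, hinfA]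
    · have := (hgood (some i)).2
      simp only [pts, Option.elim_some] at this
      rw [this, hA, Finsupp.sub_apply, Finsupp.smul_apply, Finsupp.single_eq_of_ne (Q i).2]
      simp

/-- Torsion prime to the characteristic is finite. -/
theorem Coordinate.finite_torsion (Co : Coordinate X) {n : ℕ} (hn : (n : K) ≠ 0) :
    Finite {t : Pic0 K F // n • t = 0} := by
  have hn0 : n ≠ 0 := fun h => hn (by rw [h, Nat.cast_zero])
  rcases Nat.lt_or_ge n 2 with h1 | h2
  · obtain rfl : n = 1 := by omega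
    refine @Finite.of_subsingleton _ ⟨fun a b => Subtype.ext ?_⟩
    have ha := a.2
    have hb := b.2
    rw [one_nsmul] at ha hb
    rw [ha, hb]
  obtain ⟨S, hS⟩ := Co.exists_translates
  choose M Es hEs hEsQ using exists_multipliers X n
  have hone : ∀ Qa : X.Tup, (1 : F) ∈ riemannRochSpace (n • X.divT Qa) := fun Qa =>
    (mem_space_iff_of_ne one_ne_zero).mpr (Finsupp.le_def.mpr fun w => by
      have := Finsupp.le_def.mp (nsmul_nonneg (X.divT_nonneg Qa) n) w
      simpa [divOf_apply] using this)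
  choose E hE using fun (Qa : X.Tup) (e : Es Qa) =>
    exists_eqData Co h2 Qa (hEs Qa e.1 e.2).2.1 (hEs Qa e.1 e.2).2.2 (hEs Qa e.1 e.2).1
      (hone Qa) one_ne_zero
  choose E' hE'Qa hE'e hE'm hE'u using fun (Qa : X.Tup) (e : Es Qa)
    (σ : Equiv.Perm (Option (Fin (E Qa e).m))) => (E Qa e).exists_reindex σ
  let rel : (Qa : X.Tup) → (e : Es Qa) → (σ : Equiv.Perm (Option (Fin (E Qa e).m))) →
      (Var X.g n (E' Qa e σ).m → K) → Set (Pic0 K F) := fun Qa e σ y =>
    {t | ∃ Q : X.Tup, X.V Q ≠ 0 ∧ Co.Good Q ∧ X.clT Q = t + X.clT Qa ∧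
      chiPoly y = ∏ i, (Polynomial.X - Polynomial.C (X.fv Q i)) ∧
      ∀ i, (rPoly y).eval (X.fv Q i) = Co.wv Q i}
  have hsub : ∀ Qa e σ y, (rel Qa e σ y).Subsingleton := by
    rintro Qa e σ y t ⟨Q, hV, hg, hcl, hc, hw⟩ t' ⟨Q', hV', -, hcl', hc', hw'⟩
    have hex : ∀ i, ∃ j, X.fv Q' j = X.fv Q i := fun i => by
      have h1 : (∏ j, (Polynomial.X - Polynomial.C (X.fv Q' j))).eval (X.fv Q i) = 0 := by
        rw [← hc', hc, Polynomial.eval_prod]
        exact Finset.prod_eq_zero (Finset.mem_univ i) (by simp)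
      rw [Polynomial.eval_prod, Finset.prod_eq_zero_iff] at h1
      obtain ⟨j, -, hj⟩ := h1
      exact ⟨j, (sub_eq_zero.mp (by simpa using hj)).symm⟩
    choose π hπ using hex
    have hπi : Function.Injective π := fun i j h => Setup.V_ne_zero_iff.mp hV (by
      rw [← hπ i, ← hπ j, h])
    have hpt : ∀ i, Q i = Q' (π i) := fun i => Co.pt_ext (hg i) (hπ i).symm (by
      show Co.wv Q i = Co.wv Q' (π i)
      rw [← hw i, ← hw' (π i), hπ i])
    have hd : X.divT Q = X.divT Q' := by
      rw [Setup.divT, Setup.divT]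
      conv_rhs => rw [← (Equiv.ofBijective π ⟨hπi, Finite.surjective_of_injective hπi⟩).sum_comp]
      exact Finset.sum_congr rfl fun i _ => by rw [Equiv.ofBijective_apply, hpt i]
    have he : X.clT Q = X.clT Q' := by simp only [Setup.clT, hd]
    rw [hcl, hcl'] at he
    exact add_right_cancel he
  have hfin : (⋃ Qa ∈ (S : Set X.Tup), ⋃ e : Es Qa,
      ⋃ σ : Equiv.Perm (Option (Fin (E Qa e).m)),
      ⋃ y ∈ {y : Var X.g n (E' Qa e σ).m → K |
        (∀ i, MvPolynomial.eval y ((E' Qa e σ).system i) = 0) ∧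
          (jacobianAt (E' Qa e σ).system y).det ≠ 0}, rel Qa e σ y).Finite := by
    refine S.finite_toSet.biUnion fun Qa _ => Set.finite_iUnion fun e => Set.finite_iUnion fun σ => ?_
    exact (finite_zeros _).biUnion fun y _ => (hsub Qa e σ y).finite
  refine Set.Finite.to_subtype (hfin.subset fun t ht => ?_)
  obtain ⟨Qa, hQaS, -, -, Q, hQ, hgood, hcl⟩ := hS t
  obtain ⟨e, he, hoff⟩ := hEsQ Qa Q
  obtain ⟨hEQa, hEe, -⟩ := hE Qa ⟨e, he⟩
  set E₀ := E Qa ⟨e, he⟩ with hE₀
  replace hEe : E₀.e = e := hEe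
  -- the function of the torsion class
  have hcls : n • X.clT Qa = n • X.clT Q := by
    rw [hcl, nsmul_add, show n • t = 0 from ht, zero_add]
  rw [Setup.clT, Setup.clT, Pic0.mk, Pic0.mk, ← QuotientAddGroup.mk_nsmul,
    ← QuotientAddGroup.mk_nsmul, QuotientAddGroup.eq, AddSubgroup.mem_addSubgroupOf] at hcls
  obtain ⟨v, hv0, hv⟩ := hcls
  have hdiv : n • X.divT Q = n • X.divT Qa + divOf K v := by
    refine Finsupp.ext fun w => ?_
    have h1 := hv w
    rw [AddSubgroup.coe_add, AddSubgroup.coe_neg, AddSubgroup.coe_nsmul,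
      AddSubgroup.coe_nsmul] at h1
    rw [Finsupp.add_apply, divOf_apply, ← h1]
    simp only [Finsupp.add_apply, Finsupp.neg_apply, Finsupp.smul_apply, Finsupp.sub_apply,
      smul_sub]
    ring
  have hvL : v ∈ riemannRochSpace (n • X.divT Qa) :=
    (mem_space_iff_of_ne hv0).mpr (by rw [← hdiv]; exact nsmul_nonneg (X.divT_nonneg Q) n)
  obtain ⟨c, hc⟩ := (Submodule.mem_span_range_iff_exists_fun K).mp
    (E₀.span v (by rw [hEQa]; exact hvL))
  have hve : v * e ≠ 0 := mul_ne_zero hv0 (hEs Qa e he).1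
  obtain ⟨o₀, ho₀⟩ : ∃ o, c o ≠ 0 := by
    by_contra! h
    refine hve ?_
    rw [← hEe, ← hc]
    simp [h]
  set σ : Equiv.Perm (Option (Fin E₀.m)) := Equiv.swap none o₀ with hσ
  set E₁ := E' Qa ⟨e, he⟩ σ with hE₁
  have hm : E₁.m = E₀.m := hE'm Qa ⟨e, he⟩ σ
  have hu : ∀ o : Option (Fin E₁.m),
      o.elim E₁.u0 E₁.u = (σ (o.map (Fin.cast hm))).elim E₀.u0 E₀.u :=
    hE'u Qa ⟨e, he⟩ σ
  let x : Fin E₁.m → K := fun k => c (σ (some (Fin.cast hm k))) / c o₀
  have hcomb : E₁.u0 + ∑ k, x k • E₁.u k = (c o₀)⁻¹ • (v * e) := by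
    rw [← hEe, ← hc, ← Equiv.sum_comp σ, Fintype.sum_option, smul_add, Finset.smul_sum]
    refine congrArg₂ (· + ·) ?_ ?_
    · have h1 := hu none
      rw [Option.map_none] at h1
      have h2 : σ none = o₀ := Equiv.swap_apply_left _ _
      rw [h2] at h1 ⊢
      rw [inv_smul_smul₀ ho₀]
      exact h1
    · refine Fintype.sum_equiv (finCongr hm) _ _ fun k => ?_
      have h1 := hu (some k)
      rw [Option.map_some, Option.elim_some] at h1
      rw [finCongr_apply, smul_smul, h1]
      simp only [x, div_eq_mul_inv, mul_comm]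
  have hoff' : E₁.Off Q := fun i => by
    rw [hE₁, hE'e, hE'Qa, ← hE₀, hEQa, hEe]
    exact hoff i
  have hx : ∀ i, (n : ℤ) ≤ (Q i).1.ord (E₁.u0 + ∑ k, x k • E₁.u k) := fun i => by
    rw [hcomb, MCurve.ord_smul_const _ (inv_ne_zero ho₀),
      Place.ord_mul _ hv0 (hEs Qa e he).1, hoff i]
    have h1 := congrArg (fun D : Divisor K F => D (Q i).1) hdiv
    simp only [Finsupp.add_apply, divOf_apply, Finsupp.smul_apply, nsmul_eq_mul] at h1
    rw [divT_self hQ.1 i] at h1
    omega
  obtain ⟨y, hy, hdet, hchi, hw, -⟩ := E₁.exists_zero hn hQ hgood hoff' x hx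
  refine Set.mem_biUnion hQaS (Set.mem_iUnion.mpr ⟨⟨e, he⟩, Set.mem_iUnion.mpr ⟨σ, ?_⟩⟩)
  exact Set.mem_biUnion (x := y) ⟨hy, hdet⟩ ⟨Q, hQ.1, hgood, hcl, hchi, hw⟩

end Fermat.Agent.MCurve.T27
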