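/-
U4: torsion classes of a good reduction lift.
-/
import Fermat.Agent.MCurve.T27.Torsion
import Fermat.Agent.MCurve.T27.Bound
import Fermat.Agent.MCurve.T27.Lift.Spaces

set_option autoImplicit false
set_option linter.unusedSectionVars false
set_option linter.style.haveILetI false

noncomputable section

namespace Fermat.Agent.MCurve.T27

open AlgebraicCurve RR MW Polynomial
open scoped Classical

universe u v

/-- Classes with equal multiples differ by the divisor of a function. -/
theorem exists_fun_of_nsmul_clT_eq {K F : Type*} [Field K] [Field F] [Algebra K F] [IsAlgClosed K]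
    [∀ v : Place K F, v.FiniteResidue] [HasPrincipalDivisors K F] [Nonempty (Place K F)]
    {X : Setup K F} {n : ℕ} {Q Q' : X.Tup} (h : n • X.clT Q = n • X.clT Q') :
    ∃ v : F, v ≠ 0 ∧ ∀ P : Place K F, P.ord v = (n : ℤ) * (X.divT Q P - X.divT Q' P) := by
  have h0 : (QuotientAddGroup.mk
      (n • ((⟨_, X.divT_sub_mem Q⟩ : Divisor.degZero (K := K) (F := F)) -
        ⟨_, X.divT_sub_mem Q'⟩)) : Pic0 K F) = 0 := by
    rw [QuotientAddGroup.mk_nsmul, QuotientAddGroup.mk_sub, nsmul_sub]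
    exact sub_eq_zero.mpr h
  rw [QuotientAddGroup.eq_zero_iff, AddSubgroup.mem_addSubgroupOf] at h0
  obtain ⟨v, hv, hvo⟩ := h0
  refine ⟨v, hv, fun P => ?_⟩
  rw [← hvo P]
  simp

theorem sys_zero_transport {S : Type*} [CommRing S] {g g' n m : ℕ} (h : g = g')
    (hm : m + g = n * g) (hm' : m + g' = n * g') (P H0 : S[X][X]) (H : Fin m → S[X][X])
    (y : Var g n m → S) (hy : ∀ i, MvPolynomial.eval y (sys hm P H0 H i) = 0) :
    ∃ y' : Var g' n m → S, (∀ i, MvPolynomial.eval y' (sys hm' P H0 H i) = 0) ∧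
      chiPoly y' = chiPoly y ∧ rPoly y' = rPoly y := by
  subst h
  exact ⟨y, hy, rfl, rfl⟩

variable {K : Type u} {F : Type v} [Field K] [Field F] [Algebra K F] [IsAlgClosed K]
  [∀ v : Place K F, v.FiniteResidue] [HasPrincipalDivisors K F] [Nonempty (Place K F)]
  {k G : Type*} [Field k] [Field G] [Algebra k G] [IsAlgClosed k]
  [∀ v : Place k G, v.FiniteResidue] [HasPrincipalDivisors k G] [Nonempty (Place k G)]
  {X : Setup K F} {Co : Coordinate X} {Y : Setup k G} {Cy : Coordinate Y}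

theorem Model.ell_nsmul_divT (Mo : Model X Co Y Cy) {n : ℕ} (hn : 2 ≤ n) (Q' : X.Tup)
    (Q : Y.Tup) : (ell (n • X.divT Q') : ℤ) = n * X.g + 1 - X.g ∧
      (ell (n • Y.divT Q) : ℤ) = n * X.g + 1 - X.g := by
  have h2 : 2 * (X.g : ℤ) - 1 ≤ (n : ℤ) * X.g := by
    have : (2 : ℤ) * X.g ≤ (n : ℤ) * X.g :=
      mul_le_mul_of_nonneg_right (by exact_mod_cast hn) (Int.natCast_nonneg _)
    linarith
  constructor
  · rw [ell_eq_of_degree X (by rw [map_nsmul, degree_divT, nsmul_eq_mul]; exact h2), map_nsmul,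
      degree_divT, nsmul_eq_mul]
  · rw [ell_eq_of_degree Y (by rw [map_nsmul, degree_divT, nsmul_eq_mul, Mo.g_eq]; exact h2),
      map_nsmul, degree_divT, nsmul_eq_mul, Mo.g_eq]

set_option maxHeartbeats 1000000 in
/-- A torsion translate of the base tuple lifts. -/
theorem Model.exists_lift_torsion (Mo : Model X Co Y Cy) {n M : ℕ} (hn : (n : k) ≠ 0) (hn2 : 2 ≤ n)
    {Qa : Y.Tup} (hQa : Y.V Qa ≠ 0) (hQag : Cy.Good Qa) {Qa' : X.Tup} (hLa : Mo.LiftsT Qa' Qa)
    (e' : Mo.A) (he' : (e' : F) ∈ riemannRochSpace (Finsupp.single X.inf (M : ℤ) - n • X.divT Qa'))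
    (he'i : X.inf.ord (e' : F) = -(M : ℤ))
    (he : Mo.red e' ∈ riemannRochSpace (Finsupp.single Y.inf (M : ℤ) - n • Y.divT Qa))
    (hei : Y.inf.ord (Mo.red e') = -(M : ℤ)) (he0 : Mo.red e' ≠ 0)
    {Q : Y.Tup} (hQ : Y.IsRegT Q) (hQg : Cy.Good Q) (hcl : n • Y.clT Q = n • Y.clT Qa)
    (hoff : ∀ i, (Q i).1.ord (Mo.red e') = n * Y.divT Qa (Q i).1) :
    ∃ Q' : X.Tup, Mo.LiftsT Q' Q ∧ n • X.clT Q' = n • X.clT Qa' := by
  obtain ⟨hVa', -⟩ := hLa.spec hQa hQag
  have hell := Mo.ell_nsmul_divT hn2 Qa' Qa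
  obtain ⟨v, hv0, hvord⟩ := exists_fun_of_nsmul_clT_eq hcl
  have hv : v ∈ riemannRochSpace (n • Y.divT Qa) := mem_space_iff.mpr (Or.inr fun P => by
    have := mul_nonneg (Int.natCast_nonneg n) (Finsupp.le_def.mp (Y.divT_nonneg Q) P)
    rw [Finsupp.smul_apply, nsmul_eq_mul, hvord, mul_sub]
    linarith)
  obtain ⟨E, hEQ, hEe, hE0⟩ := exists_eqData Cy hn2 Qa he hei he0 hv hv0
  set b : Option (Fin E.m) → G := fun o => o.elim E.u0 E.u
  have hb : ∀ o, b o / Mo.red e' ∈ riemannRochSpace (n • Y.divT Qa) := by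
    rintro (_ | i)
    · have := E.u0_mem; rwa [hEe, hEQ] at this
    · have := E.u_mem i; rwa [hEe, hEQ] at this
  choose U hU hUr using fun o => hLa.exists_lift_section hQa hQag (by omega) e' he' he0 (hb o)
  replace hUr : ∀ o, Mo.red (U o) = b o := fun o => by rw [hUr o, div_mul_cancel₀ _ he0]
  obtain ⟨N, H, hH⟩ := Mo.exists_clear_common U
  have hfam : (fun o : Option (Fin E.m) => o.elim (U none : F) fun i => (U (some i) : F)) =
      fun o => (U o : F) := funext fun o => by cases o <;> rfl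
  have hind : LinearIndependent K fun o => (U o : F) :=
    Mo.linearIndependent_of_red U (by simpa only [hUr] using E.indep)
  have he0' : (e' : F) ≠ 0 := fun h => he0 (by rw [show e' = 0 from Subtype.ext h, map_zero])
  set W := (riemannRochSpace (n • X.divT Qa')).map (LinearMap.mulRight K (e' : F))
  have hW : Submodule.span K (Set.range fun o => (U o : F)) = W := by
    refine Submodule.eq_of_le_of_finrank_eq (Submodule.span_le.mpr ?_) ?_
    · rintro _ ⟨o, rfl⟩
      exact ⟨_, hU o, div_mul_cancel₀ _ he0'⟩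
    · rw [finrank_span_eq_card hind, Fintype.card_option, Fintype.card_fin,
        ← (Submodule.equivMapOfInjective (LinearMap.mulRight K (e' : F)) (mul_left_injective₀ he0') _).finrank_eq]
      have := congrArg (Nat.cast (R := ℤ)) E.hm
      push_cast [Mo.g_eq] at this
      have := hell.1
      simp only [ell] at this
      omega
  have hmX : E.m + X.g = n * X.g := by rw [← Mo.g_eq]; exact E.hm
  let EX : EqData Co n :=
    { Qa := Qa', e := (e' : F), M := M, e_mem := he', e_inf := he'i, e_ne := he0', m := E.m, hm := hmX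
      u0 := (U none : F), u := fun i => (U (some i) : F), N := N
      H0 := (H none).map (mapRingHom Mo.V.subtype)
      H := fun i => (H (some i)).map (mapRingHom Mo.V.subtype)
      clear0 := Mo.coe_clear (hH none), clear := fun i => Mo.coe_clear (hH (some i))
      u0_mem := hU none, u_mem := fun i => hU (some i)
      indep := by rw [hfam]; exact hind
      span := fun a ha => by rw [hfam, hW]; exact ⟨a, ha, rfl⟩ }
  let EY : EqData Cy n :=
    { E with
      N := N
      H0 := (H none).map (mapRingHom Mo.res)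
      H := fun i => (H (some i)).map (mapRingHom Mo.res)
      clear0 := by
        have := Mo.red_clear (hH none); rwa [hUr none] at this
      clear := fun i => by
        have := Mo.red_clear (hH (some i)); rwa [hUr (some i)] at this }
  obtain ⟨y, hy0, hydet, hychi, hyr, -⟩ := EY.exists_zero hn hQ hQg
    (fun i => by show (Q i).1.ord E.e = n * Y.divT E.Qa (Q i).1; rw [hEe, hEQ]; exact hoff i) 0
    (fun i => by
      show (n : ℤ) ≤ (Q i).1.ord (E.u0 + ∑ j, (0 : Fin E.m → k) j • E.u j)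
      simp only [Pi.zero_apply, zero_smul, Finset.sum_const_zero, add_zero]
      rw [hE0, (Q i).1.ord_mul hv0 he0, hvord, hoff i, divT_pt_self hQ.1]
      linarith)
  set SV := sys E.hm Mo.P (H none) fun i => H (some i)
  have hsys : EY.system = fun i => MvPolynomial.map Mo.res (SV i) := funext fun i => by
    show sys E.hm Cy.P ((H none).map _) (fun i => (H (some i)).map _) i = _
    rw [map_sys, Mo.P_res]
  obtain ⟨x, hx0, hxy⟩ := exists_zero_lift Mo.V Mo.res Mo.res_surjective Mo.res_eq_zero_iff SV y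
    (fun i => by rw [← hy0 i, hsys]) (by rw [hsys] at hydet; convert hydet)
  obtain ⟨x', hx'0, hx'chi, hx'r⟩ := sys_zero_transport Mo.g_eq E.hm hmX Mo.P (H none)
    (fun i => H (some i)) x hx0
  set z : Var X.g n E.m → K := fun i => (x' i : K)
  have hz : ∀ i, MvPolynomial.eval z (EX.system i) = 0 := fun i => by
    show MvPolynomial.eval z (sys hmX Co.P ((H none).map _) (fun i => (H (some i)).map _) i) = 0
    rw [← Mo.P_eq, ← map_sys, MvPolynomial.eval_map]
    exact (MvPolynomial.eval₂_comp Mo.V.subtype x' _).symm.trans (by rw [hx'0 i, map_zero])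
  obtain ⟨s, hs⟩ := exists_split Mo.V (chiPoly_monic x')
  have hzchi : chiPoly z = ((s.map fun r : Mo.V => (r : K)).map fun r => Polynomial.X - C r).prod :=
    (map_chiPoly Mo.V.subtype x').symm.trans (by rw [hs, map_prod_X_sub_C]; rfl)
  have hzroots : (chiPoly z).roots = s.map fun r : Mo.V => (r : K) := by
    rw [hzchi, roots_multiset_prod_X_sub_C]
  have hsres : s.map Mo.res = (Finset.univ : Finset (Fin Y.g)).val.map (Y.fv Q) := by
    have h1 : (chiPoly x').map Mo.res = chiPoly y := by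
      rw [hx'chi, map_chiPoly]; exact congrArg chiPoly (funext hxy)
    rw [hs, map_prod_X_sub_C, hychi, Finset.prod_eq_multiset_prod] at h1
    have h2 := congrArg Polynomial.roots h1
    rwa [roots_multiset_prod_X_sub_C,
      show ((Finset.univ : Finset (Fin Y.g)).val.map fun i => Polynomial.X - C (Y.fv Q i)) =
        ((Finset.univ : Finset (Fin Y.g)).val.map (Y.fv Q)).map fun r => Polynomial.X - C r from
        by rw [Multiset.map_map]; rfl,
      roots_multiset_prod_X_sub_C] at h2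
  have hinj := Setup.V_ne_zero_iff.mp hQ.1
  have hsep : (chiPoly z).Separable := by
    refine (nodup_roots_iff_of_splits (chiPoly_monic z).ne_zero (IsAlgClosed.splits _)).mp ?_
    rw [hzroots]
    refine Multiset.Nodup.map Subtype.val_injective (Multiset.Nodup.of_map Mo.res ?_)
    rw [hsres]
    exact Multiset.Nodup.map hinj Finset.univ.nodup
  have hmem : ∀ c : K, (chiPoly z).IsRoot c → ∃ r ∈ s, (r : K) = c ∧ ∃ j, Mo.res r = Y.fv Q j :=
    fun c hc => by
    rw [← mem_roots (chiPoly_monic z).ne_zero, hzroots, Multiset.mem_map] at hc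
    obtain ⟨r, hr, hrc⟩ := hc
    have := Multiset.mem_map_of_mem Mo.res hr
    rw [hsres, Multiset.mem_map] at this
    obtain ⟨j, -, hj⟩ := this
    exact ⟨r, hr, hrc, j, hj.symm⟩
  obtain ⟨Q', hV', -, hchi', hr', hfinal⟩ := EX.of_zero (by omega) z hz hsep fun c hc => by
    obtain ⟨r, -, rfl, j, hj⟩ := hmem c hc
    rw [← Mo.Δ_eq]
    intro h0
    refine hQg j ?_
    have h1 : Mo.Δ.eval r = 0 := Subtype.ext ((eval_map_apply Mo.V.subtype r).symm.trans h0)
    rw [← hj, ← Mo.Δ_res, eval_map_apply, h1, map_zero]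
  have hlift : ∀ a, ∀ r : Mo.V, (r : K) = X.fv Q' a → ∀ j, Mo.res r = Y.fv Q j →
      Mo.Lifts (Q' a) (Q j) := fun a r hr j hj => by
    refine ⟨r, (rPoly x').eval r, hr.symm, ?_, hj, ?_⟩
    · have h := hr' a
      rw [← hr] at h
      exact h.symm.trans ((congrArg (Polynomial.eval (r : K)) (map_rPoly Mo.V.subtype x')).symm.trans
        (eval_map_apply Mo.V.subtype r))
    · rw [← eval_map_apply, hj, hx'r, map_rPoly, show Mo.res ∘ x = y from funext hxy]
      exact hyr j
  have hchiroot : ∀ c : K, (chiPoly z).IsRoot c ↔ ∃ a, c = X.fv Q' a := fun c => by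
    rw [hchi', IsRoot, eval_prod, Finset.prod_eq_zero_iff]
    simp [sub_eq_zero]
  have hfind : ∀ j, ∃ a, Mo.Lifts (Q' a) (Q j) := fun j => by
    have : Y.fv Q j ∈ s.map Mo.res := by
      rw [hsres]; exact Multiset.mem_map_of_mem _ (Finset.mem_univ_val j)
    obtain ⟨r, hr, hrj⟩ := Multiset.mem_map.mp this
    have hroot : (chiPoly z).IsRoot (r : K) := by
      rw [← mem_roots (chiPoly_monic z).ne_zero, hzroots]; exact Multiset.mem_map_of_mem _ hr
    obtain ⟨a, ha⟩ := (hchiroot _).mp hroot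
    exact ⟨a, hlift a r ha j hrj⟩
  choose σ hσ using hfind
  have hσb : Function.Bijective σ := (Fintype.bijective_iff_injective_and_card σ).mpr
    ⟨fun i j h => Setup.fv_injective hQ.1 ((hσ i).unique (h ▸ hσ j) (hQg i)),
      by simp [Mo.g_eq]⟩
  refine ⟨Q', ⟨σ, hσb, hσ⟩, hfinal fun a => ?_⟩
  obtain ⟨j, rfl⟩ := hσb.2 a
  show (Q' (σ j)).1.ord (e' : F) = n * X.divT Qa' (Q' (σ j)).1
  obtain ⟨σa, hσab, hla⟩ := hLa
  by_cases hex : ∃ l, Qa l = Q j
  · obtain ⟨l, hl⟩ := hex
    have hlj : Mo.Lifts (Qa' (σa l)) (Q j) := hl ▸ hla l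
    have hge : (e' : F) = 0 ∨ (n : ℤ) ≤ (Qa' (σa l)).1.ord (e' : F) := by
      refine (mem_space_iff.mp he').imp id fun h' => ?_
      have h3 := h' (Qa' (σa l)).1
      rw [Finsupp.sub_apply, Finsupp.smul_apply, Finsupp.single_eq_of_ne (Qa' (σa l)).2,
        divT_pt_self hVa', nsmul_eq_mul] at h3
      linarith
    have hsharp : ¬(Mo.red e' = 0 ∨ ((n + 1 : ℕ) : ℤ) ≤ (Q j).1.ord (Mo.red e')) := by
      rintro (h | h)
      · exact he0 h
      · rw [hoff j, ← hl, divT_pt_self hQa] at h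
        push_cast at h
        linarith
    rcases eq_or_ne (Q' (σ j)) (Qa' (σa l)) with heq | hne
    · rw [heq, divT_pt_self hVa', mul_one]
      refine le_antisymm ?_ (hge.resolve_left he0')
      by_contra hlt
      exact hsharp (hlj.le_ord_red (hQg j) (Or.inr (by push_cast; omega)))
    · rw [(hlj.eq_or_ord_eq_zero (hσ j) (hQg j) hge hsharp).resolve_left hne,
        divT_of_ne fun b hb => ?_, mul_zero]
      obtain ⟨l', rfl⟩ := hσab.2 b
      have h1 : Qa l' = Q j := (hb ▸ hla l' : Mo.Lifts (Q' (σ j)) (Qa l')).unique (hσ j) (hQag l')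
      rw [← hl] at h1
      rw [Setup.fv_injective hQa h1] at hb
      exact hne hb.symm
  · rw [divT_of_ne fun b hb => ?_, mul_zero]
    · obtain ⟨w, hw, hwr⟩ := (hσ j).exists_valAt (hQg j) e'
      obtain ⟨m, hm, hm'⟩ := Mo.exists_mem_L e'
      refine (ord_eq_zero_of_valAt (Setup.mem_ring hm (Q' (σ j)).2) fun h => ?_).2
      have h1 : valAt (Q j).1 (Mo.red e') = 0 := by
        rw [← hwr, show w = 0 from Subtype.ext (hw.symm.trans h), map_zero]
      have h2 := ((valAt_eq_zero_iff (Setup.mem_ring hm' (Q j).2)).mp h1).resolve_left he0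
      rw [hoff j, divT_of_ne (not_exists.mp hex), mul_zero] at h2
      exact lt_irrefl _ h2
    · obtain ⟨l', rfl⟩ := hσab.2 b
      exact hex ⟨l', (hb ▸ hla l' : Mo.Lifts (Q' (σ j)) (Qa l')).unique (hσ j) (hQag l')⟩

/-- Torsion of the special curve is no larger than that of the generic one. -/
theorem Model.card_torsion_le (Mo : Model X Co Y Cy) {n : ℕ} (hn : (n : k) ≠ 0) :
    Nat.card {t : Pic0 k G // n • t = 0} ≤ Nat.card {t : Pic0 K F // n • t = 0} := by
  have hn0 : n ≠ 0 := fun h => hn (by rw [h, Nat.cast_zero])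
  have hnK : (n : K) ≠ 0 := fun h => hn (by
    rw [← map_natCast Mo.res, show (n : Mo.V) = 0 from Subtype.ext (by simpa using h), map_zero])
  haveI := Co.finite_torsion hnK
  haveI := Cy.finite_torsion hn
  by_cases htriv : ∀ t : {t : Pic0 k G // n • t = 0}, t.1 = 0
  · haveI : Subsingleton {t : Pic0 k G // n • t = 0} :=
      ⟨fun a b => Subtype.ext ((htriv a).trans (htriv b).symm)⟩
    haveI : Nonempty {t : Pic0 K F // n • t = 0} := ⟨⟨0, nsmul_zero _⟩⟩
    exact (Finite.card_le_one_iff_subsingleton.mpr inferInstance).trans Nat.card_pos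
  push Not at htriv
  obtain ⟨t₁, ht₁⟩ := htriv
  have hn2 : 2 ≤ n := by
    by_contra h
    obtain rfl : n = 1 := by omega
    exact ht₁ ((one_nsmul t₁.1).symm.trans t₁.2)
  have hg : 0 < Y.g := Nat.pos_of_ne_zero fun h => ht₁ (eq_zero_of_g_eq_zero Y h t₁.1)
  haveI := Fintype.ofFinite {t : Pic0 k G // n • t = 0}
  obtain ⟨Qa, hQa, hQag, hT⟩ := Cy.exists_common_translate
    ((Finset.univ : Finset {t : Pic0 k G // n • t = 0}).image Subtype.val)
  choose Q hQ hQg hQc using fun t : {t : Pic0 k G // n • t = 0} =>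
    hT t.1 (Finset.mem_image_of_mem _ (Finset.mem_univ t))
  set M := n * X.g + 2 * X.g + X.c + 1
  set Z : Finset (Place k G) := insert Y.inf ((Finset.univ.image fun i => (Qa i).1) ∪
    Finset.univ.image fun p : {t : Pic0 k G // n • t = 0} × Fin Y.g => (Q p.1 p.2).1)
  obtain ⟨e, he, he0, heZ⟩ := exists_ord_eq_finset (X := Y)
    (D := Finsupp.single Y.inf (M : ℤ) - n • Y.divT Qa)
    (by
      rw [map_sub, map_nsmul, Y.degree_L, degree_divT, nsmul_eq_mul, Mo.g_eq, Mo.c_eq]
      push_cast [M]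
      linarith) Z ⟨_, Finset.mem_insert_self _ _⟩
  have hei : Y.inf.ord e = -(M : ℤ) := by
    rw [heZ _ (Finset.mem_insert_self _ _), Finsupp.sub_apply, Finsupp.smul_apply,
      Finsupp.single_eq_same, divT_inf, smul_zero, sub_zero]
  have hoff : ∀ t i, (Q t i).1.ord e = n * Y.divT Qa (Q t i).1 := fun t i => by
    rw [heZ _ (Finset.mem_insert_of_mem (Finset.mem_union_right _
      (Finset.mem_image.mpr ⟨(t, i), Finset.mem_univ _, rfl⟩))), Finsupp.sub_apply,
      Finsupp.smul_apply, Finsupp.single_eq_of_ne (Q t i).2, nsmul_eq_mul]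
    ring
  choose c hc using fun i => Mo.res_surjective (valAt (Qa i).1 Y.f)
  choose P' hP' using fun i => (Mo.exists_lifts (hQag i) (hc i)).imp fun _ h => h.1
  set Qa' : X.Tup := fun a => P' (Fin.cast Mo.g_eq.symm a)
  have hLa : Mo.LiftsT Qa' Qa := ⟨Fin.cast Mo.g_eq, (finCongr Mo.g_eq).bijective, fun i => by
    simpa [Qa'] using hP' i⟩
  obtain ⟨e', he'₁, he'₂, he'₃⟩ := hLa.exists_lift_e hQa.1 hQag (M := M) (by omega) he hei he0
  subst he'₃
  choose Q' hQ'L hQ'cl using fun t => Mo.exists_lift_torsion hn hn2 hQa.1 hQag hLa e' he'₁ he'₂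
    he hei he0 (hQ t) (hQg t)
    (by rw [hQc t, nsmul_add, t.2, zero_add]) (hoff t)
  have hreg : ∀ t, X.IsRegT (Q' t) := fun t => by
    refine ⟨((hQ'L t).spec (hQ t).1 (hQg t)).1, le_antisymm ?_ ?_⟩
    · have := (hQ'L t).ell_le (hQ t).1 (hQg t) 1
      rw [one_nsmul, one_nsmul, (hQ t).2] at this
      exact this
    · refine Submodule.one_le_finrank_iff.mpr fun h => ?_
      have : (1 : F) ∈ riemannRochSpace (X.divT (Q' t)) := mem_space_iff.mpr (Or.inr fun v => by
        simpa using Finsupp.le_def.mp (X.divT_nonneg (Q' t)) v)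
      rw [h, Submodule.mem_bot] at this
      exact one_ne_zero this
  refine Nat.card_le_card_of_injective
    (fun t => ⟨X.clT (Q' t) - X.clT Qa', by rw [nsmul_sub, hQ'cl t, sub_self]⟩) fun t t' h => ?_
  have hcl : X.clT (Q' t) = X.clT (Q' t') := sub_left_inj.mp (congrArg Subtype.val h)
  have hd : X.divT (Q' t') = X.divT (Q' t) := effective_unique (hreg t).2 (X.divT_nonneg _)
    (X.divT_nonneg _) (Setup.clT_eq_iff.mp hcl) (by simp)
  obtain ⟨σ, hσb, hσ⟩ := hQ'L t
  obtain ⟨σ', hσb', hσ'⟩ := hQ'L t'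
  have hex : ∀ i, ∃ j, Q t' j = Q t i := fun i => by
    by_contra hne
    have h1 : X.divT (Q' t') (Q' t (σ i)).1 = 0 := divT_of_ne fun b hb => by
      obtain ⟨j, rfl⟩ := hσb'.2 b
      exact hne ⟨j, (hb ▸ hσ' j : Mo.Lifts (Q' t (σ i)) (Q t' j)).unique (hσ i) (hQg t' j)⟩
    rw [hd, divT_pt_self (hreg t).1] at h1
    exact one_ne_zero h1
  choose τ hτ using hex
  have hτi : Function.Injective τ := fun i j e =>
    Setup.fv_injective (hQ t).1 ((hτ i).symm.trans ((congrArg (Q t') e).trans (hτ j)))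
  have hdiv : Y.divT (Q t') = Y.divT (Q t) := by
    rw [Setup.divT, Setup.divT]
    exact ((Finite.injective_iff_bijective.mp hτi).sum_comp
      fun j => Finsupp.single (Q t' j).1 (1 : ℤ)).symm.trans
      (Finset.sum_congr rfl fun i _ => by rw [hτ i])
  refine Subtype.ext ?_
  have := hQc t
  rw [Setup.clT_eq_iff.mpr (show Y.divT (Q t') - Y.divT (Q t) ∈ _ by
    rw [hdiv, sub_self]; exact zero_mem _), hQc t'] at this
  exact (add_right_cancel this).symm

end Fermat.Agent.MCurve.T27
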