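/-
U3: coordinates, and good reduction at some prime.
-/
import Fermat.Agent.MCurve.T27.Hensel
import Fermat.Agent.MCurve.T27.Canonical
import Fermat.Agent.MCurve.T27.Reduction.Coordinate
import Fermat.Agent.MCurve.T27.Reduction.FrobExists
import Fermat.Agent.MCurve.T27.Reduction.Spread

set_option autoImplicit false
set_option linter.unusedSectionVars false

noncomputable section

namespace Fermat.Agent.MCurve.T27

open AlgebraicCurve RR MW
open scoped Classical

universe u v

theorem exists_coordinate {K F : Type*} [Field K] [Field F] [Algebra K F] [IsAlgClosed K]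
    [CharZero K] [∀ v : Place K F, v.FiniteResidue] [HasPrincipalDivisors K F]
    [Nonempty (Place K F)] (X : Setup K F) : Nonempty (Coordinate X) :=
  (exists_frame X).elim exists_coordinate_of_frame

/-- Good reduction modulo some prime not dividing `n`. -/
theorem exists_reduction {K : Type u} {F : Type v} [Field K] [Field F] [Algebra K F]
    [IsAlgClosed K] [CharZero K] [∀ v : Place K F, v.FiniteResidue] [HasPrincipalDivisors K F]
    [Nonempty (Place K F)] (X : Setup K F) (hc : 2 * X.g ≤ X.c) (Co : Coordinate X) {n : ℕ}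
    (hn : n ≠ 0) :
    ∃ (k : Type) (_ : Field k) (_ : IsAlgClosed k) (G : Type (max u v)) (_ : Field G)
      (_ : Algebra k G) (_ : ∀ v : Place k G, v.FiniteResidue) (_ : HasPrincipalDivisors k G)
      (_ : Nonempty (Place k G)) (Y : Setup k G) (Cy : Coordinate Y) (q : ℕ),
      (n : k) ≠ 0 ∧ Nonempty (Model X Co Y Cy) ∧ Nonempty (Frob Y q) := by
  obtain ⟨Fr⟩ := exists_frame X
  obtain ⟨T, hT⟩ := exists_good Fr Co
  obtain ⟨p, hp, e, R, φ, he, hsR, hfix⟩ :=
    exists_frobenius_point (insert ((n : K)⁻¹) T)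
  obtain ⟨V, hRV, res, hres, hsurj, hker⟩ := exists_valuation R φ fun a ha => by
    obtain ⟨r, hr, har⟩ := exists_pow_pow_eq_self p a
    have h1 : 1 ≤ p ^ r := Nat.one_le_pow _ _ hp.out.pos
    refine ⟨p ^ r - 1, ?_, mul_left_cancel₀ ha ?_⟩
    · rw [Nat.cast_sub h1, Nat.cast_pow, CharP.cast_eq_zero, zero_pow hr.ne', zero_sub,
        Nat.cast_one]
      exact neg_ne_zero.mpr one_ne_zero
    · rw [← pow_succ', Nat.sub_add_cancel h1, har, mul_one]
  have hTR : (↑T : Set K) ⊆ R := fun x hx => hsR (Finset.mem_insert_of_mem hx)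
  have hGR := hT R hTR
  have hGV := hT V.toSubring fun x hx => hRV (hTR hx)
  obtain ⟨D⟩ := hGV.exists_intData
  have hcoef : ∀ (x : V), (x : K) ∈ R → res x ^ p ^ e = res x := fun x hx => by
    rw [show res x = φ ⟨x, hx⟩ from hres ⟨x, hx⟩]
    exact hfix _
  have hm : ∀ i j l d, (D.mBar res i j l).coeff d ^ p ^ e = (D.mBar res i j l).coeff d :=
    fun i j l d => by
      rw [IntData.mBar, Polynomial.coeff_map]
      refine hcoef _ ?_
      rw [show ((D.m i j l).coeff d : K) = (Fr.m i j l).coeff d by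
        rw [← D.m_eq, Polynomial.coeff_map]; rfl]
      exact hGR.m_mem i j l d
  have h1 : ∀ i d, (D.oneBar res i).coeff d ^ p ^ e = (D.oneBar res i).coeff d := fun i d => by
    rw [IntData.oneBar, Polynomial.coeff_map]
    refine hcoef _ ?_
    obtain ⟨o, ho, ho1⟩ := hGR.one_over
    rw [show ((D.one i).coeff d : K) = (o i).coeff d by
      rw [← congrFun (Fr.comb_injective (D.one_eq.trans ho1.symm)) i, Polynomial.coeff_map]; rfl]
    exact ho i d
  have hper : ∀ a : AlgebraicClosure (ZMod p), ∃ r, 0 < r ∧ a ^ (p ^ e) ^ r = a := fun a => by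
    obtain ⟨r, hr, har⟩ := exists_pow_pow_eq_self p a
    refine ⟨r, hr, ?_⟩
    rw [show (p ^ e) ^ r = (p ^ r) ^ e by rw [← pow_mul, ← pow_mul, mul_comm]]
    clear he hfix hcoef hm h1
    induction e with
    | zero => simp
    | succ e ih => rw [pow_succ, pow_mul, ih, har]
  obtain ⟨G, _, _, ⟨Rd⟩⟩ := D.exists_red hsurj hker
  obtain ⟨E⟩ := hGV.exists_coData D hker
  obtain ⟨_, _, _, Y, Cy, hM, hYf, hYinf⟩ := Rd.exists_model hsurj hker hc hGV E
  have hnk : (n : AlgebraicClosure (ZMod p)) ≠ 0 := by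
    have h : (n : R) * ⟨(n : K)⁻¹, hsR (Finset.mem_insert_self _ _)⟩ = 1 :=
      Subtype.ext (by simp [hn])
    intro h0
    simpa [h0] using congrArg φ h
  exact ⟨AlgebraicClosure (ZMod p), inferInstance, inferInstance, G, inferInstance, inferInstance,
    inferInstance, inferInstance, inferInstance, Y, Cy, p ^ e, hnk, hM,
    Rd.exists_frob hsurj hYf hYinf he hm h1 hper⟩

end Fermat.Agent.MCurve.T27
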