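/-
S27 assembly: the torsion of degree-zero classes has rank exactly twice the genus.
-/
import Fermat.Agent.MCurve.T27.Bound
import Fermat.Agent.MCurve.T27.Torsion
import Fermat.Agent.MCurve.T27.Reduction
import Fermat.Agent.MCurve.T27.Frobenius
import Fermat.Agent.MCurve.T27.Lift
import Fermat.Agent.MCurve.T27.Canonical

set_option autoImplicit false
set_option linter.unusedSectionVars false

noncomputable section

namespace Fermat.Agent.MCurve.T27

open AlgebraicCurve RR MW

/-- The kernel of multiplication by `ℓ ^ j` on a divisible group. -/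
theorem card_torsion_pow {A : Type*} [AddCommGroup A] {ℓ : ℕ}
    (hdiv : Function.Surjective fun t : A => ℓ • t) (j : ℕ) :
    Nat.card {t : A // ℓ ^ j • t = 0} = Nat.card {t : A // ℓ • t = 0} ^ j := by
  induction j with
  | zero =>
    haveI : Subsingleton {t : A // ℓ ^ 0 • t = 0} := ⟨fun a b => Subtype.ext (by
      have ha := a.2
      have hb := b.2
      simp only [pow_zero, one_nsmul] at ha hb
      rw [ha, hb])⟩
    haveI : Nonempty {t : A // ℓ ^ 0 • t = 0} := ⟨⟨0, nsmul_zero _⟩⟩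
    rw [pow_zero (Nat.card _), Nat.card_of_subsingleton (⟨0, nsmul_zero _⟩ : {t : A // ℓ ^ 0 • t = 0})]
  | succ j ih =>
    choose s hs using hdiv
    simp only at hs
    let e : {t : A // ℓ ^ (j + 1) • t = 0} ≃ {t : A // ℓ • t = 0} × {t : A // ℓ ^ j • t = 0} :=
      { toFun := fun x => (⟨x.1 - s (ℓ • x.1), by rw [nsmul_sub, hs, sub_self]⟩,
          ⟨ℓ • x.1, by rw [← mul_nsmul', ← pow_succ]; exact x.2⟩)
        invFun := fun p => ⟨p.1.1 + s p.2.1, by
          rw [pow_succ, mul_nsmul', nsmul_add, p.1.2, hs, zero_add]; exact p.2.2⟩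
        left_inv := fun x => Subtype.ext (sub_add_cancel _ _)
        right_inv := fun p => by
          have h1 : ℓ • (p.1.1 + s p.2.1) = p.2.1 := by rw [nsmul_add, p.1.2, hs, zero_add]
          refine Prod.ext (Subtype.ext ?_) (Subtype.ext h1)
          show p.1.1 + s p.2.1 - s (ℓ • (p.1.1 + s p.2.1)) = p.1.1
          rw [h1, add_sub_cancel_right] }
    rw [Nat.card_congr e, Nat.card_prod, ih, pow_succ']

theorem eq_of_pow_le_mul_pow {a b C : ℕ} (ha : 0 < a) (hab : a ≤ b)
    (h : ∀ j, b ^ j ≤ C * a ^ j) : b = a := by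
  by_contra hne
  have hlt : a + 1 ≤ b := by omega
  have key : ∀ j, a ^ j * (a + j) ≤ a * (a + 1) ^ j := fun j => by
    induction j with
    | zero => simp
    | succ j ih =>
      calc a ^ (j + 1) * (a + (j + 1)) ≤ (a + 1) * (a ^ j * (a + j)) := by
            rw [pow_succ]
            have : a * (a + (j + 1)) ≤ (a + 1) * (a + j) := by nlinarith
            calc a ^ j * a * (a + (j + 1)) = a ^ j * (a * (a + (j + 1))) := by ring
              _ ≤ a ^ j * ((a + 1) * (a + j)) := Nat.mul_le_mul_left _ this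
              _ = _ := by ring
        _ ≤ (a + 1) * (a * (a + 1) ^ j) := Nat.mul_le_mul_left _ ih
        _ = a * (a + 1) ^ (j + 1) := by ring
  set j := a * C + 1
  have h1 : a ^ j * (a + j) ≤ a ^ j * (a * C) := by
    calc a ^ j * (a + j) ≤ a * (a + 1) ^ j := key j
      _ ≤ a * (C * a ^ j) := Nat.mul_le_mul_left _ ((Nat.pow_le_pow_left hlt j).trans (h j))
      _ = a ^ j * (a * C) := by ring
  have h2 := Nat.le_of_mul_le_mul_left h1 (pow_pos ha j)
  omega

universe u v

/-- The torsion of degree-zero classes in characteristic zero. -/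
theorem card_torsion_eq (K : Type u) (F : Type v) [Field K] [Field F] [Algebra K F] [IsAlgClosed K]
    [CharZero K] [IsCurveOver K F] [Algebra.EssFiniteType K F] {ℓ : ℕ} (hℓ : ℓ.Prime) (j : ℕ) :
    Nat.card {t : Pic0 K F // ℓ ^ j • t = 0} = ℓ ^ (2 * genusFF K F * j) := by
  obtain ⟨x, hx⟩ := exists_isFinOver K F
  obtain ⟨h1, h2, h3⟩ := RR.curve_props hx
  haveI := h2
  haveI := h3
  obtain ⟨X, hc⟩ := exists_setup_large hx
  obtain ⟨Co⟩ := exists_coordinate X
  have hfin : ∀ n : ℕ, 0 < n → Finite {t : Pic0 K F // n • t = 0} := fun n hn =>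
    Co.finite_torsion (Nat.cast_ne_zero.mpr hn.ne')
  haveI := hfin ℓ hℓ.pos
  have hdiv : Function.Surjective fun t : Pic0 K F => ℓ • t := X.divisible hℓ.pos
  obtain ⟨k, _, _, G, _, _, _, _, _, Y, Cy, q, hk, ⟨Mo⟩, ⟨Fr⟩⟩ :=
    exists_reduction X hc Co hℓ.ne_zero
  haveI : Finite {t : Pic0 k G // ℓ • t = 0} := Cy.finite_torsion hk
  have hlow : ℓ ^ (2 * X.g) ≤ Nat.card {t : Pic0 K F // ℓ • t = 0} := by
    rw [← Mo.g_eq]
    refine le_trans ?_ (Mo.card_torsion_le hk)
    exact Fr.pow_le_card_torsion hℓ hk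
      (fun i => Cy.finite_torsion (by rw [Nat.cast_pow]; exact pow_ne_zero i hk)) (Y.divisible hℓ.pos)
  obtain ⟨C, hC⟩ := exists_card_torsion_bound X
  have heq := eq_of_pow_le_mul_pow (pow_pos hℓ.pos _) hlow fun i => by
    rw [← card_torsion_pow hdiv i, ← pow_mul, mul_comm (2 * X.g) i, pow_mul]
    exact hC _ (pow_pos hℓ.pos i) (hfin _ (pow_pos hℓ.pos i))
  rw [card_torsion_pow hdiv j, heq, ← pow_mul, genusFF_eq X]

end Fermat.Agent.MCurve.T27
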